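import Mathlib
import Fermat.Agent.S16.SturmIntegral

/-!
# S36 / [R1-P], part 0: the Miller representation of a level-one form, with integrality

A level-one form `G` of weight `12 m + c0` (`c0 = 4δ + 6ε < 12`) whose `q`-expansion has
coefficients in a subring `V ⊆ ℂ` is a `V`-linear combination
`∑_{c ≤ m} a_c Δ^c E₄^{3(m-c)+δ} E₆^ε` (identity of `q`-expansions), with `a_0` the constant term.
-/

set_option autoImplicit false

namespace Fermat.Agent.S36.R1.PqStructure

open PowerSeries ModularForm EisensteinSeries UpperHalfPlane MatrixGroups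
open Fermat.Agent.S16.SturmIntegral

local notation "Δ" => ModularForm.discriminant

/-- the integral formal discriminant `q ∏ (1 - qⁿ)²⁴` -/
noncomputable def deltaZ : ℤ⟦X⟧ := X * ModularCurve.dedekindEtaUnit

theorem qExpansion_discriminant' : qExpansion 1 Δ = toC deltaZ := by
  rw [Fermat.Agent.S24.QExp.qExpansion_discriminant, deltaZ, map_mul, map_X]

/-- the generic Miller induction -/
theorem miller_repr_gen (V : Subring ℂ) (c0 : ℤ)
    (L : ∀ m : ℕ, ModularForm 𝒮ℒ ((m : ℤ) * 12 + c0)) (LZ : ℕ → ℤ⟦X⟧)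
    (hL : ∀ m, qExpansion 1 (L m) = toC (LZ m)) (hL0 : ∀ m, constantCoeff (LZ m) = 1)
    (hbase : ∀ G' : ModularForm 𝒮ℒ (c0 - 12), G' = 0) :
    ∀ (m : ℕ) (G : ModularForm 𝒮ℒ ((m : ℤ) * 12 + c0)),
      CoeffsIn V.toAddSubgroup (qExpansion 1 G) →
      ∃ a : ℕ → ℂ, (∀ c, a c ∈ V) ∧ a 0 = coeff 0 (qExpansion 1 G) ∧
        qExpansion 1 G = ∑ c ∈ Finset.range (m + 1), a c • (toC deltaZ ^ c * toC (LZ (m - c))) := by
  intro m
  induction m with
  | zero =>
    intro G hG
    set a0 : ℂ := coeff 0 (qExpansion 1 G) with ha0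
    set H : ModularForm 𝒮ℒ (((0 : ℕ) : ℤ) * 12 + c0) := G - a0 • L 0 with hH
    have hqH : qExpansion 1 H = qExpansion 1 G - a0 • toC (LZ 0) := by
      rw [hH, FunLike.coe_sub, ModularForm.qExpansion_sub one_pos one_mem_strictPeriods_SL,
        FunLike.coe_smul, ModularForm.qExpansion_smul one_pos one_mem_strictPeriods_SL, hL]
    have hc0 : coeff 0 (toC (LZ 0)) = 1 := by
      rw [coeff_map, coeff_zero_eq_constantCoeff, hL0, map_one]
    have h0 : (qExpansion 1 H).coeff 0 = 0 := by
      rw [hqH, map_sub, coeff_smul, hc0, smul_eq_mul, mul_one, ← ha0, sub_self]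
    have hfac := qExpansion_eq_qExpansion_discriminant_mul H h0
    have hw : ((0 : ℕ) : ℤ) * 12 + c0 - 12 = c0 - 12 := by push_cast; ring
    have hz : CuspForm.discriminantEquiv (toCuspForm H h0) = 0 :=
      (ModularForm.mcast_eq_zero_iff hw rfl _).mp (hbase _)
    have hH0 : qExpansion 1 H = 0 := by
      rw [hfac, hz]
      simp [UpperHalfPlane.qExpansion_zero]
    refine ⟨fun c => if c = 0 then a0 else 0, fun c => ?_, by simp, ?_⟩
    · by_cases hc : c = 0
      · simp only [hc, if_true]; exact hG 0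
      · simp only [hc, if_false]; exact V.zero_mem
    · have : qExpansion 1 G = a0 • toC (LZ 0) := by
        have := hqH; rw [hH0] at this
        exact (sub_eq_zero.mp this.symm)
      rw [this]
      simp
  | succ m ih =>
    intro G hG
    set a0 : ℂ := coeff 0 (qExpansion 1 G) with ha0
    have ha0V : a0 ∈ V := hG 0
    set H : ModularForm 𝒮ℒ (((m + 1 : ℕ) : ℤ) * 12 + c0) := G - a0 • L (m + 1) with hH
    have hqH : qExpansion 1 H = qExpansion 1 G - a0 • toC (LZ (m + 1)) := by
      rw [hH, FunLike.coe_sub, ModularForm.qExpansion_sub one_pos one_mem_strictPeriods_SL,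
        FunLike.coe_smul, ModularForm.qExpansion_smul one_pos one_mem_strictPeriods_SL, hL]
    have hqG : qExpansion 1 G = a0 • toC (LZ (m + 1)) + qExpansion 1 H := by
      rw [hqH]; ring
    have hc0 : coeff 0 (toC (LZ (m + 1))) = 1 := by
      rw [coeff_map, coeff_zero_eq_constantCoeff, hL0, map_one]
    have h0 : (qExpansion 1 H).coeff 0 = 0 := by
      rw [hqH, map_sub, coeff_smul, hc0, smul_eq_mul, mul_one, ← ha0, sub_self]
    have hfac := qExpansion_eq_qExpansion_discriminant_mul H h0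
    have hfac' := hfac
    rw [Fermat.Agent.S24.QExp.qExpansion_discriminant] at hfac'
    rw [qExpansion_discriminant'] at hfac
    have hw : ((m + 1 : ℕ) : ℤ) * 12 + c0 - 12 = (m : ℤ) * 12 + c0 := by push_cast; ring
    set G' : ModularForm 𝒮ℒ ((m : ℤ) * 12 + c0) :=
      ModularForm.mcast hw (CuspForm.discriminantEquiv (toCuspForm H h0)) with hG'
    have hqG' : qExpansion 1 G' =
        qExpansion 1 (CuspForm.discriminantEquiv (toCuspForm H h0)) := rfl
    have hsmul : CoeffsIn V.toAddSubgroup (a0 • toC (LZ (m + 1))) :=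
      coeffsIn_smul_toC (J := V.toAddSubgroup) ha0V _
    have hHin : CoeffsIn V.toAddSubgroup (qExpansion 1 H) := by
      intro n
      rw [hqH, map_sub]
      exact V.toAddSubgroup.sub_mem (hG n) (hsmul n)
    have hG'in : CoeffsIn V.toAddSubgroup (qExpansion 1 G') := by
      rw [coeffsIn_iff_forall_lt]
      intro k
      exact ((hHin.lt (k + 1)).of_X_mul ModularCurve.dedekindEtaUnit_mul_inv hfac')
    obtain ⟨a', ha'V, -, hrep⟩ := ih G' hG'in
    refine ⟨fun c => if c = 0 then a0 else a' (c - 1), fun c => ?_, by simp, ?_⟩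
    · by_cases hc : c = 0
      · simp only [hc, if_true]; exact ha0V
      · simp only [hc, if_false]; exact ha'V _
    · rw [hqG, hfac, ← hqG', hrep, Finset.mul_sum]
      conv_rhs => rw [Finset.sum_range_succ']
      simp only [Nat.add_eq_zero_iff, one_ne_zero, and_false, if_false, Nat.add_sub_cancel,
        if_true, pow_zero, one_mul, Nat.sub_zero]
      rw [add_comm]
      congr 1
      refine Finset.sum_congr rfl fun c _ => ?_
      rw [Nat.succ_sub_succ, pow_succ]
      simp only [Algebra.mul_smul_comm]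
      congr 1
      ring

/-- the integral leading series `E₄^{3j+δ} E₆^ε` -/
noncomputable def leadZ (δ ε j : ℕ) : ℤ⟦X⟧ :=
  ModularCurve.eisenstein4 ^ (3 * j + δ) * eisenstein6Z ^ ε

theorem constantCoeff_leadZ (δ ε j : ℕ) : constantCoeff (leadZ δ ε j) = 1 := by
  rw [leadZ, map_mul, map_pow, map_pow, ModularCurve.constantCoeff_eisenstein4,
    constantCoeff_eisenstein6Z, one_pow, one_pow, one_mul]

/-- the leading form `E₄^{3j+δ} E₆^ε` of weight `12 j + 4δ + 6ε` -/
noncomputable def leadForm (δ ε j : ℕ) :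
    ModularForm 𝒮ℒ ((j : ℤ) * 12 + ((4 * δ + 6 * ε : ℕ) : ℤ)) :=
  ModularForm.mcast (by push_cast; ring) ((E₄.pow (3 * j + δ)).mul (E₆.pow ε))

theorem qExpansion_leadForm (δ ε j : ℕ) :
    qExpansion 1 (leadForm δ ε j) = toC (leadZ δ ε j) := by
  show qExpansion 1 ((E₄.pow (3 * j + δ)).mul (E₆.pow ε)) = _
  rw [ModularForm.qExpansion_mul one_pos one_mem_strictPeriods_SL,
    ModularForm.qExpansion_pow one_pos one_mem_strictPeriods_SL,
    ModularForm.qExpansion_pow one_pos one_mem_strictPeriods_SL,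
    Fermat.Agent.S24.QExp.qExpansion_E₄, qExpansion_E₆, leadZ, map_mul, map_pow, map_pow]

/-- **Miller representation with integrality.**  A level-one form of weight
`12 m + 4δ + 6ε` (`4δ + 6ε < 12`) with `q`-expansion coefficients in the subring `V` of `ℂ` is
`∑_{c ≤ m} a_c Δ^c E₄^{3(m-c)+δ} E₆^ε` with `a_c ∈ V`, `a_0` the constant term. -/
theorem miller_repr (V : Subring ℂ) (δ ε : ℕ) (hδε : 4 * δ + 6 * ε < 12) (m : ℕ) {k : ℤ}
    (hk : k = (m : ℤ) * 12 + ((4 * δ + 6 * ε : ℕ) : ℤ)) (G : ModularForm 𝒮ℒ k)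
    (hG : ∀ n, coeff n (qExpansion 1 G) ∈ V) :
    ∃ a : ℕ → ℂ, (∀ c, a c ∈ V) ∧ a 0 = coeff 0 (qExpansion 1 G) ∧
      qExpansion 1 G =
        ∑ c ∈ Finset.range (m + 1), a c • (toC deltaZ ^ c * toC (leadZ δ ε (m - c))) := by
  have key := miller_repr_gen V ((4 * δ + 6 * ε : ℕ) : ℤ) (leadForm δ ε) (leadZ δ ε)
    (qExpansion_leadForm δ ε) (constantCoeff_leadZ δ ε)
    (fun G' => rank_zero_iff_forall_zero.mp (levelOne_neg_weight_rank_zero (by omega)) G')
    m (ModularForm.mcast hk G) hG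
  exact key

end Fermat.Agent.S36.R1.PqStructure
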