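import Mathlib
import Fermat.Agent.S36.R1.PqStructure
import Fermat.Agent.S16.LInt
import Fermat.Agent.S16.BetaLemmaCore

/-!
# S36 / [R1-P], part 1: `E_{q-1} ≡ 1 mod q` and the reduction of its Miller representation

For a prime `q ≥ 5` with `q - 1 = 12 m + 4δ + 6ε`:

* `coeff_E_pred_mem_ZLoc`, `coeff_E_pred_mem_ZLocMax` : the `q`-expansion of `E_{q-1}` has
  coefficients in `ℤ_(q)` and is `≡ 1 mod q` (von Staudt, via `BetaLemma.padicNorm_eisCoeff_le`);
* `exists_coeffs` : over every commutative ring `K` with a ring hom `ψ : ZMod q →+* K`,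
  `1 = ∑_{c ≤ m} b_c Δ̄^c Ē₄^{3(m-c)+δ} Ē₆^ε` in `K⟦X⟧`, `b_0 = 1`.
-/

set_option autoImplicit false

namespace Fermat.Agent.S36.R1.PqReduction

open PowerSeries ModularForm EisensteinSeries UpperHalfPlane MatrixGroups
open Fermat.Agent.S16.SturmIntegral Fermat.Agent.S16.LInt Fermat.Agent.S36.R1.PqStructure

variable (q : ℕ) [hq : Fact q.Prime]

/-- a rational number of `q`-adic norm `≤ 1/q` lies in `q ℤ_(q)` -/
theorem ratCast_mem_ZLocMax_of_padicNorm_le {r : ℚ} (h : padicNorm q r ≤ (q : ℚ)⁻¹) :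
    (r : ℂ) ∈ ZLocMax q := by
  have hq1 : (1 : ℚ) < q := by exact_mod_cast hq.out.one_lt
  have hinv : ((q : ℚ))⁻¹ < 1 := inv_lt_one_of_one_lt₀ hq1
  rw [ZLocMax, ratCast_mem_ZLocPow_iff, pow_one]
  have hr : r = (r.num : ℚ) / (r.den : ℚ) := (Rat.num_div_den r).symm
  have hdenne : ((r.den : ℤ) : ℚ) ≠ 0 := by
    have := r.den_pos
    exact_mod_cast this.ne'
  have hnorm : padicNorm q r = padicNorm q (r.num : ℚ) / padicNorm q ((r.den : ℤ) : ℚ) := by
    conv_lhs => rw [hr]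
    rw [padicNorm.div]
    push_cast
    rfl
  have hnum1 : padicNorm q (r.num : ℚ) ≤ 1 := padicNorm.of_int _
  have hden1 : padicNorm q ((r.den : ℤ) : ℚ) ≤ 1 := padicNorm.of_int _
  have hdenpos : 0 < padicNorm q ((r.den : ℤ) : ℚ) := by
    rcases (padicNorm.nonneg (p := q) ((r.den : ℤ) : ℚ)).lt_or_eq with h | h
    · exact h
    · exact absurd h.symm (padicNorm.nonzero hdenne)
  have hden : ¬ q ∣ r.den := by
    intro hd
    -- then `q ∤ num`, so the norm of `r` is `> 1`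
    have hnd : ¬ (q : ℤ) ∣ r.num := by
      intro hn
      have h1 : q ∣ r.num.natAbs := by
        exact Int.natCast_dvd.mp hn
      have := Nat.dvd_gcd h1 hd
      rw [r.reduced] at this
      exact hq.out.one_lt.ne' (Nat.dvd_one.mp this)
    have hnum : padicNorm q (r.num : ℚ) = 1 := by
      refine le_antisymm hnum1 (not_lt.mp fun hlt => hnd ?_)
      exact (padicNorm.int_lt_one_iff _).mp hlt
    rw [hnorm, hnum] at h
    have : (1 : ℚ) ≤ 1 / padicNorm q ((r.den : ℤ) : ℚ) := by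
      rw [le_div_iff₀ hdenpos, one_mul]; exact hden1
    linarith
  refine ⟨hden, ?_⟩
  have hdeneq : padicNorm q ((r.den : ℤ) : ℚ) = 1 := by
    refine le_antisymm hden1 (not_lt.mp fun hlt => hden ?_)
    have := (padicNorm.int_lt_one_iff _).mp hlt
    exact_mod_cast this
  rw [hnorm, hdeneq, div_one] at h
  exact (padicNorm.int_lt_one_iff _).mp (lt_of_le_of_lt h hinv)

/-- the Eisenstein coefficient `-2(q-1)/B_{q-1}` lies in `q ℤ_(q)` -/
theorem eisCoeff_mem_ZLocMax (h5 : 5 ≤ q) :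
    (-(2 * ((q - 1 : ℕ) : ℂ) / (_root_.bernoulli (q - 1) : ℂ))) ∈ ZLocMax q := by
  have h := Fermat.Agent.S16.BetaLemma.padicNorm_eisCoeff_le q (by omega)
  have h' : padicNorm q (-(2 * ((q - 1 : ℕ) : ℚ) / _root_.bernoulli (q - 1))) ≤ (q : ℚ)⁻¹ := by
    rwa [padicNorm.neg]
  have := ratCast_mem_ZLocMax_of_padicNorm_le q h'
  push_cast at this ⊢
  exact this

omit hq in
theorem three_le_pred (h5 : 5 ≤ q) : 3 ≤ q - 1 := by omega

theorem even_pred (h5 : 5 ≤ q) : Even (q - 1) := by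
  have hodd : Odd q := hq.out.odd_of_ne_two (by omega)
  obtain ⟨m, hm⟩ := hodd
  exact ⟨m, by omega⟩

/-- the positive-index coefficients of `E_{q-1}` lie in `q ℤ_(q)` -/
theorem coeff_E_pred_mem_ZLocMax (h5 : 5 ≤ q) {n : ℕ} (hn : n ≠ 0) :
    coeff n (qExpansion 1 (E (three_le_pred q h5))) ∈ ZLocMax q := by
  rw [E_qExpansion_coeff (three_le_pred q h5) (even_pred q h5), if_neg hn]
  rw [mul_comm]
  exact mul_mem_ZLocPow q (natCast_mem_ZLoc q _) (eisCoeff_mem_ZLocMax q h5)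

theorem coeff_E_pred_zero (h5 : 5 ≤ q) :
    coeff 0 (qExpansion 1 (E (three_le_pred q h5))) = 1 :=
  E_qExpansion_coeff_zero (three_le_pred q h5) (even_pred q h5)

/-- the `q`-expansion of `E_{q-1}` has coefficients in `ℤ_(q)` -/
theorem coeff_E_pred_mem_ZLoc (h5 : 5 ≤ q) (n : ℕ) :
    coeff n (qExpansion 1 (E (three_le_pred q h5))) ∈ ZLoc q := by
  by_cases hn : n = 0
  · rw [hn, coeff_E_pred_zero q h5]; exact (ZLoc q).one_mem
  · exact ZLocPow_le_ZLoc q 1 (coeff_E_pred_mem_ZLocMax q h5 hn)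

/-- **Reduction of the Miller representation of `E_{q-1}`.**  `q ≥ 5` prime,
`q - 1 = 12 m + 4δ + 6ε`; for every commutative ring `K` receiving `ZMod q`:
`1 = ∑_{c ≤ m} b_c Δ̄^c Ē₄^{3(m-c)+δ} Ē₆^ε` in `K⟦X⟧` with `b_0 = 1`. -/
theorem exists_coeffs (h5 : 5 ≤ q) {m δ ε : ℕ} (hδε : 4 * δ + 6 * ε < 12)
    (hqm : q - 1 = 12 * m + 4 * δ + 6 * ε) {K : Type*} [CommRing K] (ψ : ZMod q →+* K) :
    ∃ b : ℕ → K, b 0 = 1 ∧
      (1 : K⟦X⟧) = ∑ c ∈ Finset.range (m + 1),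
        C (b c) * (deltaZ ^ c * leadZ δ ε (m - c)).map (Int.castRingHom K) := by
  have hk : ((q - 1 : ℕ) : ℤ) = (m : ℤ) * 12 + ((4 * δ + 6 * ε : ℕ) : ℤ) := by
    rw [hqm]; push_cast; ring
  obtain ⟨a, haV, ha0, hrep⟩ := miller_repr (ZLoc q) δ ε hδε m hk (E (three_le_pred q h5))
    (coeff_E_pred_mem_ZLoc q h5)
  set Ψ : ZLoc q →+* K := ψ.comp (redZ q) with hΨ
  set z : ℕ → ℕ → ℤ := fun c n => coeff n (deltaZ ^ c * leadZ δ ε (m - c)) with hz
  have hcoeff : ∀ n, coeff n (qExpansion 1 (E (three_le_pred q h5))) =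
      ∑ c ∈ Finset.range (m + 1), a c * ((z c n : ℤ) : ℂ) := by
    intro n
    rw [hrep, map_sum]
    refine Finset.sum_congr rfl fun c _ => ?_
    rw [coeff_smul, smul_eq_mul, ← map_pow, ← map_mul, coeff_map, eq_intCast]
  -- the identity in the subring
  have hsub : ∀ n, (⟨coeff n (qExpansion 1 (E (three_le_pred q h5))),
      coeff_E_pred_mem_ZLoc q h5 n⟩ : ZLoc q) =
      ∑ c ∈ Finset.range (m + 1), (⟨a c, haV c⟩ : ZLoc q) * ((z c n : ℤ) : ZLoc q) := by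
    intro n
    apply Subtype.ext
    refine (hcoeff n).trans ?_
    rw [AddSubmonoidClass.coe_finsetSum]
    refine Finset.sum_congr rfl fun c _ => ?_
    rw [Subring.coe_mul, Subring.coe_intCast]
  have hΨ0 : ∀ n, Ψ ⟨coeff n (qExpansion 1 (E (three_le_pred q h5))),
      coeff_E_pred_mem_ZLoc q h5 n⟩ = if n = 0 then 1 else 0 := by
    intro n
    by_cases hn : n = 0
    · subst hn
      rw [if_pos rfl]
      have : (⟨coeff 0 (qExpansion 1 (E (three_le_pred q h5))),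
          coeff_E_pred_mem_ZLoc q h5 0⟩ : ZLoc q) = 1 :=
        Subtype.ext (coeff_E_pred_zero q h5)
      rw [this, map_one]
    · rw [if_neg hn, hΨ, RingHom.comp_apply,
        (redZ_eq_zero_iff' q _).mpr (coeff_E_pred_mem_ZLocMax q h5 hn), map_zero]
  refine ⟨fun c => Ψ ⟨a c, haV c⟩, ?_, ?_⟩
  · have : (⟨a 0, haV 0⟩ : ZLoc q) = 1 :=
      Subtype.ext (ha0.trans (coeff_E_pred_zero q h5))
    show Ψ ⟨a 0, haV 0⟩ = 1
    rw [this, map_one]
  · ext n
    rw [coeff_one, map_sum, ← hΨ0 n, hsub n, map_sum]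
    refine Finset.sum_congr rfl fun c _ => ?_
    rw [map_mul, map_intCast, coeff_C_mul, coeff_map, eq_intCast]

end Fermat.Agent.S36.R1.PqReduction
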