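import Mathlib
import Fermat.Agent.S36.R1.PqReduction
import Fermat.Agent.S16.BetaLemmaD

/-!
# S36 / [R1-P], part 2: `Δ̄^{1-q} = j̄^{4δ} (j̄ - 1728)^{6ε} S̄(j̄)^{12}` in characteristic `q ≥ 5`

`K` a field of characteristic `q ≥ 5`, `q - 1 = 12 m + 4δ + 6ε` (`δ, ε ≤ 1`).  In `K((Q))`, with
`E4K, E6K, DeltaK` the reductions of the formal `E₄, E₆, Δ` (`S16/BetaLemmaA`) and
`jqModC K` the reduction of `j`:

* `exists_ssPoly` : there is a monic `S ∈ K[X]` of degree `m` (the supersingular polynomial, up to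
  the factors `X`, `X - 1728`) with `E4K^δ · E6K^ε · DeltaK^m · S(j̄) = 1`
  (this is `Ē_{q-1} = 1` rewritten through the Miller basis);
* `deltaK_pow_mul` : `DeltaK^(q-1) · j̄^{4δ} (j̄ - 1728)^{6ε} S(j̄)^{12} = 1`, i.e.
  `Δ̄^{1-q} = P̄_q(j̄)`, a 12-th power up to the factors at `0` and `1728`.
-/

set_option autoImplicit false

namespace Fermat.Agent.S36.R1.PqLaurent

open Polynomial ModularCurve
open Fermat.Agent.S16.BetaLemma Fermat.Agent.S36.R1.PqStructure Fermat.Agent.S36.R1.PqReduction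
open Fermat.Agent.S16.SturmIntegral

/-- the two formal `E₆` coincide -/
theorem eisenstein6Z_eq_eis6 : eisenstein6Z = eis6 := by
  ext n
  rw [eisenstein6Z, eis6, PowerSeries.coeff_mk, PowerSeries.coeff_mk]
  by_cases hn : n = 0
  · simp [hn]
  · simp only [hn, if_false]
    rw [ArithmeticFunction.sigma_apply]
    push_cast
    rfl

section

variable (q : ℕ) [hq : Fact q.Prime] (K : Type*) [Field K] [CharP K q]

/-- images of the integral series in `K((Q))` -/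
theorem ofPowerSeries_map_deltaZ :
    HahnSeries.ofPowerSeries ℤ K (deltaZ.map (Int.castRingHom K)) = DeltaK K := rfl

theorem ofPowerSeries_map_leadZ (δ ε j : ℕ) :
    HahnSeries.ofPowerSeries ℤ K ((leadZ δ ε j).map (Int.castRingHom K)) =
      E4K K ^ (3 * j + δ) * E6K K ^ ε := by
  rw [leadZ, eisenstein6Z_eq_eis6, map_mul, map_mul, map_pow, map_pow, map_pow, map_pow]
  rfl

/-- `Δ̄^c Ē₄^{3(m-c)} = Δ̄^m j̄^{m-c}` -/
theorem deltaK_pow_mul_E4K_pow {m c : ℕ} (hc : c ≤ m) :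
    DeltaK K ^ c * E4K K ^ (3 * (m - c)) = DeltaK K ^ m * jqModC K ^ (m - c) := by
  obtain ⟨d, rfl⟩ := Nat.exists_eq_add_of_le hc
  rw [Nat.add_sub_cancel_left, pow_mul, ← jqModC_mul_DeltaK, mul_pow, pow_add]
  ring

/-- the supersingular-type polynomial attached to the coefficients `b` -/
noncomputable def ssPoly (b : ℕ → K) (m : ℕ) : K[X] :=
  ∑ c ∈ Finset.range (m + 1), C (b c) * X ^ (m - c)

variable {K}

theorem ssPoly_eq (b : ℕ → K) (m : ℕ) (hb : b 0 = 1) :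
    ssPoly K b m = X ^ m + ∑ c ∈ Finset.range m, C (b (c + 1)) * X ^ (m - (c + 1)) := by
  rw [ssPoly, Finset.sum_range_succ', hb, map_one, one_mul, Nat.sub_zero, add_comm]

theorem degree_ssPoly_tail_lt (b : ℕ → K) (m : ℕ) :
    (∑ c ∈ Finset.range m, C (b (c + 1)) * X ^ (m - (c + 1))).degree < (m : WithBot ℕ) := by
  refine lt_of_le_of_lt (degree_sum_le _ _) ?_
  refine (Finset.sup_lt_iff (WithBot.bot_lt_coe m)).mpr ?_
  intro c hc
  have hc' := Finset.mem_range.mp hc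
  refine lt_of_le_of_lt (degree_C_mul_X_pow_le _ _) ?_
  exact WithBot.coe_lt_coe.mpr (by omega : m - (c + 1) < m)

theorem ssPoly_monic (b : ℕ → K) (m : ℕ) (hb : b 0 = 1) : (ssPoly K b m).Monic := by
  rw [ssPoly_eq b m hb]
  exact monic_X_pow_add (degree_ssPoly_tail_lt b m)

theorem natDegree_ssPoly (b : ℕ → K) (m : ℕ) (hb : b 0 = 1) : (ssPoly K b m).natDegree = m := by
  rw [ssPoly_eq b m hb]
  have h := degree_ssPoly_tail_lt b m
  rw [natDegree_add_eq_left_of_degree_lt (by rwa [degree_X_pow]), natDegree_X_pow]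

variable (K)

/-- **`Ē_{q-1} = 1` through the Miller basis**: a monic `S ∈ K[X]` of degree `m` with
`Ē₄^δ Ē₆^ε Δ̄^m S(j̄) = 1` in `K((Q))`. -/
theorem exists_ssPoly (h5 : 5 ≤ q) {m δ ε : ℕ} (hδε : 4 * δ + 6 * ε < 12)
    (hqm : q - 1 = 12 * m + 4 * δ + 6 * ε) :
    ∃ S : K[X], S.Monic ∧ S.natDegree = m ∧
      E4K K ^ δ * E6K K ^ ε * DeltaK K ^ m * aeval (jqModC K) S = 1 := by
  obtain ⟨b, hb0, hb⟩ := exists_coeffs q h5 hδε hqm (ZMod.castHom (dvd_refl q) K)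
  refine ⟨ssPoly K b m, ssPoly_monic b m hb0, natDegree_ssPoly b m hb0, ?_⟩
  have h1 := congrArg (HahnSeries.ofPowerSeries ℤ K) hb
  rw [map_one, map_sum] at h1
  rw [h1, ssPoly, map_sum, Finset.mul_sum]
  refine (Finset.sum_congr rfl fun c hc => ?_).symm
  have hc' : c ≤ m := Nat.lt_succ_iff.mp (Finset.mem_range.mp hc)
  rw [map_mul (HahnSeries.ofPowerSeries ℤ K), HahnSeries.ofPowerSeries_C,
    map_mul (PowerSeries.map (Int.castRingHom K)), map_pow (PowerSeries.map (Int.castRingHom K)),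
    map_mul (HahnSeries.ofPowerSeries ℤ K), map_pow (HahnSeries.ofPowerSeries ℤ K),
    ofPowerSeries_map_deltaZ, ofPowerSeries_map_leadZ, map_mul, aeval_C, map_pow, aeval_X,
    LaurentSeries.algebraMap_apply, pow_add]
  have key := deltaK_pow_mul_E4K_pow K hc'
  calc HahnSeries.C (b c) * (DeltaK K ^ c * (E4K K ^ (3 * (m - c)) * E4K K ^ δ * E6K K ^ ε))
      = HahnSeries.C (b c) * ((DeltaK K ^ c * E4K K ^ (3 * (m - c))) * E4K K ^ δ * E6K K ^ ε) := by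
        ring
    _ = E4K K ^ δ * E6K K ^ ε * DeltaK K ^ m * (HahnSeries.C (b c) * jqModC K ^ (m - c)) := by
        rw [key]; ring

/-- `Ē₆² = Δ̄ (j̄ - 1728)` -/
theorem E6K_sq : E6K K ^ 2 = DeltaK K * (jqModC K - 1728) := by
  have h1 := E4K_cube_sub (K := K) h1728
  have h2 := jqModC_mul_DeltaK K
  rw [mul_sub, mul_comm (DeltaK K) (jqModC K), h2]
  linear_combination -h1

/-- **`Δ̄^{1-q} = j̄^{4δ} (j̄ - 1728)^{6ε} S(j̄)^{12}`** in `K((Q))`, `char K = q ≥ 5`. -/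
theorem deltaK_pow_mul (h5 : 5 ≤ q) {m δ ε : ℕ} (hδε : 4 * δ + 6 * ε < 12)
    (hqm : q - 1 = 12 * m + 4 * δ + 6 * ε) :
    ∃ S : K[X], S.Monic ∧ S.natDegree = m ∧
      DeltaK K ^ (q - 1) * (jqModC K ^ (4 * δ) * (jqModC K - 1728) ^ (6 * ε) *
        aeval (jqModC K) S ^ 12) = 1 := by
  obtain ⟨S, hS1, hS2, hS⟩ := exists_ssPoly q K h5 hδε hqm
  refine ⟨S, hS1, hS2, ?_⟩
  have h12 := congrArg (fun x => x ^ 12) hS
  simp only [one_pow] at h12
  rw [← h12, hqm]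
  have hE4 : (E4K K ^ δ) ^ 12 = (jqModC K * DeltaK K) ^ (4 * δ) := by
    rw [jqModC_mul_DeltaK, ← pow_mul, ← pow_mul]
    congr 1; ring
  have hE6 : (E6K K ^ ε) ^ 12 = (DeltaK K * (jqModC K - 1728)) ^ (6 * ε) := by
    rw [← E6K_sq, ← pow_mul, ← pow_mul]
    congr 1; ring
  rw [mul_pow, mul_pow, mul_pow, hE4, hE6, mul_pow, mul_pow, ← pow_mul (DeltaK K) m 12]
  rw [pow_add, pow_add]
  ring

omit [CharP K q] in
/-- `q - 1 = 12 m + 4δ + 6ε` with `δ, ε ∈ {0, 1}` for a prime `q ≥ 5` -/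
theorem exists_decomp (h5 : 5 ≤ q) :
    ∃ m δ ε : ℕ, δ ≤ 1 ∧ ε ≤ 1 ∧ q - 1 = 12 * m + 4 * δ + 6 * ε := by
  have h2 : ¬ 2 ∣ q := fun h => by
    have := (Nat.prime_dvd_prime_iff_eq Nat.prime_two hq.out).mp h
    omega
  have h3 : ¬ 3 ∣ q := fun h => by
    have := (Nat.prime_dvd_prime_iff_eq Nat.prime_three hq.out).mp h
    omega
  have hmod : q % 12 = 1 ∨ q % 12 = 5 ∨ q % 12 = 7 ∨ q % 12 = 11 := by omega
  rcases hmod with h | h | h | h
  · exact ⟨q / 12, 0, 0, by omega, by omega, by omega⟩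
  · exact ⟨q / 12, 1, 0, by omega, by omega, by omega⟩
  · exact ⟨q / 12, 0, 1, by omega, by omega, by omega⟩
  · exact ⟨q / 12, 1, 1, by omega, by omega, by omega⟩

/-- **The `P_q(j)`-structure, packaged**: for a field `K` of characteristic `q ≥ 5` there are
`m`, `δ, ε ∈ {0,1}` with `q - 1 = 12 m + 4δ + 6ε` and a monic `S ∈ K[X]` of degree `m` such that
`Δ̄^{q-1} · j̄^{4δ} (j̄ - 1728)^{6ε} S(j̄)^{12} = 1` and `Ē₄^δ Ē₆^ε Δ̄^m S(j̄) = 1` in `K((Q))`. -/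
theorem exists_structure (h5 : 5 ≤ q) :
    ∃ (m δ ε : ℕ) (S : K[X]), δ ≤ 1 ∧ ε ≤ 1 ∧ q - 1 = 12 * m + 4 * δ + 6 * ε ∧
      S.Monic ∧ S.natDegree = m ∧
      E4K K ^ δ * E6K K ^ ε * DeltaK K ^ m * aeval (jqModC K) S = 1 ∧
      DeltaK K ^ (q - 1) * (jqModC K ^ (4 * δ) * (jqModC K - 1728) ^ (6 * ε) *
        aeval (jqModC K) S ^ 12) = 1 := by
  obtain ⟨m, δ, ε, hδ, hε, hqm⟩ := exists_decomp q h5
  have hδε : 4 * δ + 6 * ε < 12 := by omega
  obtain ⟨S, hS1, hS2, hS⟩ := exists_ssPoly q K h5 hδε hqm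
  refine ⟨m, δ, ε, S, hδ, hε, hqm, hS1, hS2, hS, ?_⟩
  -- same computation as `deltaK_pow_mul`, for this `S`
  have h12 := congrArg (fun x => x ^ 12) hS
  simp only [one_pow] at h12
  rw [← h12, hqm]
  have hE4 : (E4K K ^ δ) ^ 12 = (jqModC K * DeltaK K) ^ (4 * δ) := by
    rw [jqModC_mul_DeltaK, ← pow_mul, ← pow_mul]
    congr 1; ring
  have hE6 : (E6K K ^ ε) ^ 12 = (DeltaK K * (jqModC K - 1728)) ^ (6 * ε) := by
    rw [← E6K_sq, ← pow_mul, ← pow_mul]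
    congr 1; ring
  rw [mul_pow, mul_pow, mul_pow, hE4, hE6, mul_pow, mul_pow, ← pow_mul (DeltaK K) m 12]
  rw [pow_add, pow_add]
  ring

end

end Fermat.Agent.S36.R1.PqLaurent
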