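import Mathlib

/-!
# S36, block (R1): the order computation `12 ∣ ord_y (P̄)` in a Dedekind domain

`A` a Dedekind domain (the coordinate ring `R̄` of the special fibre of level `M₀`),
`v : HeightOneSpectrum A` a closed point `y`.

* `mem_pow_of_intValuation_eq_pow` : `x ∈ 𝔪_y`, `v(x) = γ ^ n` (`n ≠ 0`) `⇒ x ∈ 𝔪_y ^ n`;
* `mem_pow_twelve` : from the identity `P · j ^ (4 a) · (j - c) ^ (6 b) = T ^ 12`
  (`P = Δ̄ ^ (1 - q)`, `c = 1728`, `q ≥ 5`) and the divisibilities `3 ∣ ord_y j`, `2 ∣ ord_y (j - c)`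
  of block [AUX]: `P ∈ 𝔪_y ⇒ P ∈ 𝔪_y ^ 12`;
* `mem_pow_twelve_of_sq` (`q = 3`: `P = j ^ 2`, `6 ∣ ord_y j`),
  `mem_pow_twelve_of_self` (`q = 2`: `P = j`, `12 ∣ ord_y j`).
-/

set_option autoImplicit false

namespace Fermat.Agent.S36.R1.OrdTwelve

open IsDedekindDomain WithZero

/-- In `ℤᵐ⁰`: `γ ^ n < 1 ⇒ γ ^ n ≤ exp (-n)`. -/
theorem pow_le_exp_neg_of_pow_lt_one {γ : ℤᵐ⁰} {n : ℕ} (hn : n ≠ 0) (h : γ ^ n < 1) :
    γ ^ n ≤ exp (-(n : ℤ)) := by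
  by_cases h0 : γ = 0
  · rw [h0, zero_pow hn]; exact zero_le
  · have hγ : γ = exp (log γ) := (exp_log h0).symm
    rw [hγ, ← exp_nsmul, ← exp_zero, exp_lt_exp, nsmul_eq_mul] at h
    rw [hγ, ← exp_nsmul, exp_le_exp, nsmul_eq_mul]
    have hn' : (0 : ℤ) < n := by exact_mod_cast Nat.pos_of_ne_zero hn
    have h1 : log γ < 0 := by
      by_contra hge
      rw [not_lt] at hge
      have : (0 : ℤ) ≤ (n : ℤ) * log γ := mul_nonneg hn'.le hge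
      omega
    have h2 : log γ ≤ -1 := by omega
    nlinarith

variable {A : Type*} [CommRing A] [IsDedekindDomain A] (v : HeightOneSpectrum A)

/-- `x ∈ 𝔪`, `v(x)` an `n`-th power in the value group `⇒ x ∈ 𝔪 ^ n`. -/
theorem mem_pow_of_intValuation_eq_pow {x : A} {n : ℕ} (hn : n ≠ 0) (hx : x ∈ v.asIdeal)
    {γ : ℤᵐ⁰} (hγ : v.intValuation x = γ ^ n) : x ∈ v.asIdeal ^ n := by
  rw [← v.intValuation_le_pow_iff_mem, hγ]
  apply pow_le_exp_neg_of_pow_lt_one hn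
  rw [← hγ, v.intValuation_lt_one_iff_mem]
  exact hx

/-- **The order computation of (R1), `q ≥ 5`.** -/
theorem mem_pow_twelve {P j c T : A} {a b : ℕ}
    (hid : P * j ^ (4 * a) * (j - c) ^ (6 * b) = T ^ 12)
    (hj0 : j ≠ 0) (hj1 : j - c ≠ 0)
    (h3 : ∃ γ : ℤᵐ⁰, v.intValuation j = γ ^ 3) (h2 : ∃ γ : ℤᵐ⁰, v.intValuation (j - c) = γ ^ 2)
    (hP : P ∈ v.asIdeal) : P ∈ v.asIdeal ^ 12 := by
  obtain ⟨γ₁, hγ₁⟩ := h3
  obtain ⟨γ₂, hγ₂⟩ := h2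
  have hγ₁0 : γ₁ ≠ 0 := by
    rintro rfl
    rw [zero_pow (by norm_num)] at hγ₁
    exact v.intValuation_ne_zero j hj0 hγ₁
  have hγ₂0 : γ₂ ≠ 0 := by
    rintro rfl
    rw [zero_pow (by norm_num)] at hγ₂
    exact v.intValuation_ne_zero (j - c) hj1 hγ₂
  have h := congrArg v.intValuation hid
  rw [map_mul, map_mul, map_pow, map_pow, map_pow, hγ₁, hγ₂] at h
  refine mem_pow_of_intValuation_eq_pow v (by norm_num) hP
    (γ := v.intValuation T * (γ₁ ^ a * γ₂ ^ b)⁻¹) ?_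
  have hne : γ₁ ^ a * γ₂ ^ b ≠ 0 := mul_ne_zero (pow_ne_zero _ hγ₁0) (pow_ne_zero _ hγ₂0)
  rw [mul_pow, ← h, inv_pow]
  have e : (γ₁ ^ 3) ^ (4 * a) * (γ₂ ^ 2) ^ (6 * b) = (γ₁ ^ a * γ₂ ^ b) ^ 12 := by
    rw [mul_pow, ← pow_mul, ← pow_mul, ← pow_mul, ← pow_mul]
    congr 2 <;> ring
  rw [mul_assoc (v.intValuation P) ((γ₁ ^ 3) ^ (4 * a)), e, mul_assoc,
    mul_inv_cancel₀ (pow_ne_zero _ hne), mul_one]

/-- `q = 3`: `P = j ^ 2` and `6 ∣ ord_y j`. -/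
theorem mem_pow_twelve_of_sq {P j : A} (hid : P = j ^ 2)
    (h6 : ∃ γ : ℤᵐ⁰, v.intValuation j = γ ^ 6) (hP : P ∈ v.asIdeal) : P ∈ v.asIdeal ^ 12 := by
  obtain ⟨γ, hγ⟩ := h6
  refine mem_pow_of_intValuation_eq_pow v (by norm_num) hP (γ := γ) ?_
  rw [hid, map_pow, hγ, ← pow_mul]

/-- `q = 2`: `P = j` and `12 ∣ ord_y j`. -/
theorem mem_pow_twelve_of_self {P j : A} (hid : P = j)
    (h12 : ∃ γ : ℤᵐ⁰, v.intValuation j = γ ^ 12) (hP : P ∈ v.asIdeal) : P ∈ v.asIdeal ^ 12 := by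
  obtain ⟨γ, hγ⟩ := h12
  exact mem_pow_of_intValuation_eq_pow v (by norm_num) hP (γ := γ) (by rw [hid, hγ])

end Fermat.Agent.S36.R1.OrdTwelve
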