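import Mathlib
import Fermat.Agent.S16.BetaLemmaA

/-!
# S36 / [R1-P], the small primes `q ∈ {2, 3}`: `Δ̄^{1-q} = j̄^{q-1}`

In characteristic `2` and `3` one has `240 = 0 = 504`, hence the reductions of the formal `E₄`, `E₆`
are `1`, and `j̄ Δ̄ = Ē₄³ = 1` in `K((Q))`:

* `E4K_eq_one` (`(240 : K) = 0`), `E6K_eq_one` (`(504 : K) = 0`);
* `jqModC_mul_DeltaK_eq_one` : `j̄ · Δ̄ = 1` when `(240 : K) = 0`;
* `deltaK_pow_mul_small` : `Δ̄^n · j̄^n = 1` for every `n` (so `Δ̄^{-1} = j̄` for `q = 2`,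
  `Δ̄^{-2} = j̄²` for `q = 3`), the analogue for `q ∈ {2, 3}` of `PqLaurent.deltaK_pow_mul`;
* `charTwo`, `charThree` versions with `[CharP K 2]`, `[CharP K 3]`.
-/

set_option autoImplicit false

namespace Fermat.Agent.S36.R1.PqSmall

open ModularCurve Fermat.Agent.S16.BetaLemma

variable {K : Type*} [Field K]

/-- `Ē₄ = 1` as soon as `240 = 0` in `K` (characteristic `2`, `3`, `5`). -/
theorem E4K_eq_one (h : (240 : K) = 0) : E4K K = 1 := by
  have h1 : eisenstein4.map (Int.castRingHom K) = 1 := by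
    ext n
    rw [PowerSeries.coeff_map, eisenstein4, PowerSeries.coeff_mk, PowerSeries.coeff_one]
    by_cases hn : n = 0
    · simp [hn]
    · simp only [hn, if_false]
      rw [map_mul, map_ofNat, h, zero_mul]
  rw [E4K, h1, map_one]

/-- `Ē₆ = 1` as soon as `504 = 0` in `K` (characteristic `2`, `3`, `7`). -/
theorem E6K_eq_one (h : (504 : K) = 0) : E6K K = 1 := by
  have h1 : eis6.map (Int.castRingHom K) = 1 := by
    ext n
    rw [PowerSeries.coeff_map, eis6, PowerSeries.coeff_mk, PowerSeries.coeff_one]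
    by_cases hn : n = 0
    · simp [hn]
    · simp only [hn, if_false]
      rw [map_mul, map_neg, map_ofNat, h, neg_zero, zero_mul]
  rw [E6K, h1, map_one]

/-- `j̄ · Δ̄ = 1` when `240 = 0` in `K`. -/
theorem jqModC_mul_DeltaK_eq_one (h : (240 : K) = 0) : jqModC K * DeltaK K = 1 := by
  rw [jqModC_mul_DeltaK, E4K_eq_one h, one_pow]

/-- `Δ̄ⁿ · j̄ⁿ = 1` when `240 = 0` in `K`. -/
theorem deltaK_pow_mul_small (h : (240 : K) = 0) (n : ℕ) :
    DeltaK K ^ n * jqModC K ^ n = 1 := by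
  rw [← mul_pow, mul_comm, jqModC_mul_DeltaK_eq_one h, one_pow]

/-- `Δ̄` is a unit with inverse `j̄` when `240 = 0`. -/
theorem isUnit_DeltaK_small (h : (240 : K) = 0) : IsUnit (DeltaK K) :=
  IsUnit.of_mul_eq_one _ (by rw [mul_comm]; exact jqModC_mul_DeltaK_eq_one h)

theorem inv_DeltaK_small (h : (240 : K) = 0) : (DeltaK K)⁻¹ = jqModC K := by
  have h1 := jqModC_mul_DeltaK_eq_one h
  exact (eq_inv_of_mul_eq_one_left h1).symm

theorem two_forty_eq_zero_of_charTwo [CharP K 2] : (240 : K) = 0 := by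
  have : ((240 : ℕ) : K) = 0 := (CharP.cast_eq_zero_iff K 2 240).mpr (by norm_num)
  exact_mod_cast this

theorem two_forty_eq_zero_of_charThree [CharP K 3] : (240 : K) = 0 := by
  have : ((240 : ℕ) : K) = 0 := (CharP.cast_eq_zero_iff K 3 240).mpr (by norm_num)
  exact_mod_cast this

theorem five_o_four_eq_zero_of_charTwo [CharP K 2] : (504 : K) = 0 := by
  have : ((504 : ℕ) : K) = 0 := (CharP.cast_eq_zero_iff K 2 504).mpr (by norm_num)
  exact_mod_cast this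

theorem five_o_four_eq_zero_of_charThree [CharP K 3] : (504 : K) = 0 := by
  have : ((504 : ℕ) : K) = 0 := (CharP.cast_eq_zero_iff K 3 504).mpr (by norm_num)
  exact_mod_cast this

/-- **`q = 2`**: `Ē₄ = Ē₆ = 1`, `Δ̄ · j̄ = 1`, i.e. `Δ̄^{1-q} = j̄`. -/
theorem charTwo [CharP K 2] :
    E4K K = 1 ∧ E6K K = 1 ∧ DeltaK K ^ (2 - 1) * jqModC K ^ (2 - 1) = 1 ∧
      (DeltaK K)⁻¹ = jqModC K :=
  ⟨E4K_eq_one two_forty_eq_zero_of_charTwo, E6K_eq_one five_o_four_eq_zero_of_charTwo,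
    deltaK_pow_mul_small two_forty_eq_zero_of_charTwo _,
    inv_DeltaK_small two_forty_eq_zero_of_charTwo⟩

/-- **`q = 3`**: `Ē₄ = Ē₆ = 1`, `Δ̄² · j̄² = 1`, i.e. `Δ̄^{1-q} = j̄²`. -/
theorem charThree [CharP K 3] :
    E4K K = 1 ∧ E6K K = 1 ∧ DeltaK K ^ (3 - 1) * jqModC K ^ (3 - 1) = 1 ∧
      (DeltaK K)⁻¹ = jqModC K :=
  ⟨E4K_eq_one two_forty_eq_zero_of_charThree, E6K_eq_one five_o_four_eq_zero_of_charThree,
    deltaK_pow_mul_small two_forty_eq_zero_of_charThree _,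
    inv_DeltaK_small two_forty_eq_zero_of_charThree⟩

/-- uniform statement for `q ∈ {2, 3}`: `Δ̄^{q-1} · j̄^{q-1} = 1`. -/
theorem deltaK_pow_mul_of_lt_five (q : ℕ) [hq : Fact q.Prime] [CharP K q] (h5 : q < 5) :
    E4K K = 1 ∧ E6K K = 1 ∧ DeltaK K ^ (q - 1) * jqModC K ^ (q - 1) = 1 := by
  have hq2 := hq.out.two_le
  have h23 : q = 2 ∨ q = 3 := by
    have : q ≠ 4 := by
      rintro rfl
      exact absurd hq.out (by norm_num)
    omega
  rcases h23 with rfl | rfl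
  · exact ⟨charTwo.1, charTwo.2.1, charTwo.2.2.1⟩
  · exact ⟨charThree.1, charThree.2.1, charThree.2.2.1⟩

end Fermat.Agent.S36.R1.PqSmall
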