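import Mathlib
import Fermat.Agent.S36.R1.OrdTwelve
import Fermat.Agent.S36.R1.PqLaurent
import Fermat.Agent.S36.R1.PqSmall

/-!
# S36, block (R1): the order condition `hordb` of `CrossingRegular.regular_fin_of_ord`, algebra

`κ` a field of characteristic `q`, `A ⊆ κ((Q))` a subring which is a Dedekind domain (in the
application `A = RbarFin K N O`, the coordinate ring of the affine special fibre of level `N`),
containing the constants and `j̄ = jqModC κ`.  Let `P ∈ A` with `P · Δ̄^(q-1) = 1` in `κ((Q))`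
(`P = θ₁ (Δ(z)/Δ(qz))`, the reduction of the modular unit).  Then, for a closed point `v` of
`Spec A`:

* `q ≥ 5`, `3 ∣ ord_v j̄`, `2 ∣ ord_v (j̄ - 1728)` (block [AUX], level `4`);
* `q = 3`, `6 ∣ ord_v j̄`;
* `q = 2`, `12 ∣ ord_v j̄`

imply `P ∈ 𝔪_v → P ∈ 𝔪_v ^ 12` (`mem_pow_twelve_of_deltaK`).
-/

set_option autoImplicit false

namespace Fermat.Agent.S36.R1.OrdFinal

open Polynomial ModularCurve IsDedekindDomain WithZero
open Fermat.Agent.S16.BetaLemma Fermat.Agent.S36.R1.PqLaurent Fermat.Agent.S36.R1.PqSmall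

variable {κ : Type*} [Field κ] (A : Subring (LaurentSeries κ))

theorem algebraMap_eq_C (c : κ) : algebraMap κ (LaurentSeries κ) c = HahnSeries.C c := by
  rw [HahnSeries.algebraMap_apply', PowerSeries.algebraMap_apply, Algebra.algebraMap_self,
    RingHom.id_apply, HahnSeries.ofPowerSeries_C]

/-- polynomials in `j̄` with constant coefficients lie in `A`. -/
theorem aeval_mem (hj : jqModC κ ∈ A) (hC : ∀ c : κ, HahnSeries.C c ∈ A) (S : κ[X]) :
    aeval (jqModC κ) S ∈ A := by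
  induction S using Polynomial.induction_on' with
  | add p r hp hr => rw [map_add]; exact A.add_mem hp hr
  | monomial n a =>
    rw [aeval_monomial, algebraMap_eq_C]
    exact A.mul_mem (hC a) (A.pow_mem hj n)

theorem jqModC_ne_zero : jqModC κ ≠ 0 := by
  intro h
  have := Fermat.Agent.S24.FFBasics.transcendental_jqModC κ
  rw [transcendental_iff] at this
  have h1 := this X (by rw [aeval_X, h])
  exact X_ne_zero h1

theorem jqModC_sub_ne_zero (c : κ) : jqModC κ - HahnSeries.C c ≠ 0 := by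
  intro h
  have := Fermat.Agent.S24.FFBasics.transcendental_jqModC κ
  rw [transcendental_iff] at this
  have h1 := this (X - C c) (by rw [map_sub, aeval_X, aeval_C, algebraMap_eq_C, h])
  exact X_sub_C_ne_zero c h1

theorem ofNat_eq_C (n : ℕ) [n.AtLeastTwo] :
    (OfNat.ofNat n : LaurentSeries κ) = HahnSeries.C (OfNat.ofNat n : κ) := by
  rw [← algebraMap_eq_C, map_ofNat]

/-- `P · Δ̄^n = 1` and `Δ̄^n j̄^n = 1` give `P = j̄^n`. -/
theorem eq_pow_of_small (h240 : (240 : κ) = 0) (n : ℕ) (hj : jqModC κ ∈ A)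
    (P : A) (hP : (P : LaurentSeries κ) * DeltaK κ ^ n = 1) :
    P = (⟨jqModC κ, hj⟩ : A) ^ n := by
  apply Subtype.ext
  rw [Subring.coe_pow]
  calc (P : LaurentSeries κ)
      = (P : LaurentSeries κ) * (DeltaK κ ^ n * jqModC κ ^ n) := by
        rw [deltaK_pow_mul_small h240, mul_one]
    _ = ((P : LaurentSeries κ) * DeltaK κ ^ n) * jqModC κ ^ n := by ring
    _ = _ := by rw [hP, one_mul]

variable [IsDedekindDomain A]

/-- **(R1) order condition, `q ≥ 5`.** -/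
theorem mem_pow_twelve_of_five_le (q : ℕ) [Fact q.Prime] [CharP κ q] (h5 : 5 ≤ q)
    (hj : jqModC κ ∈ A) (hC : ∀ c : κ, HahnSeries.C c ∈ A)
    (P : A) (hP : (P : LaurentSeries κ) * DeltaK κ ^ (q - 1) = 1)
    (v : HeightOneSpectrum A)
    (h3 : ∃ γ : ℤᵐ⁰, v.intValuation (⟨jqModC κ, hj⟩ : A) = γ ^ 3)
    (h2 : ∃ γ : ℤᵐ⁰, v.intValuation ((⟨jqModC κ, hj⟩ : A) - 1728) = γ ^ 2)
    (hPv : P ∈ v.asIdeal) : P ∈ v.asIdeal ^ 12 := by
  obtain ⟨m, δ, ε, S, -, -, -, -, -, -, hstr⟩ := exists_structure q κ h5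
  set j : A := ⟨jqModC κ, hj⟩ with hjdef
  set T : A := j ^ δ * (j - 1728) ^ ε * ⟨aeval (jqModC κ) S, aeval_mem A hj hC S⟩ with hT
  -- `P = j̄^{4δ} (j̄ - 1728)^{6ε} S̄(j̄)^{12}`
  have hPeq : (P : LaurentSeries κ) =
      jqModC κ ^ (4 * δ) * (jqModC κ - 1728) ^ (6 * ε) * aeval (jqModC κ) S ^ 12 := by
    calc (P : LaurentSeries κ)
        = (P : LaurentSeries κ) * (DeltaK κ ^ (q - 1) * (jqModC κ ^ (4 * δ) *
            (jqModC κ - 1728) ^ (6 * ε) * aeval (jqModC κ) S ^ 12)) := by rw [hstr, mul_one]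
      _ = ((P : LaurentSeries κ) * DeltaK κ ^ (q - 1)) * (jqModC κ ^ (4 * δ) *
            (jqModC κ - 1728) ^ (6 * ε) * aeval (jqModC κ) S ^ 12) := by ring
      _ = _ := by rw [hP, one_mul]
  have hid : P * j ^ (4 * (2 * δ)) * (j - 1728) ^ (6 * ε) = T ^ 12 := by
    apply Subtype.ext
    simp only [hT, hjdef, Subring.coe_mul, Subring.coe_pow, AddSubgroupClass.coe_sub]
    rw [hPeq]
    have h1728 : ((1728 : A) : LaurentSeries κ) = 1728 := rfl
    rw [h1728]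
    ring
  have h1728' : (1728 : LaurentSeries κ) = HahnSeries.C (1728 : κ) := ofNat_eq_C 1728
  have hj0 : j ≠ 0 := by
    intro h
    exact jqModC_ne_zero (κ := κ) (congrArg Subtype.val h)
  have hj1 : j - 1728 ≠ 0 := by
    intro h
    have h' := congrArg Subtype.val h
    simp only [hjdef, AddSubgroupClass.coe_sub] at h'
    have h1728 : ((1728 : A) : LaurentSeries κ) = 1728 := rfl
    rw [h1728, h1728'] at h'
    exact jqModC_sub_ne_zero (κ := κ) _ h'
  exact Fermat.Agent.S36.R1.OrdTwelve.mem_pow_twelve v hid hj0 hj1 h3 h2 hPv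

/-- **(R1) order condition, `q = 3`.** -/
theorem mem_pow_twelve_of_three [CharP κ 3] (hj : jqModC κ ∈ A)
    (P : A) (hP : (P : LaurentSeries κ) * DeltaK κ ^ (3 - 1) = 1)
    (v : HeightOneSpectrum A)
    (h6 : ∃ γ : ℤᵐ⁰, v.intValuation (⟨jqModC κ, hj⟩ : A) = γ ^ 6)
    (hPv : P ∈ v.asIdeal) : P ∈ v.asIdeal ^ 12 :=
  Fermat.Agent.S36.R1.OrdTwelve.mem_pow_twelve_of_sq v
    (eq_pow_of_small A two_forty_eq_zero_of_charThree 2 hj P hP) h6 hPv

/-- **(R1) order condition, `q = 2`.** -/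
theorem mem_pow_twelve_of_two [CharP κ 2] (hj : jqModC κ ∈ A)
    (P : A) (hP : (P : LaurentSeries κ) * DeltaK κ ^ (2 - 1) = 1)
    (v : HeightOneSpectrum A)
    (h12 : ∃ γ : ℤᵐ⁰, v.intValuation (⟨jqModC κ, hj⟩ : A) = γ ^ 12)
    (hPv : P ∈ v.asIdeal) : P ∈ v.asIdeal ^ 12 := by
  have h := eq_pow_of_small A two_forty_eq_zero_of_charTwo 1 hj P hP
  rw [pow_one] at h
  exact Fermat.Agent.S36.R1.OrdTwelve.mem_pow_twelve_of_self v h h12 hPv

/-- **(R1) order condition, all `q`**: `P = θ₁(Δ(z)/Δ(qz))` vanishes to order `≥ 12` wherever it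
vanishes, given the divisibilities of block [AUX]. -/
theorem mem_pow_twelve_of_deltaK (q : ℕ) [hq : Fact q.Prime] [CharP κ q]
    (hj : jqModC κ ∈ A) (hC : ∀ c : κ, HahnSeries.C c ∈ A)
    (P : A) (hP : (P : LaurentSeries κ) * DeltaK κ ^ (q - 1) = 1)
    (v : HeightOneSpectrum A)
    (hq5 : 5 ≤ q → (∃ γ : ℤᵐ⁰, v.intValuation (⟨jqModC κ, hj⟩ : A) = γ ^ 3) ∧
      ∃ γ : ℤᵐ⁰, v.intValuation ((⟨jqModC κ, hj⟩ : A) - 1728) = γ ^ 2)
    (hq3 : q = 3 → ∃ γ : ℤᵐ⁰, v.intValuation (⟨jqModC κ, hj⟩ : A) = γ ^ 6)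
    (hq2 : q = 2 → ∃ γ : ℤᵐ⁰, v.intValuation (⟨jqModC κ, hj⟩ : A) = γ ^ 12)
    (hPv : P ∈ v.asIdeal) : P ∈ v.asIdeal ^ 12 := by
  by_cases h5 : 5 ≤ q
  · exact mem_pow_twelve_of_five_le A q h5 hj hC P hP v (hq5 h5).1 (hq5 h5).2 hPv
  · have hq2' := hq.out.two_le
    have h23 : q = 2 ∨ q = 3 := by
      have : q ≠ 4 := by
        rintro rfl
        exact absurd hq.out (by norm_num)
      omega
    rcases h23 with rfl | rfl
    · exact mem_pow_twelve_of_two A hj P hP v (hq2 rfl) hPv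
    · exact mem_pow_twelve_of_three A hj P hP v (hq3 rfl) hPv

end Fermat.Agent.S36.R1.OrdFinal
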