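import Mathlib
import Fermat.Agent.S36.Haupt.FourRfin
import Fermat.Agent.S36.Haupt.NineRfin
import Fermat.Agent.S36.AuxLvl.OrdDedekind
import Fermat.Agent.S36.R1.OrdFinal
import Fermat.Agent.P3G.RbarFin

/-!
# S36, block (R1) / [AUX]: the order hypotheses of `OrdFinal.mem_pow_twelve_of_deltaK` at
`A = RbarFin K N O`

`(K, O)` a level in the Setting language, `κ` the residue field of `O`, `A = RbarFin K N O ⊆ κ((Q))`
the coordinate ring of the affine special fibre of level `N` (a Dedekind domain).  The Hauptmoduln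
`t` of `Γ₀(4)` (`Haupt/FourRfin`, `4 ∣ N`, `2 ∈ Oˣ`) and `s` of `Γ₀(9)` (`Haupt/NineRfin`, `9 ∣ N`,
`3 ∈ Oˣ`) reduce to elements of `A` satisfying `Rel4`/`Rel9` with `j̄ = jqModC κ`; with
`AuxLvl/OrdDedekind` this gives, for every closed point `v` of `Spec A`:

* `exists_pow_three`, `exists_sub_pow_two` : `3 ∣ ord_v j̄`, `2 ∣ ord_v (j̄ - 1728)`  (`4 ∣ N`, `2 ∈ Oˣ`);
* `exists_pow_six` : `6 ∣ ord_v j̄`  (`4 ∣ N`, `char κ = 3`);
* `exists_pow_twelve` : `12 ∣ ord_v j̄`  (`9 ∣ N`, `char κ = 2`);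
* `mem_pow_twelve` : for `P ∈ A` with `P · Δ̄^(q-1) = 1`, `P ∈ 𝔪_v → P ∈ 𝔪_v ^ 12` (the hypothesis
  `hordb` of `CrossingRegular.regular_fin_of_ord`, for the reduction of `Δ(z)/Δ(qz)`).
-/

set_option autoImplicit false
set_option linter.unusedSectionVars false

open ModularCurve Fermat.Agent.N4.Setting Fermat.Agent.N4.FibreEmbedding Fermat.Agent.N4.Chart
open Fermat.Agent.P3G.RbarFin IsDedekindDomain WithZero
open Fermat.Agent.S36.AuxLvl.OrdAbs Fermat.Agent.S36.AuxLvl.OrdDedekind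
open Fermat.Agent.S16.BetaLemma

noncomputable section

namespace Fermat.Agent.S36.R1.AuxGlue

variable (K : Type) [Field K] [CharZero K] (N : ℕ) [NeZero N]
  (O : Subring K) [IsDiscreteValuationRing ↥O] [IsFractionRing ↥O K]

set_option quotPrecheck false in
local notation "κ" => IsLocalRing.ResidueField ↥O

/-- `θ(j) = j̄`. -/
theorem thetaFin_jFin : thetaFin K N O (jFin K N O) = jqModC κ := by
  rw [thetaFin_apply]
  exact theta_jF K N O

theorem jqModC_mem : jqModC κ ∈ RbarFin K N O := ⟨jFin K N O, thetaFin_jFin K N O⟩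

/-- `j̄` as an element of `RbarFin`. -/
def jBar : ↥(RbarFin K N O) := ⟨jqModC κ, jqModC_mem K N O⟩

/-- The Gauss reduction as a map onto its range. -/
def red : ↥(Rfin K N O) →+* ↥(RbarFin K N O) := (thetaFin K N O).rangeRestrict

theorem coe_red (x : ↥(Rfin K N O)) : ((red K N O x : ↥(RbarFin K N O)) : LaurentSeries κ) =
    thetaFin K N O x := rfl

theorem red_jFin : red K N O (jFin K N O) = jBar K N O :=
  Subtype.ext (thetaFin_jFin K N O)

theorem red_surjective : Function.Surjective (red K N O) :=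
  (thetaFin K N O).rangeRestrict_surjective

/-- `Rel4` for the reductions, in the fraction field of `RbarFin`. -/
theorem rel4_bar (h4 : 2 * 2 ∣ N) :
    Rel4 (algebraMap ↥(RbarFin K N O) (FractionRing ↥(RbarFin K N O)) (jBar K N O))
      (algebraMap ↥(RbarFin K N O) (FractionRing ↥(RbarFin K N O))
        (red K N O (Fermat.Agent.S36.Haupt.FourRfin.tFin K N O h4))) := by
  have h := congrArg (fun x => algebraMap ↥(RbarFin K N O) (FractionRing ↥(RbarFin K N O))
    (red K N O x)) (Fermat.Agent.S36.Haupt.FourRfin.jFin_mul_tFin K N O h4)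
  simp only [map_mul, map_pow, map_add, map_ofNat, red_jFin] at h
  exact h

/-- `Rel9` for the reductions, in the fraction field of `RbarFin`. -/
theorem rel9_bar (h9 : 9 ∣ N) :
    Rel9 (algebraMap ↥(RbarFin K N O) (FractionRing ↥(RbarFin K N O)) (jBar K N O))
      (algebraMap ↥(RbarFin K N O) (FractionRing ↥(RbarFin K N O))
        (red K N O (Fermat.Agent.S36.Haupt.NineRfin.sFin K N O h9))) := by
  have h := congrArg (fun x => algebraMap ↥(RbarFin K N O) (FractionRing ↥(RbarFin K N O))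
    (red K N O x)) (Fermat.Agent.S36.Haupt.NineRfin.jFin_mul_sFin K N O h9)
  simp only [map_mul, map_pow, map_add, map_ofNat, red_jFin] at h
  exact h

theorem isUnit_two_bar (h2 : IsUnit (2 : ↥O)) : IsUnit (2 : ↥(RbarFin K N O)) := by
  have h := (h2.map (algebraMap ↥O ↥(Rfin K N O))).map (red K N O)
  rwa [map_ofNat, map_ofNat] at h

theorem natCast_bar_eq_zero (q : ℕ) [CharP κ q] : ((q : ℕ) : ↥(RbarFin K N O)) = 0 := by
  apply Subtype.ext
  rw [Subring.coe_natCast, Subring.coe_zero]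
  have h : ((q : ℕ) : κ) = 0 := CharP.cast_eq_zero κ q
  have h' := congrArg (algebraMap κ (LaurentSeries κ)) h
  rwa [map_natCast, map_zero] at h'

variable [IsDedekindDomain ↥(RbarFin K N O)]

/-- **Level 4**: `3 ∣ ord_v j̄` at every closed point of the special fibre. -/
theorem exists_pow_three (h4 : 2 * 2 ∣ N) (h2 : IsUnit (2 : ↥O))
    (v : HeightOneSpectrum ↥(RbarFin K N O)) :
    ∃ γ : ℤᵐ⁰, v.intValuation (jBar K N O) = γ ^ 3 :=
  exists_intValuation_eq_pow_three v (isUnit_two_bar K N O h2) _ _ (rel4_bar K N O h4)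

/-- **Level 4**: `2 ∣ ord_v (j̄ - 1728)` at every closed point of the special fibre. -/
theorem exists_sub_pow_two (h4 : 2 * 2 ∣ N) (h2 : IsUnit (2 : ↥O))
    (v : HeightOneSpectrum ↥(RbarFin K N O)) :
    ∃ γ : ℤᵐ⁰, v.intValuation (jBar K N O - 1728) = γ ^ 2 :=
  exists_intValuation_sub_eq_pow_two v (isUnit_two_bar K N O h2) _ _ (rel4_bar K N O h4)

/-- **Level 4, characteristic 3**: `6 ∣ ord_v j̄`. -/
theorem exists_pow_six [CharP κ 3] (h4 : 2 * 2 ∣ N)
    (v : HeightOneSpectrum ↥(RbarFin K N O)) :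
    ∃ γ : ℤᵐ⁰, v.intValuation (jBar K N O) = γ ^ 6 := by
  have h3 : (3 : ↥(RbarFin K N O)) = 0 := by
    have := natCast_bar_eq_zero K N O 3
    exact_mod_cast this
  exact exists_intValuation_eq_pow_six v h3 _ _ (rel4_bar K N O h4)

/-- **Level 9, characteristic 2**: `12 ∣ ord_v j̄`. -/
theorem exists_pow_twelve [CharP κ 2] (h9 : 9 ∣ N)
    (v : HeightOneSpectrum ↥(RbarFin K N O)) :
    ∃ γ : ℤᵐ⁰, v.intValuation (jBar K N O) = γ ^ 12 := by
  have h2 : (2 : ↥(RbarFin K N O)) = 0 := by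
    have := natCast_bar_eq_zero K N O 2
    exact_mod_cast this
  exact exists_intValuation_eq_pow_twelve v h2 _ _ (rel9_bar K N O h9)

/-- constants lie in `RbarFin`. -/
theorem C_mem (c : κ) : HahnSeries.C c ∈ RbarFin K N O := by
  obtain ⟨a, rfl⟩ := IsLocalRing.residue_surjective (R := ↥O) c
  refine ⟨algebraMap ↥O ↥(Rfin K N O) a, ?_⟩
  rw [thetaFin_apply]
  exact theta_algebraMap K N O a

/-- **(R1) order condition at level `N`** (`4 ∣ N` if `q` is odd, `9 ∣ N` if `q = 2`): the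
reduction `P` of `Δ(z)/Δ(qz)` vanishes to order `≥ 12` wherever it vanishes. -/
theorem mem_pow_twelve (q : ℕ) [hq : Fact q.Prime] [CharP κ q]
    (hodd : q ≠ 2 → 2 * 2 ∣ N) (heven : q = 2 → 9 ∣ N)
    (P : ↥(RbarFin K N O)) (hP : (P : LaurentSeries κ) * DeltaK κ ^ (q - 1) = 1)
    (v : HeightOneSpectrum ↥(RbarFin K N O)) (hPv : P ∈ v.asIdeal) : P ∈ v.asIdeal ^ 12 := by
  have h2O : q ≠ 2 → IsUnit (2 : ↥O) := by
    intro hne
    by_contra hnu
    have hmem : (2 : ↥O) ∈ IsLocalRing.maximalIdeal ↥O := (IsLocalRing.mem_maximalIdeal _).2 hnu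
    have h0 : IsLocalRing.residue ↥O 2 = 0 := (IsLocalRing.residue_eq_zero_iff _).2 hmem
    rw [map_ofNat] at h0
    have h0' : ((2 : ℕ) : κ) = 0 := by exact_mod_cast h0
    have hdvd := (CharP.cast_eq_zero_iff κ q 2).1 h0'
    exact hne ((Nat.prime_dvd_prime_iff_eq hq.out Nat.prime_two).1 hdvd)
  refine Fermat.Agent.S36.R1.OrdFinal.mem_pow_twelve_of_deltaK (RbarFin K N O) q
    (jqModC_mem K N O) (C_mem K N O) P hP v ?_ ?_ ?_ hPv
  · intro h5
    have hne : q ≠ 2 := by omega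
    exact ⟨exists_pow_three K N O (hodd hne) (h2O hne) v,
      exists_sub_pow_two K N O (hodd hne) (h2O hne) v⟩
  · rintro rfl
    exact exists_pow_six K N O (hodd (by norm_num)) v
  · rintro rfl
    exact exists_pow_twelve K N O (heven rfl) v

end Fermat.Agent.S36.R1.AuxGlue
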