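import Mathlib
import Fermat.Agent.S36.RegularCrossing
import Fermat.Agent.P3G.Glue.LevelRoots

/-!
# S36, block (R1): the `m`-th power trick in the `TwoVal` language of P3-G

Setting = `P3G.Glue.LevelRoots`: `O` a discrete valuation ring, `K₀ = Frac O` of characteristic `0`,
`F₀ ⊇ K₀(s)` finite, chart `R = chartAlg O F₀ {s}`; two vertical valuation rings `V₁, V₂ ⊇ R` with
`hT : TwoVal ϖ W V₁ V₂` and `hWs : IsSemiGaussRing W ϖ`.

`principal_of_twoVal` : let `𝔫` be a prime of `R` containing both centres `𝔪(V₁) ∩ R`, `𝔪(V₂) ∩ R`.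
If `h g ∈ R` satisfy `h * g = c ∈ O`, `c ∼ ϖ ^ m` (`m ≠ 0`), `h` a unit of `V₁`, `g` a unit of `V₂`
(so `div h = m · C₂`, `div g = m · C₁`: a **vertical unit pair**), and `u ∈ 𝔪(V₂) ∩ R` is a unit of
`V₁` with `s h ≡ c' u ^ m` modulo `𝔪(V₁)` for some `s ∉ 𝔫`, then `(𝔪(V₂) ∩ R) R_𝔫 = u R_𝔫`.
-/

set_option autoImplicit false
set_option linter.unusedSectionVars false
set_option linter.style.haveILetI false

open Polynomial IntermediateField AlgebraicCurve

namespace Fermat.Agent.S36.R1.RegularTwoVal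

open Fermat.Agent.N4.Chart Fermat.Agent.N4.IntClosure
  Fermat.Agent.P3G.Krull
  Fermat.Agent.P3G.Cover.Lift Fermat.Agent.P3G.Assembly.PowCover
  Fermat.Agent.P3G.Glue.LevelRoots Fermat.Agent.S36.RegularCrossing
open Fermat.Agent.N4.Cover.Main (isFractionRing_chartAlg isIntegrallyClosed_chartAlg)

universe u

variable {O K₀ : Type*} [CommRing O] [IsDomain O] [IsDiscreteValuationRing O]
  [Field K₀] [CharZero K₀] [Algebra O K₀] [IsFractionRing O K₀]
variable {F₀ : Type u} [Field F₀] [Algebra K₀ F₀] [Algebra O F₀] [IsScalarTower O K₀ F₀]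

/-- **The `m`-th power trick, `TwoVal` form.** -/
theorem principal_of_twoVal (s : F₀) (hs : Transcendental K₀ s) [FiniteDimensional K₀⟮s⟯ F₀]
    {ϖ : O} (hϖ : Irreducible ϖ) (W : Subring F₀) (V₁ V₂ : ValuationSubring F₀)
    (hT : TwoVal ϖ W V₁ V₂)
    (hWs : IsSemiGaussRing W (algebraMap O (chartAlg O F₀ {s}) ϖ))
    (𝔫 : Ideal (chartAlg O F₀ {s})) [h𝔫 : 𝔫.IsPrime]
    (h1le : ∀ r : chartAlg O F₀ {s}, (r : F₀) ∈ V₁.nonunits → r ∈ 𝔫)
    (h2le : ∀ r : chartAlg O F₀ {s}, (r : F₀) ∈ V₂.nonunits → r ∈ 𝔫)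
    {h g u : chartAlg O F₀ {s}} {c : O} {m : ℕ} (hm : m ≠ 0) (hc : Associated c (ϖ ^ m))
    (hhg : h * g = algebraMap O (chartAlg O F₀ {s}) c)
    (hh1 : (h : F₀) ∉ V₁.nonunits) (hg2 : (g : F₀) ∉ V₂.nonunits)
    (hu1 : (u : F₀) ∉ V₁.nonunits) (hu2 : (u : F₀) ∈ V₂.nonunits)
    (hord : ∃ s' c' : chartAlg O F₀ {s}, s' ∉ 𝔫 ∧
      ((s' * h - c' * u ^ m : chartAlg O F₀ {s}) : F₀) ∈ V₁.nonunits) :
    ∀ r : chartAlg O F₀ {s}, (r : F₀) ∈ V₂.nonunits →
      ∃ s' c' : chartAlg O F₀ {s}, s' ∉ 𝔫 ∧ s' * r = c' * u := by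
  classical
  haveI : IsFractionRing (chartAlg O F₀ {s}) F₀ := isFractionRing_chartAlg (O := O) (K₀ := K₀) s hs
  haveI : IsIntegrallyClosed (chartAlg O F₀ {s}) := isIntegrallyClosed_chartAlg (O := O) (K₀ := K₀) s hs
  haveI : IsNoetherianRing (chartAlg O F₀ {s}) := isNoetherianRing_chartAlg (O := O) (K := K₀) s hs
  have hϖF : algebraMap (chartAlg O F₀ {s}) F₀ (algebraMap O (chartAlg O F₀ {s}) ϖ) = algebraMap O F₀ ϖ := rfl
  have hRV₁ : ∀ r : (chartAlg O F₀ {s}), (r : F₀) ∈ V₁ := fun r => hT.mem₁ (hWs.le r)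
  have hRV₂ : ∀ r : (chartAlg O F₀ {s}), (r : F₀) ∈ V₂ := fun r => hT.mem₂ (hWs.le r)
  have hV : ∀ i (r : (chartAlg O F₀ {s})), algebraMap (chartAlg O F₀ {s}) F₀ r ∈ pairV V₁ V₂ i := by
    intro i r
    revert i
    rw [Fin.forall_fin_two]
    exact ⟨hRV₁ r, hRV₂ r⟩
  have hϖV : ∀ i, algebraMap (chartAlg O F₀ {s}) F₀ (algebraMap O (chartAlg O F₀ {s}) ϖ) ∈ (pairV V₁ V₂ i).nonunits := by
    rw [Fin.forall_fin_two]
    exact ⟨hT.pi_mem₁, hT.pi_mem₂⟩
  have hsat : ∀ r : (chartAlg O F₀ {s}), (∀ i, algebraMap (chartAlg O F₀ {s}) F₀ r ∈ (pairV V₁ V₂ i).nonunits) →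
      algebraMap O (chartAlg O F₀ {s}) ϖ ∣ r := by
    intro r hr
    rw [Fin.forall_fin_two] at hr
    obtain ⟨w, hw, hrw⟩ := hT.exists_eq_mul hr.1 hr.2
    exact hWs.sat r ⟨w, hw, by rw [hϖF]; exact hrw⟩
  -- the valuation of `h` at `V₂`
  have hcF : algebraMap (chartAlg O F₀ {s}) F₀ h * algebraMap (chartAlg O F₀ {s}) F₀ g = algebraMap O F₀ c := by
    rw [← map_mul, hhg]; rfl
  obtain ⟨e, he⟩ := hc
  have heF : ∀ A : ValuationSubring F₀, (∀ r : (chartAlg O F₀ {s}), (r : F₀) ∈ A) →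
      A.valuation (algebraMap O F₀ (e : O)) = 1 := by
    intro A hA
    have h1 : A.valuation (algebraMap O F₀ (e : O)) ≤ 1 :=
      (A.valuation_le_one_iff _).2 (hA (algebraMap O (chartAlg O F₀ {s}) (e : O)))
    have h2 : A.valuation (algebraMap O F₀ ((e⁻¹ : Oˣ) : O)) ≤ 1 :=
      (A.valuation_le_one_iff _).2 (hA (algebraMap O (chartAlg O F₀ {s}) ((e⁻¹ : Oˣ) : O)))
    have h3 : A.valuation (algebraMap O F₀ (e : O)) * A.valuation (algebraMap O F₀ ((e⁻¹ : Oˣ) : O))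
        = 1 := by
      rw [← map_mul, ← map_mul, Units.mul_inv, map_one, map_one]
    refine le_antisymm h1 ?_
    by_contra hlt
    rw [not_le] at hlt
    have : A.valuation (algebraMap O F₀ (e : O)) *
        A.valuation (algebraMap O F₀ ((e⁻¹ : Oˣ) : O)) < 1 :=
      mul_lt_one_of_nonneg_of_lt_one_left zero_le hlt h2
    exact (ne_of_lt this) h3
  have hcval : ∀ A : ValuationSubring F₀, (∀ r : (chartAlg O F₀ {s}), (r : F₀) ∈ A) →
      A.valuation (algebraMap O F₀ c) = A.valuation (algebraMap O F₀ ϖ) ^ m := by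
    intro A hA
    have : c = ϖ ^ m * ((e⁻¹ : Oˣ) : O) := by rw [← he, mul_assoc, Units.mul_inv, mul_one]
    have h2 : A.valuation (algebraMap O F₀ ((e⁻¹ : Oˣ) : O)) = 1 := by
      have h3 : A.valuation (algebraMap O F₀ (e : O)) *
          A.valuation (algebraMap O F₀ ((e⁻¹ : Oˣ) : O)) = 1 := by
        rw [← map_mul, ← map_mul, Units.mul_inv, map_one, map_one]
      rw [heF A hA, one_mul] at h3
      exact h3
    rw [this, map_mul, map_mul, map_pow, map_pow, h2, mul_one]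
  have hh2 : (pairV V₁ V₂ 1).valuation (algebraMap (chartAlg O F₀ {s}) F₀ h) =
      (pairV V₁ V₂ 1).valuation (algebraMap (chartAlg O F₀ {s}) F₀ (algebraMap O (chartAlg O F₀ {s}) ϖ)) ^ m := by
    show V₂.valuation (algebraMap (chartAlg O F₀ {s}) F₀ h) = V₂.valuation (algebraMap O F₀ ϖ) ^ m
    have hg1 : V₂.valuation (algebraMap (chartAlg O F₀ {s}) F₀ g) = 1 :=
      valuation_eq_one_of_notMem_nonunits (hRV₂ g) hg2
    rw [← hcval V₂ hRV₂, ← hcF, map_mul, hg1, mul_one]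
  -- horizontal places
  have hhor : ∀ v : Place K₀ F₀, (∀ r : (chartAlg O F₀ {s}), algebraMap (chartAlg O F₀ {s}) F₀ r ∈ v.toValuationSubring) →
      (∀ r : (chartAlg O F₀ {s}), algebraMap (chartAlg O F₀ {s}) F₀ r ∈ v.toValuationSubring.nonunits → r ∈ 𝔫) →
      algebraMap (chartAlg O F₀ {s}) F₀ h ∉ v.toValuationSubring.nonunits := by
    intro v h1 _ hmem
    have hc0 : c ≠ 0 := by
      rintro rfl
      rw [zero_mul] at he
      exact pow_ne_zero m hϖ.ne_zero he.symm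
    have hcK : algebraMap O K₀ c ≠ 0 := fun h0 =>
      hc0 (IsFractionRing.injective O K₀ (by rw [h0, map_zero]))
    have h3 : v.toValuationSubring.valuation (algebraMap O F₀ c) < 1 := by
      rw [← hcF, map_mul]
      exact mul_lt_one_of_nonneg_of_lt_one_left zero_le
        (v.toValuationSubring.mem_nonunits_iff.1 hmem)
        ((v.toValuationSubring.valuation_le_one_iff _).2 (h1 g))
    have h4 : (algebraMap O F₀ c)⁻¹ ∈ v.toValuationSubring := by
      rw [IsScalarTower.algebraMap_apply O K₀ F₀, ← map_inv₀]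
      exact v.algebraMap_mem' _
    have h5 := (v.toValuationSubring.valuation_le_one_iff _).2 h4
    rw [map_inv₀] at h5
    have hne : v.toValuationSubring.valuation (algebraMap O F₀ c) ≠ 0 := by
      rw [Valuation.ne_zero_iff, IsScalarTower.algebraMap_apply O K₀ F₀]
      exact (_root_.map_ne_zero _).2 hcK
    have h6 : 1 ≤ v.toValuationSubring.valuation (algebraMap O F₀ c) :=
      (inv_le_one₀ (zero_lt_iff.2 hne)).1 h5
    exact absurd h3 (not_lt.2 h6)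
  have key := exists_mul_eq_of_crossing (K := K₀) hϖ (pairV V₁ V₂) hV hϖV hsat 𝔫 (0 : Fin 2) 1
    (fun i _ => by
      revert i
      rw [Fin.forall_fin_two]
      exact ⟨fun _ => Or.inl rfl, fun _ => Or.inr rfl⟩)
    (fun r hr => h1le r ((mem_vCentre_iff _ _).1 hr))
    (fun r hr => h2le r ((mem_vCentre_iff _ _).1 hr))
    (fun y hy => hT.unif₂ y hy) hm
    (h := h) (u := u)
    (fun hmem => hh1 ((mem_vCentre_iff _ _).1 hmem)) hh2 hhor
    (fun hmem => hu1 ((mem_vCentre_iff _ _).1 hmem))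
    ((mem_vCentre_iff _ _).2 hu2)
    (by
      obtain ⟨s', c', hs', hsc⟩ := hord
      exact ⟨s', c', hs', (mem_vCentre_iff _ _).2 hsc⟩)
  intro r hr
  exact key r ((mem_vCentre_iff _ _).2 hr)

end Fermat.Agent.S36.R1.RegularTwoVal
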