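import Mathlib
import Fermat.Agent.S36.R1.RegularTwoVal
import Fermat.Agent.P3G.TwoComponentsFinal
import Fermat.Agent.P3G.FibreSatBridge

/-!
# S36, block (R1): regularity of the finite chart of level `N ℓ` at a crossing point

Level `(K, O)` (Setting language), residue characteristic `ℓ ∤ N`, `R := Rfin K (N ℓ) O`,
`θ₁ := thetaFin K (N ℓ) O` (Gauss reduction), `θ₂ := theta2S K N ℓ O S₂` (second reduction).

`regular_fin` : let `𝔫` be a crossing point (`ker θ₁ ≤ 𝔫`, `ker θ₂ ≤ 𝔫`) and let `h g ∈ R` be a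
**vertical unit pair**: `h * g = c ∈ O`, `c ∼ ϖ ^ m`, `θ₁ h ≠ 0`, `θ₂ g ≠ 0`.  If
`h ∈ ker θ₁ + 𝔫 ^ m` (i.e. `ord_y (θ₁ h) ≥ m`), then the crossing coordinates `u, v` of
`P3G.TwoComponents.exists_crossing_coordinates` satisfy `ker θ₂ · R_𝔫 = u R_𝔫` and
`𝔫 R_𝔫 = (u, v)`: the local ring `R_𝔫` is regular.

In the application `ℓ = q`, `N = M₀`, `h = Δ(z) / Δ(q z)`, `g = q ^ 12 Δ(q z) / Δ(z)`, `m = 12`.
-/

set_option autoImplicit false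
set_option linter.unusedSectionVars false
set_option linter.style.haveILetI false

open ModularCurve Fermat.Agent.S28.Gauss Fermat.Agent.N4.Setting Fermat.Agent.N4.FibreEmbedding
open Fermat.Agent.N4.Chart
open Fermat.Agent.N4F.E.DegreeLevelRaise Fermat.Agent.N4F.E.GaussDVR AlgebraicCurve Polynomial
open Fermat.Agent.N4F.E IsLocalRing Fermat.Agent.P3G.RbarFin Fermat.Agent.P3G.TwoComponents
open Fermat.Agent.P3G.TwoComponentsFinal Fermat.Agent.P3G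

noncomputable section

namespace Fermat.Agent.S36.R1.CrossingRegular

variable (K : Type) [Field K] [CharZero K] (N : ℕ) [NeZero N] (ℓ : ℕ) [Fact ℓ.Prime]
  (O : Subring K) [IsDiscreteValuationRing ↥O] [IsFractionRing ↥O K]
  [CharP (IsLocalRing.ResidueField ↥O) ℓ] [PerfectRing (IsLocalRing.ResidueField ↥O) ℓ]

set_option quotPrecheck false in
local notation "κ" => IsLocalRing.ResidueField ↥O

attribute [local instance] AlphaSide.algFL AlphaSide.algGL AlphaSide.isScalarTower_GFL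

set_option synthInstance.maxHeartbeats 400000

variable (hN : IsUnit ((N : ℕ) : ↥O)) (ι : K →+* ℂ) (hℓN : ¬ ℓ ∣ N)
  (hprime : (fibreIdeal K N O (Rfin K N O)).IsPrime)
  (hsmooth : IsDedekindDomain (↥(Rfin K N O) ⧸ fibreIdeal K N O (Rfin K N O)))
  (hA2 : ∀ x : ↥(gaussSubalgebra K N O),
    theta K N O x ∈ modularFunctionFieldFullC (IsLocalRing.ResidueField ↥O) N)
  (S₂ : FibreTwo.SecondVal K N ℓ O)
  {ϖ : ↥O} (hϖ : Irreducible ϖ)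

/-- `r ∈ 𝔪(V₁) ↔ θ₁ r = 0` on the finite chart. -/
theorem mem_nonunits_gaussVS_iff_thetaFin (r : ↥(Rfin K (N * ℓ) O)) :
    (r : FF K (N * ℓ)) ∈ (gaussVS K (N * ℓ) O).nonunits ↔ thetaFin K (N * ℓ) O r = 0 := by
  rw [thetaFin_apply]
  exact FibreTwo.mem_nonunits_gaussVS_iff K (N * ℓ) O _

/-- `r ∈ 𝔪(S₂.V) ↔ θ₂ r = 0` on the finite chart. -/
theorem mem_nonunits_secondVal_iff_theta2S (r : ↥(Rfin K (N * ℓ) O)) :
    (r : FF K (N * ℓ)) ∈ S₂.V.nonunits ↔ theta2S K N ℓ O S₂ r = 0 := by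
  rw [theta2S_apply, S₂.ev_eq_zero_iff]

include hN ι hℓN hprime hsmooth hA2 hϖ in
/-- **Regularity at a crossing point of the finite chart of level `N ℓ`** from a vertical unit pair
`(h, g)` with `ord_y (θ₁ h) ≥ m`. -/
theorem regular_fin (𝔫 : Ideal ↥(Rfin K (N * ℓ) O)) [h𝔫 : 𝔫.IsMaximal]
    (hk1 : RingHom.ker (thetaFin K (N * ℓ) O) ≤ 𝔫)
    (hk2 : RingHom.ker (theta2S K N ℓ O S₂) ≤ 𝔫)
    {h g : ↥(Rfin K (N * ℓ) O)} {c : ↥O} {m : ℕ} (hm : m ≠ 0) (hc : Associated c (ϖ ^ m))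
    (hhg : h * g = algebraMap ↥O ↥(Rfin K (N * ℓ) O) c)
    (hh1 : thetaFin K (N * ℓ) O h ≠ 0) (hg2 : theta2S K N ℓ O S₂ g ≠ 0)
    (hord : h ∈ RingHom.ker (thetaFin K (N * ℓ) O) ⊔ 𝔫 ^ m) :
    ∃ u v : ↥(Rfin K (N * ℓ) O), u ∈ 𝔫 ∧ v ∈ 𝔫 ∧
      theta2S K N ℓ O S₂ u = 0 ∧ thetaFin K (N * ℓ) O v = 0 ∧
      thetaFin K (N * ℓ) O u ≠ 0 ∧ theta2S K N ℓ O S₂ v ≠ 0 ∧
      (∀ r : ↥(Rfin K (N * ℓ) O), theta2S K N ℓ O S₂ r = 0 →
        ∃ s c' : ↥(Rfin K (N * ℓ) O), s ∉ 𝔫 ∧ s * r = c' * u) ∧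
      ∀ x ∈ 𝔫, ∃ s : ↥(Rfin K (N * ℓ) O), s ∉ 𝔫 ∧ s * x ∈ Ideal.span {u, v} := by
  classical
  haveI : 𝔫.IsPrime := h𝔫.isPrime
  haveI := Fermat.Agent.N4.ModPolySetting.finiteDimensional_FF K (N * ℓ)
  haveI : IsNoetherianRing ↥(Rfin K (N * ℓ) O) :=
    Fermat.Agent.N4.IntClosure.isNoetherianRing_chartAlg (O := ↥O) (K := K) (jF K (N * ℓ))
      (Fermat.Agent.N4.FFAlgebraic.transcendental_jF K (N * ℓ))
  set hB := FibreIdent.betaOut_of_secondVal K N ℓ O S₂ with hBdef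
  have hVle := FibreSatKer.ker_inf_ker_le_fin K N ℓ O ι hℓN hprime hB hϖ
  obtain ⟨z₁, z₂, z₁', z₂', u, v, -, -, hun, hvn, hu2, hv1, hu1, hv2, -, hgen, -⟩ :=
    exists_crossing_coordinates K N ℓ O hB hprime hsmooth
      (fr_mem_iff K N ℓ O hN hprime hsmooth)
      (thetaFin_mem_rbar K N ℓ O hN ι hℓN hprime hsmooth hA2 S₂)
      (theta2S_mem_rbar K N ℓ O hN hprime hsmooth hA2 S₂) hVle 𝔫 hk1 hk2
  have hϖker := span_le_inf_ker K N ℓ O hB hϖ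
  have hϖmem : algebraMap ↥O ↥(Rfin K (N * ℓ) O) ϖ ∈
      RingHom.ker (thetaFin K (N * ℓ) O) ⊓ RingHom.ker (theta2 K N ℓ O hB) :=
    hϖker (Ideal.subset_span (Set.mem_singleton _))
  have hϖ1 : algebraMap ↥O ↥(Rfin K (N * ℓ) O) ϖ ∈ RingHom.ker (thetaFin K (N * ℓ) O) :=
    hϖmem.1
  have hϖ2 : theta2S K N ℓ O S₂ (algebraMap ↥O ↥(Rfin K (N * ℓ) O) ϖ) = 0 := hϖmem.2
  -- `u` generates `𝔫` modulo `ker θ₁`, locally at `𝔫`
  have hgenP := Fermat.Agent.S36.RegularCrossing.hgen_of_span_triple 𝔫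
    (RingHom.ker (thetaFin K (N * ℓ) O)) (u := u) (v := v)
    (p := algebraMap ↥O ↥(Rfin K (N * ℓ) O) ϖ) hv1 hϖ1 hgen
  obtain ⟨s₀, c₀, hs₀, hsc₀⟩ :=
    Fermat.Agent.S36.RegularCrossing.hord_of_mem_sup_pow 𝔫
      (RingHom.ker (thetaFin K (N * ℓ) O)) hgenP hord
  -- the `TwoVal` data
  have hT := FibreSatBridge.twoVal K N ℓ O ι hℓN hprime hB S₂ hϖ
  have hWs := FibreSatBridge.semiP K N ℓ O ι hℓN hprime hB S₂ hϖ
  have key := Fermat.Agent.S36.R1.RegularTwoVal.principal_of_twoVal (K₀ := K) (O := ↥O)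
    (jF K (N * ℓ)) (Fermat.Agent.N4.FFAlgebraic.transcendental_jF K (N * ℓ)) hϖ
    (FibreSatBridge.W K N ℓ O S₂) (gaussVS K (N * ℓ) O) S₂.V hT hWs 𝔫
    (fun r hr => hk1 ((mem_nonunits_gaussVS_iff_thetaFin K N ℓ O r).1 hr))
    (fun r hr => hk2 ((mem_nonunits_secondVal_iff_theta2S K N ℓ O S₂ r).1 hr))
    (h := h) (g := g) (u := u) (c := c) hm hc hhg
    (fun hmem => hh1 ((mem_nonunits_gaussVS_iff_thetaFin K N ℓ O h).1 hmem))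
    (fun hmem => hg2 ((mem_nonunits_secondVal_iff_theta2S K N ℓ O S₂ g).1 hmem))
    (fun hmem => hu1 ((mem_nonunits_gaussVS_iff_thetaFin K N ℓ O u).1 hmem))
    ((mem_nonunits_secondVal_iff_theta2S K N ℓ O S₂ u).2 hu2)
    ⟨s₀, c₀, hs₀, (mem_nonunits_gaussVS_iff_thetaFin K N ℓ O _).2 hsc₀⟩
  have hprinc : ∀ r : ↥(Rfin K (N * ℓ) O), theta2S K N ℓ O S₂ r = 0 →
      ∃ s c' : ↥(Rfin K (N * ℓ) O), s ∉ 𝔫 ∧ s * r = c' * u := fun r hr =>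
    key r ((mem_nonunits_secondVal_iff_theta2S K N ℓ O S₂ r).2 hr)
  refine ⟨u, v, hun, hvn, hu2, hv1, hu1, hv2, hprinc, ?_⟩
  exact Fermat.Agent.S36.RegularCrossing.exists_mul_mem_span_pair 𝔫
    (hprinc _ hϖ2) hgen

include hN ι hℓN hprime hsmooth hA2 hϖ in
/-- **Regularity at a crossing point** from a vertical unit pair `(h, g)` and the order condition
in the coordinate ring `R̄ = RbarFin K N O` of the special fibre of level `N`: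
`θ₁ h ∈ 𝔪_y ⇒ θ₁ h ∈ 𝔪_y ^ m` at every closed point `y` of `Spec R̄`. -/
theorem regular_fin_of_ord (𝔫 : Ideal ↥(Rfin K (N * ℓ) O)) [h𝔫 : 𝔫.IsMaximal]
    (hk1 : RingHom.ker (thetaFin K (N * ℓ) O) ≤ 𝔫)
    (hk2 : RingHom.ker (theta2S K N ℓ O S₂) ≤ 𝔫)
    {h g : ↥(Rfin K (N * ℓ) O)} {c : ↥O} {m : ℕ} (hm : m ≠ 0) (hc : Associated c (ϖ ^ m))
    (hhg : h * g = algebraMap ↥O ↥(Rfin K (N * ℓ) O) c)
    (hh1 : thetaFin K (N * ℓ) O h ≠ 0) (hg2 : theta2S K N ℓ O S₂ g ≠ 0)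
    (hordb : ∀ v : IsDedekindDomain.HeightOneSpectrum ↥(RbarFin K N O),
      CrossingLaurent.res (RbarFin K N O) (thetaFin K (N * ℓ) O)
        (thetaFin_mem_rbar K N ℓ O hN ι hℓN hprime hsmooth hA2 S₂) h ∈ v.asIdeal →
      CrossingLaurent.res (RbarFin K N O) (thetaFin K (N * ℓ) O)
        (thetaFin_mem_rbar K N ℓ O hN ι hℓN hprime hsmooth hA2 S₂) h ∈ v.asIdeal ^ m) :
    ∃ u v : ↥(Rfin K (N * ℓ) O), u ∈ 𝔫 ∧ v ∈ 𝔫 ∧
      theta2S K N ℓ O S₂ u = 0 ∧ thetaFin K (N * ℓ) O v = 0 ∧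
      thetaFin K (N * ℓ) O u ≠ 0 ∧ theta2S K N ℓ O S₂ v ≠ 0 ∧
      (∀ r : ↥(Rfin K (N * ℓ) O), theta2S K N ℓ O S₂ r = 0 →
        ∃ s c' : ↥(Rfin K (N * ℓ) O), s ∉ 𝔫 ∧ s * r = c' * u) ∧
      ∀ x ∈ 𝔫, ∃ s : ↥(Rfin K (N * ℓ) O), s ∉ 𝔫 ∧ s * x ∈ Ideal.span {u, v} := by
  classical
  set θ₁' := CrossingLaurent.res (RbarFin K N O) (thetaFin K (N * ℓ) O)
    (thetaFin_mem_rbar K N ℓ O hN ι hℓN hprime hsmooth hA2 S₂) with hθ₁'
  have D := crossingData_fin K N ℓ O hN ι hℓN hprime hsmooth hA2 S₂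
  have hsurj : Function.Surjective θ₁' := D.surj₁
  have hker : RingHom.ker θ₁' = RingHom.ker (thetaFin K (N * ℓ) O) :=
    CrossingLaurent.ker_res (RbarFin K N O) _ _
  have hk1' : RingHom.ker θ₁' ≤ 𝔫 := hker ▸ hk1
  have hmax : (𝔫.map θ₁').IsMaximal := Crossing.isMaximal_map θ₁' hsurj 𝔫 hk1'
  have hne : 𝔫.map θ₁' ≠ ⊥ := by
    intro hbot
    apply not_isField_RbarFin K N O hprime
    rw [Ring.isField_iff_maximal_bot, ← hbot]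
    exact hmax
  -- `θ₂ h = 0`
  have hB := FibreIdent.betaOut_of_secondVal K N ℓ O S₂
  have hϖmem : algebraMap ↥O ↥(Rfin K (N * ℓ) O) ϖ ∈
      RingHom.ker (thetaFin K (N * ℓ) O) ⊓
        RingHom.ker (theta2 K N ℓ O (FibreIdent.betaOut_of_secondVal K N ℓ O S₂)) :=
    span_le_inf_ker K N ℓ O _ hϖ (Ideal.subset_span (Set.mem_singleton _))
  have hϖ2 : theta2S K N ℓ O S₂ (algebraMap ↥O ↥(Rfin K (N * ℓ) O) ϖ) = 0 := hϖmem.2
  have hc2 : theta2S K N ℓ O S₂ (algebraMap ↥O ↥(Rfin K (N * ℓ) O) c) = 0 := by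
    obtain ⟨e, he⟩ := hc
    have : c = ϖ ^ m * ((e⁻¹ : (↥O)ˣ) : ↥O) := by rw [← he, mul_assoc, Units.mul_inv, mul_one]
    rw [this, map_mul, map_pow, map_mul, map_pow, hϖ2, zero_pow hm, zero_mul]
  have hh2 : theta2S K N ℓ O S₂ h = 0 := by
    have := congrArg (theta2S K N ℓ O S₂) hhg
    rw [map_mul, hc2] at this
    exact (mul_eq_zero.1 this).resolve_right hg2
  have hh𝔫 : h ∈ 𝔫 := hk2 hh2
  let v : IsDedekindDomain.HeightOneSpectrum ↥(RbarFin K N O) :=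
    ⟨𝔫.map θ₁', hmax.isPrime, hne⟩
  have h2 : θ₁' h ∈ (𝔫.map θ₁') ^ m := hordb v (Ideal.mem_map_of_mem _ hh𝔫)
  rw [← Ideal.map_pow] at h2
  obtain ⟨x, hx, hxh⟩ := (Ideal.mem_map_iff_of_surjective θ₁' hsurj).1 h2
  have hord : h ∈ RingHom.ker (thetaFin K (N * ℓ) O) ⊔ 𝔫 ^ m := by
    have hmem : h - x ∈ RingHom.ker (thetaFin K (N * ℓ) O) := by
      rw [← hker, RingHom.mem_ker, map_sub, hxh, sub_self]
    have : h = (h - x) + x := by ring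
    rw [this]
    exact Submodule.add_mem_sup hmem hx
  exact regular_fin K N ℓ O hN ι hℓN hprime hsmooth hA2 S₂ hϖ 𝔫 hk1 hk2 hm hc hhg hh1 hg2 hord

end Fermat.Agent.S36.R1.CrossingRegular
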