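import Mathlib
import Fermat.Agent.S36.R1.RegularTwoVal

/-!
# S36, block (R1): the second branch is principal as soon as the first one is

Setting = `S36/R1/RegularTwoVal.lean` (`TwoVal ϖ W V₁ V₂`, `IsSemiGaussRing W ϖ` on the chart
`R = chartAlg O F₀ {s}`, `𝔫` a prime containing both centres).  Let `u, v ∈ R` be crossing
coordinates: `u ∈ 𝔪(V₂)`, unit of `V₁`; `v ∈ 𝔪(V₁)`, unit of `V₂`; `u v ∈ ϖ R`; `𝔫 R_𝔫 = (u, v)`.

`mirror_of_principal` : if `ϖ ∈ u R_𝔫` (e.g. `(𝔪(V₂) ∩ R) R_𝔫 = u R_𝔫`, the output of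
`principal_of_twoVal`) then `(𝔪(V₁) ∩ R) R_𝔫 = v R_𝔫`.  (No second order condition is needed.)
-/

set_option autoImplicit false
set_option linter.unusedSectionVars false
set_option linter.style.haveILetI false

open Polynomial IntermediateField AlgebraicCurve

namespace Fermat.Agent.S36.R1.MirrorTwoVal

open Fermat.Agent.N4.Chart Fermat.Agent.N4.IntClosure
  Fermat.Agent.P3G.Krull Fermat.Agent.P3G.KrullChart
  Fermat.Agent.P3G.Cover.Lift Fermat.Agent.P3G.Assembly.PowCover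
  Fermat.Agent.P3G.Glue.LevelRoots Fermat.Agent.S36.RegularCrossing
open Fermat.Agent.N4.Cover.Main (isFractionRing_chartAlg isIntegrallyClosed_chartAlg)

universe u

variable {O K₀ : Type*} [CommRing O] [IsDomain O] [IsDiscreteValuationRing O]
  [Field K₀] [CharZero K₀] [Algebra O K₀] [IsFractionRing O K₀]
variable {F₀ : Type u} [Field F₀] [Algebra K₀ F₀] [Algebra O F₀] [IsScalarTower O K₀ F₀]

/-- **The second branch.** -/
theorem mirror_of_principal (s : F₀) (hs : Transcendental K₀ s) [FiniteDimensional K₀⟮s⟯ F₀]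
    {ϖ : O} (hϖ : Irreducible ϖ) (W : Subring F₀) (V₁ V₂ : ValuationSubring F₀)
    (hT : TwoVal ϖ W V₁ V₂)
    (hWs : IsSemiGaussRing W (algebraMap O (chartAlg O F₀ {s}) ϖ))
    (𝔫 : Ideal (chartAlg O F₀ {s})) [h𝔫 : 𝔫.IsPrime]
    (h1le : ∀ r : chartAlg O F₀ {s}, (r : F₀) ∈ V₁.nonunits → r ∈ 𝔫)
    (h2le : ∀ r : chartAlg O F₀ {s}, (r : F₀) ∈ V₂.nonunits → r ∈ 𝔫)
    {u v : chartAlg O F₀ {s}}
    (hu1 : (u : F₀) ∉ V₁.nonunits) (hu2 : (u : F₀) ∈ V₂.nonunits)
    (_hv1 : (v : F₀) ∈ V₁.nonunits) (hv2 : (v : F₀) ∉ V₂.nonunits)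
    (huv : ∃ G : chartAlg O F₀ {s}, u * v = algebraMap O (chartAlg O F₀ {s}) ϖ * G)
    (hgen : ∀ x ∈ 𝔫, ∃ s' : chartAlg O F₀ {s}, s' ∉ 𝔫 ∧ s' * x ∈ Ideal.span {u, v})
    (hϖu : ∃ s₀ c₀ : chartAlg O F₀ {s}, s₀ ∉ 𝔫 ∧
      s₀ * algebraMap O (chartAlg O F₀ {s}) ϖ = c₀ * u) :
    ∀ r : chartAlg O F₀ {s}, (r : F₀) ∈ V₁.nonunits →
      ∃ s' c' : chartAlg O F₀ {s}, s' ∉ 𝔫 ∧ s' * r = c' * v := by
  classical
  haveI : IsFractionRing (chartAlg O F₀ {s}) F₀ := isFractionRing_chartAlg (O := O) (K₀ := K₀) s hs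
  haveI : IsIntegrallyClosed (chartAlg O F₀ {s}) :=
    isIntegrallyClosed_chartAlg (O := O) (K₀ := K₀) s hs
  haveI : IsNoetherianRing (chartAlg O F₀ {s}) :=
    isNoetherianRing_chartAlg (O := O) (K := K₀) s hs
  have hinj := IsFractionRing.injective (chartAlg O F₀ {s}) F₀
  have hRV₁ : ∀ r : chartAlg O F₀ {s}, (r : F₀) ∈ V₁ := fun r => hT.mem₁ (hWs.le r)
  have hRV₂ : ∀ r : chartAlg O F₀ {s}, (r : F₀) ∈ V₂ := fun r => hT.mem₂ (hWs.le r)
  have hϖF : algebraMap (chartAlg O F₀ {s}) F₀ (algebraMap O (chartAlg O F₀ {s}) ϖ) =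
      algebraMap O F₀ ϖ := rfl
  have hV : ∀ i (r : chartAlg O F₀ {s}), algebraMap (chartAlg O F₀ {s}) F₀ r ∈ pairV V₁ V₂ i := by
    intro i r
    revert i
    rw [Fin.forall_fin_two]
    exact ⟨hRV₁ r, hRV₂ r⟩
  have hϖV : ∀ i, algebraMap (chartAlg O F₀ {s}) F₀ (algebraMap O (chartAlg O F₀ {s}) ϖ) ∈
      (pairV V₁ V₂ i).nonunits := by
    rw [Fin.forall_fin_two]
    exact ⟨hT.pi_mem₁, hT.pi_mem₂⟩
  have hsat : ∀ r : chartAlg O F₀ {s},
      (∀ i, algebraMap (chartAlg O F₀ {s}) F₀ r ∈ (pairV V₁ V₂ i).nonunits) →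
      algebraMap O (chartAlg O F₀ {s}) ϖ ∣ r := by
    intro r hr
    rw [Fin.forall_fin_two] at hr
    obtain ⟨w, hw, hrw⟩ := hT.exists_eq_mul hr.1 hr.2
    exact hWs.sat r ⟨w, hw, by rw [hϖF]; exact hrw⟩
  obtain ⟨G, hG⟩ := huv
  obtain ⟨s₀, c₀, hs₀, hsc₀⟩ := hϖu
  set π : F₀ := algebraMap O F₀ ϖ with hπ
  have hπ0 : π ≠ 0 := hT.pi_ne
  -- notation: valuations of chart elements
  have val1 : ∀ (A : ValuationSubring F₀), (∀ r : chartAlg O F₀ {s}, (r : F₀) ∈ A) →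
      (∀ r : chartAlg O F₀ {s}, (r : F₀) ∈ A.nonunits → r ∈ 𝔫) →
      ∀ r : chartAlg O F₀ {s}, r ∉ 𝔫 → A.valuation (r : F₀) = 1 := fun A hA hc r hr =>
    valuation_eq_one_of_notMem_nonunits (hA r) (fun h => hr (hc r h))
  have hu0 : u ≠ 0 := by
    rintro rfl
    exact hu1 (by simp)
  have hrelF : (s₀ : F₀) * π = (c₀ : F₀) * (u : F₀) := by
    have := congrArg (fun x : chartAlg O F₀ {s} => (x : F₀)) hsc₀
    simpa using this
  -- `v₁(c₀) = v₁(ϖ)`, `v₂(c₀) = 1`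
  have hc₀1 : V₁.valuation (c₀ : F₀) = V₁.valuation π := by
    have h := congrArg V₁.valuation hrelF
    rw [map_mul, map_mul, val1 V₁ hRV₁ h1le s₀ hs₀, one_mul,
      valuation_eq_one_of_notMem_nonunits (hRV₁ u) hu1, mul_one] at h
    exact h.symm
  have hwπ2 : V₂.valuation π ≠ 0 := (V₂.valuation.ne_zero_iff).2 hπ0
  have hu2val : V₂.valuation (u : F₀) ≤ V₂.valuation π := by
    have h1 := hT.unif₂ _ hu2
    have h2 := (V₂.valuation_le_one_iff _).2 h1
    rw [map_mul, map_inv₀] at h2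
    exact ((mul_inv_le_iff₀ (lt_of_le_of_ne zero_le (Ne.symm hwπ2))).1 h2).trans
      (by rw [one_mul])
  have hc₀2 : V₂.valuation (c₀ : F₀) = 1 := by
    have h := congrArg V₂.valuation hrelF
    rw [map_mul, map_mul, val1 V₂ hRV₂ h2le s₀ hs₀, one_mul] at h
    have hle : V₂.valuation (c₀ : F₀) ≤ 1 := (V₂.valuation_le_one_iff _).2 (hRV₂ c₀)
    have hu2ne : V₂.valuation (u : F₀) ≠ 0 :=
      (V₂.valuation.ne_zero_iff).2 (fun h0 => hu0 (Subtype.ext h0))
    by_contra hne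
    have hlt : V₂.valuation (c₀ : F₀) < 1 := lt_of_le_of_ne hle hne
    have : V₂.valuation (c₀ : F₀) * V₂.valuation (u : F₀) < V₂.valuation π := by
      calc V₂.valuation (c₀ : F₀) * V₂.valuation (u : F₀)
          < 1 * V₂.valuation (u : F₀) :=
            mul_lt_mul_of_pos_right hlt (lt_of_le_of_ne zero_le (Ne.symm hu2ne))
        _ = V₂.valuation (u : F₀) := one_mul _
        _ ≤ V₂.valuation π := hu2val
    exact (ne_of_lt this) h.symm
  have hc₀𝔫 : c₀ ∈ 𝔫 := by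
    apply h1le
    rw [V₁.mem_nonunits_iff, hc₀1]
    exact V₁.mem_nonunits_iff.1 hT.pi_mem₁
  have hc₀0 : c₀ ≠ 0 := by
    rintro rfl
    have : V₂.valuation ((0 : chartAlg O F₀ {s}) : F₀) = 0 := by simp
    rw [this] at hc₀2
    exact zero_ne_one hc₀2
  -- `s₀ v = c₀ G`
  have hsv : s₀ * v = c₀ * G := by
    have h1 : u * (s₀ * v) = u * (c₀ * G) := by
      calc u * (s₀ * v) = s₀ * (u * v) := by ring
        _ = s₀ * (algebraMap O (chartAlg O F₀ {s}) ϖ * G) := by rw [hG]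
        _ = (s₀ * algebraMap O (chartAlg O F₀ {s}) ϖ) * G := by ring
        _ = c₀ * u * G := by rw [hsc₀]
        _ = u * (c₀ * G) := by ring
    exact mul_left_cancel₀ hu0 h1
  -- `G ∉ 𝔫`
  have hG𝔫 : G ∉ 𝔫 := by
    intro hGmem
    obtain ⟨s₁, hs₁, hmem⟩ := hgen G hGmem
    obtain ⟨a, z, hz, hsum⟩ := Ideal.mem_span_insert.1 hmem
    obtain ⟨b, rfl⟩ := Ideal.mem_span_singleton'.1 hz
    -- `(s₀ s₁ - c₀ b) v = c₀ a u`
    have hkey : (s₀ * s₁ - c₀ * b) * v = c₀ * a * u := by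
      have : s₀ * s₁ * v = c₀ * (s₁ * G) := by
        calc s₀ * s₁ * v = s₁ * (s₀ * v) := by ring
          _ = s₁ * (c₀ * G) := by rw [hsv]
          _ = c₀ * (s₁ * G) := by ring
      rw [sub_mul, this, hsum]; ring
    have hnot : s₀ * s₁ - c₀ * b ∉ 𝔫 := by
      intro hmem'
      have : s₀ * s₁ ∈ 𝔫 := by
        have e : s₀ * s₁ = (s₀ * s₁ - c₀ * b) + c₀ * b := by ring
        rw [e]
        exact 𝔫.add_mem hmem' (𝔫.mul_mem_right _ hc₀𝔫)
      exact (h𝔫.mem_or_mem this).elim hs₀ hs₁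
    have h := congrArg (fun x : chartAlg O F₀ {s} => V₂.valuation (x : F₀)) hkey
    simp only [MulMemClass.coe_mul, map_mul] at h
    rw [val1 V₂ hRV₂ h2le _ hnot, valuation_eq_one_of_notMem_nonunits (hRV₂ v) hv2, one_mul] at h
    have hlt : V₂.valuation (c₀ : F₀) * V₂.valuation (a : F₀) * V₂.valuation (u : F₀) < 1 := by
      have h1 : V₂.valuation (c₀ : F₀) * V₂.valuation (a : F₀) ≤ 1 :=
        mul_le_one' ((V₂.valuation_le_one_iff _).2 (hRV₂ c₀))
          ((V₂.valuation_le_one_iff _).2 (hRV₂ a))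
      exact mul_lt_one_of_nonneg_of_lt_one_right h1 zero_le (V₂.mem_nonunits_iff.1 hu2)
    rw [← h] at hlt
    exact lt_irrefl _ hlt
  -- `r / c₀ ∈ R_𝔫` for `r ∈ 𝔪(V₁)`
  intro r hr
  have hc₀F : (c₀ : F₀) ≠ 0 := fun h0 => hc₀0 (Subtype.ext h0)
  obtain ⟨a', s', hs', hx⟩ := exists_mul_eq_of_valuationSubrings_at (K := K₀) hϖ (pairV V₁ V₂)
    hV hϖV hsat 𝔫
    (algebraMap (chartAlg O F₀ {s}) F₀ r * (algebraMap (chartAlg O F₀ {s}) F₀ c₀)⁻¹)
    (by
      intro i hi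
      clear hi
      revert i
      rw [Fin.forall_fin_two]
      refine ⟨?_, ?_⟩
      · show (r : F₀) * (c₀ : F₀)⁻¹ ∈ V₁
        rw [← V₁.valuation_le_one_iff, map_mul, map_inv₀, hc₀1]
        have hwπ1 : V₁.valuation π ≠ 0 := (V₁.valuation.ne_zero_iff).2 hπ0
        have h1 := hT.unif₁ _ hr
        have h2 := (V₁.valuation_le_one_iff _).2 h1
        rwa [map_mul, map_inv₀] at h2
      · show (r : F₀) * (c₀ : F₀)⁻¹ ∈ V₂
        rw [← V₂.valuation_le_one_iff, map_mul, map_inv₀, hc₀2, inv_one, mul_one]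
        exact (V₂.valuation_le_one_iff _).2 (hRV₂ r))
    (by
      intro Q h1 h2
      refine mul_mem (h1 r) ?_
      -- `c₀` is a unit at `Q`
      have hval : Q.toValuationSubring.valuation π = 1 := by
        have h3 : π ∈ Q.toValuationSubring := by
          rw [hπ, IsScalarTower.algebraMap_apply O K₀ F₀]; exact Q.algebraMap_mem' _
        have h4 : π⁻¹ ∈ Q.toValuationSubring := by
          rw [hπ, IsScalarTower.algebraMap_apply O K₀ F₀, ← map_inv₀]; exact Q.algebraMap_mem' _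
        have h5 := (Q.toValuationSubring.valuation_le_one_iff _).2 h3
        have h6 := (Q.toValuationSubring.valuation_le_one_iff _).2 h4
        rw [map_inv₀] at h6
        have hne : Q.toValuationSubring.valuation π ≠ 0 :=
          (Q.toValuationSubring.valuation.ne_zero_iff).2 hπ0
        exact le_antisymm h5 ((inv_le_one₀ (lt_of_le_of_ne zero_le (Ne.symm hne))).1 h6)
      have h := congrArg Q.toValuationSubring.valuation hrelF
      rw [map_mul, map_mul, hval, mul_one,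
        val1 Q.toValuationSubring (fun r => h1 r) (fun r hr => h2 r hr) s₀ hs₀] at h
      have hc : Q.toValuationSubring.valuation (c₀ : F₀) ≤ 1 :=
        (Q.toValuationSubring.valuation_le_one_iff _).2 (h1 c₀)
      have hu : Q.toValuationSubring.valuation (u : F₀) ≤ 1 :=
        (Q.toValuationSubring.valuation_le_one_iff _).2 (h1 u)
      have hc1 : Q.toValuationSubring.valuation (c₀ : F₀) = 1 := by
        by_contra hne
        have hlt := lt_of_le_of_ne hc hne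
        have : Q.toValuationSubring.valuation (c₀ : F₀) *
            Q.toValuationSubring.valuation (u : F₀) < 1 :=
          mul_lt_one_of_nonneg_of_lt_one_left zero_le hlt hu
        rw [← h] at this
        exact lt_irrefl _ this
      show (c₀ : F₀)⁻¹ ∈ Q.toValuationSubring
      rw [← Q.toValuationSubring.valuation_le_one_iff, map_inv₀, hc1, inv_one])
  -- conclusion
  have hrs : r * s' = a' * c₀ := by
    apply hinj
    rw [map_mul, map_mul, ← hx]
    have : algebraMap (chartAlg O F₀ {s}) F₀ c₀ ≠ 0 := hc₀F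
    field_simp
  refine ⟨s' * G, a' * s₀, fun h => (h𝔫.mem_or_mem h).elim hs' hG𝔫, ?_⟩
  calc s' * G * r = (r * s') * G := by ring
    _ = a' * c₀ * G := by rw [hrs]
    _ = a' * (c₀ * G) := by ring
    _ = a' * (s₀ * v) := by rw [hsv]
    _ = a' * s₀ * v := by ring

end Fermat.Agent.S36.R1.MirrorTwoVal
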