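import Mathlib
import Fermat.Agent.S36.R1.CrossingRegularFull
import Fermat.Agent.S36.R1.MirrorTwoVal

/-!
# S36, block (R1): regularity at a crossing point, both branches, from ONE order condition

Same setting as `S36/R1/CrossingRegular.lean`.  `regular_fin_both` : at a crossing point `𝔫` of the
finite chart `R = Rfin K (N ℓ) O`, from a vertical unit pair `(h, g)` (`h * g = c ∼ ϖ ^ m`,
`θ₁ h ≠ 0`, `θ₂ g ≠ 0`) with `h ∈ ker θ₁ + 𝔫 ^ m`, the crossing coordinates `u, v` satisfy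

* `ker θ₂ · R_𝔫 = u R_𝔫`, `ker θ₁ · R_𝔫 = v R_𝔫` (both branches are principal),
* `𝔫 R_𝔫 = (u, v)`, `u v = ϖ G` with `G ∉ 𝔫`.

The second branch comes from `MirrorTwoVal.mirror_of_principal` (no condition on `θ₂ g` beyond
`θ₂ g ≠ 0`).  `regular_fin_both_of_ord` : the same with the order condition stated in
`R̄ = RbarFin K N O`.
-/

set_option autoImplicit false
set_option linter.unusedSectionVars false
set_option linter.style.haveILetI false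

open ModularCurve Fermat.Agent.S28.Gauss Fermat.Agent.N4.Setting Fermat.Agent.N4.FibreEmbedding
open Fermat.Agent.N4.Chart
open Fermat.Agent.N4F.E.DegreeLevelRaise Fermat.Agent.N4F.E.GaussDVR AlgebraicCurve Polynomial
open Fermat.Agent.N4F.E IsLocalRing Fermat.Agent.P3G.RbarFin Fermat.Agent.P3G.TwoComponents
open Fermat.Agent.P3G.TwoComponentsFinal Fermat.Agent.P3G
open Fermat.Agent.S36.R1.CrossingRegular

noncomputable section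

namespace Fermat.Agent.S36.R1.CrossingRegularBoth

variable (K : Type) [Field K] [CharZero K] (N : ℕ) [NeZero N] (ℓ : ℕ) [Fact ℓ.Prime]
  (O : Subring K) [IsDiscreteValuationRing ↥O] [IsFractionRing ↥O K]
  [CharP (IsLocalRing.ResidueField ↥O) ℓ] [PerfectRing (IsLocalRing.ResidueField ↥O) ℓ]

set_option quotPrecheck false in
local notation "κ" => IsLocalRing.ResidueField ↥O

attribute [local instance] AlphaSide.algFL AlphaSide.algGL AlphaSide.isScalarTower_GFL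

set_option synthInstance.maxHeartbeats 400000

variable (hN : IsUnit ((N : ℕ) : ↥O)) (ι : K →+* ℂ) (hℓN : ¬ ℓ ∣ N)
  (hprime : (fibreIdeal K N O (Rfin K N O)).IsPrime)
  (hsmooth : IsDedekindDomain (↥(Rfin K N O) ⧸ fibreIdeal K N O (Rfin K N O)))
  (hA2 : ∀ x : ↥(gaussSubalgebra K N O),
    theta K N O x ∈ modularFunctionFieldFullC (IsLocalRing.ResidueField ↥O) N)
  (S₂ : FibreTwo.SecondVal K N ℓ O)
  {ϖ : ↥O} (hϖ : Irreducible ϖ)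

include hN ι hℓN hprime hsmooth hA2 hϖ in
/-- **Regularity at a crossing point, both branches principal, from one order condition.** -/
theorem regular_fin_both (𝔫 : Ideal ↥(Rfin K (N * ℓ) O)) [h𝔫 : 𝔫.IsMaximal]
    (hk1 : RingHom.ker (thetaFin K (N * ℓ) O) ≤ 𝔫)
    (hk2 : RingHom.ker (theta2S K N ℓ O S₂) ≤ 𝔫)
    {h g : ↥(Rfin K (N * ℓ) O)} {c : ↥O} {m : ℕ} (hm : m ≠ 0) (hc : Associated c (ϖ ^ m))
    (hhg : h * g = algebraMap ↥O ↥(Rfin K (N * ℓ) O) c)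
    (hh1 : thetaFin K (N * ℓ) O h ≠ 0) (hg2 : theta2S K N ℓ O S₂ g ≠ 0)
    (hord₁ : h ∈ RingHom.ker (thetaFin K (N * ℓ) O) ⊔ 𝔫 ^ m) :
    ∃ u v : ↥(Rfin K (N * ℓ) O), u ∈ 𝔫 ∧ v ∈ 𝔫 ∧
      theta2S K N ℓ O S₂ u = 0 ∧ thetaFin K (N * ℓ) O v = 0 ∧
      thetaFin K (N * ℓ) O u ≠ 0 ∧ theta2S K N ℓ O S₂ v ≠ 0 ∧
      (∀ r : ↥(Rfin K (N * ℓ) O), theta2S K N ℓ O S₂ r = 0 →
        ∃ s c' : ↥(Rfin K (N * ℓ) O), s ∉ 𝔫 ∧ s * r = c' * u) ∧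
      (∀ r : ↥(Rfin K (N * ℓ) O), thetaFin K (N * ℓ) O r = 0 →
        ∃ s c' : ↥(Rfin K (N * ℓ) O), s ∉ 𝔫 ∧ s * r = c' * v) ∧
      (∀ x ∈ 𝔫, ∃ s : ↥(Rfin K (N * ℓ) O), s ∉ 𝔫 ∧ s * x ∈ Ideal.span {u, v}) ∧
      u * v ∈ Ideal.span {algebraMap ↥O ↥(Rfin K (N * ℓ) O) ϖ} := by
  classical
  haveI : 𝔫.IsPrime := h𝔫.isPrime
  haveI := Fermat.Agent.N4.ModPolySetting.finiteDimensional_FF K (N * ℓ)
  haveI : IsNoetherianRing ↥(Rfin K (N * ℓ) O) :=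
    Fermat.Agent.N4.IntClosure.isNoetherianRing_chartAlg (O := ↥O) (K := K) (jF K (N * ℓ))
      (Fermat.Agent.N4.FFAlgebraic.transcendental_jF K (N * ℓ))
  set hB := FibreIdent.betaOut_of_secondVal K N ℓ O S₂ with hBdef
  have hVle := FibreSatKer.ker_inf_ker_le_fin K N ℓ O ι hℓN hprime hB hϖ
  obtain ⟨z₁, z₂, z₁', z₂', u, v, -, -, hun, hvn, hu2, hv1, hu1, hv2, huv, hgen, -⟩ :=
    exists_crossing_coordinates K N ℓ O hB hprime hsmooth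
      (fr_mem_iff K N ℓ O hN hprime hsmooth)
      (thetaFin_mem_rbar K N ℓ O hN ι hℓN hprime hsmooth hA2 S₂)
      (theta2S_mem_rbar K N ℓ O hN hprime hsmooth hA2 S₂) hVle 𝔫 hk1 hk2
  have hϖker := span_le_inf_ker K N ℓ O hB hϖ
  have hϖmem : algebraMap ↥O ↥(Rfin K (N * ℓ) O) ϖ ∈
      RingHom.ker (thetaFin K (N * ℓ) O) ⊓ RingHom.ker (theta2 K N ℓ O hB) :=
    hϖker (Ideal.subset_span (Set.mem_singleton _))
  have hϖ1 : algebraMap ↥O ↥(Rfin K (N * ℓ) O) ϖ ∈ RingHom.ker (thetaFin K (N * ℓ) O) :=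
    hϖmem.1
  have hϖ2 : theta2S K N ℓ O S₂ (algebraMap ↥O ↥(Rfin K (N * ℓ) O) ϖ) = 0 := hϖmem.2
  -- first branch
  have hgenP₁ := Fermat.Agent.S36.RegularCrossing.hgen_of_span_triple 𝔫
    (RingHom.ker (thetaFin K (N * ℓ) O)) (u := u) (v := v)
    (p := algebraMap ↥O ↥(Rfin K (N * ℓ) O) ϖ) hv1 hϖ1 hgen
  obtain ⟨s₁, c₁, hs₁, hsc₁⟩ :=
    Fermat.Agent.S36.RegularCrossing.hord_of_mem_sup_pow 𝔫
      (RingHom.ker (thetaFin K (N * ℓ) O)) hgenP₁ hord₁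
  have hT := FibreSatBridge.twoVal K N ℓ O ι hℓN hprime hB S₂ hϖ
  have hWs := FibreSatBridge.semiP K N ℓ O ι hℓN hprime hB S₂ hϖ
  have h1le : ∀ r : ↥(Rfin K (N * ℓ) O),
      (r : FF K (N * ℓ)) ∈ (gaussVS K (N * ℓ) O).nonunits → r ∈ 𝔫 :=
    fun r hr => hk1 ((mem_nonunits_gaussVS_iff_thetaFin K N ℓ O r).1 hr)
  have h2le : ∀ r : ↥(Rfin K (N * ℓ) O), (r : FF K (N * ℓ)) ∈ S₂.V.nonunits → r ∈ 𝔫 :=
    fun r hr => hk2 ((mem_nonunits_secondVal_iff_theta2S K N ℓ O S₂ r).1 hr)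
  have hu1' : (u : FF K (N * ℓ)) ∉ (gaussVS K (N * ℓ) O).nonunits :=
    fun hmem => hu1 ((mem_nonunits_gaussVS_iff_thetaFin K N ℓ O u).1 hmem)
  have hu2' : (u : FF K (N * ℓ)) ∈ S₂.V.nonunits :=
    (mem_nonunits_secondVal_iff_theta2S K N ℓ O S₂ u).2 hu2
  have key₁ := Fermat.Agent.S36.R1.RegularTwoVal.principal_of_twoVal (K₀ := K) (O := ↥O)
    (jF K (N * ℓ)) (Fermat.Agent.N4.FFAlgebraic.transcendental_jF K (N * ℓ)) hϖ
    (FibreSatBridge.W K N ℓ O S₂) (gaussVS K (N * ℓ) O) S₂.V hT hWs 𝔫 h1le h2le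
    (h := h) (g := g) (u := u) (c := c) hm hc hhg
    (fun hmem => hh1 ((mem_nonunits_gaussVS_iff_thetaFin K N ℓ O h).1 hmem))
    (fun hmem => hg2 ((mem_nonunits_secondVal_iff_theta2S K N ℓ O S₂ g).1 hmem))
    hu1' hu2'
    ⟨s₁, c₁, hs₁, (mem_nonunits_gaussVS_iff_thetaFin K N ℓ O _).2 hsc₁⟩
  have hprinc₁ : ∀ r : ↥(Rfin K (N * ℓ) O), theta2S K N ℓ O S₂ r = 0 →
      ∃ s c' : ↥(Rfin K (N * ℓ) O), s ∉ 𝔫 ∧ s * r = c' * u := fun r hr =>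
    key₁ r ((mem_nonunits_secondVal_iff_theta2S K N ℓ O S₂ r).2 hr)
  have hpair := Fermat.Agent.S36.RegularCrossing.exists_mul_mem_span_pair 𝔫
    (hprinc₁ _ hϖ2) hgen
  -- second branch
  have key₂ := Fermat.Agent.S36.R1.MirrorTwoVal.mirror_of_principal (K₀ := K) (O := ↥O)
    (jF K (N * ℓ)) (Fermat.Agent.N4.FFAlgebraic.transcendental_jF K (N * ℓ)) hϖ
    (FibreSatBridge.W K N ℓ O S₂) (gaussVS K (N * ℓ) O) S₂.V hT hWs 𝔫 h1le h2le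
    (u := u) (v := v) hu1' hu2'
    ((mem_nonunits_gaussVS_iff_thetaFin K N ℓ O v).2 hv1)
    (fun hmem => hv2 ((mem_nonunits_secondVal_iff_theta2S K N ℓ O S₂ v).1 hmem))
    (by
      obtain ⟨G, hG⟩ := Ideal.mem_span_singleton'.1 huv
      exact ⟨G, hG.symm.trans (mul_comm G _)⟩)
    hpair (hprinc₁ _ hϖ2)
  have hprinc₂ : ∀ r : ↥(Rfin K (N * ℓ) O), thetaFin K (N * ℓ) O r = 0 →
      ∃ s c' : ↥(Rfin K (N * ℓ) O), s ∉ 𝔫 ∧ s * r = c' * v := fun r hr =>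
    key₂ r ((mem_nonunits_gaussVS_iff_thetaFin K N ℓ O r).2 hr)
  exact ⟨u, v, hun, hvn, hu2, hv1, hu1, hv2, hprinc₁, hprinc₂, hpair, huv⟩

include hN ι hℓN hprime hsmooth hA2 hϖ in
/-- **Regularity at a crossing point, both branches principal**, from a vertical unit pair `(h, g)`
and ONE order condition in `R̄ = RbarFin K N O`: `θ₁ h ∈ 𝔪_y ⇒ θ₁ h ∈ 𝔪_y ^ m` for all `y`. -/
theorem regular_fin_both_of_ord (𝔫 : Ideal ↥(Rfin K (N * ℓ) O)) [h𝔫 : 𝔫.IsMaximal]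
    (hk1 : RingHom.ker (thetaFin K (N * ℓ) O) ≤ 𝔫)
    (hk2 : RingHom.ker (theta2S K N ℓ O S₂) ≤ 𝔫)
    {h g : ↥(Rfin K (N * ℓ) O)} {c : ↥O} {m : ℕ} (hm : m ≠ 0) (hc : Associated c (ϖ ^ m))
    (hhg : h * g = algebraMap ↥O ↥(Rfin K (N * ℓ) O) c)
    (hh1 : thetaFin K (N * ℓ) O h ≠ 0) (hg2 : theta2S K N ℓ O S₂ g ≠ 0)
    (hordb₁ : ∀ v : IsDedekindDomain.HeightOneSpectrum ↥(RbarFin K N O),
      CrossingLaurent.res (RbarFin K N O) (thetaFin K (N * ℓ) O)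
        (thetaFin_mem_rbar K N ℓ O hN ι hℓN hprime hsmooth hA2 S₂) h ∈ v.asIdeal →
      CrossingLaurent.res (RbarFin K N O) (thetaFin K (N * ℓ) O)
        (thetaFin_mem_rbar K N ℓ O hN ι hℓN hprime hsmooth hA2 S₂) h ∈ v.asIdeal ^ m) :
    ∃ u v : ↥(Rfin K (N * ℓ) O), u ∈ 𝔫 ∧ v ∈ 𝔫 ∧
      theta2S K N ℓ O S₂ u = 0 ∧ thetaFin K (N * ℓ) O v = 0 ∧
      thetaFin K (N * ℓ) O u ≠ 0 ∧ theta2S K N ℓ O S₂ v ≠ 0 ∧
      (∀ r : ↥(Rfin K (N * ℓ) O), theta2S K N ℓ O S₂ r = 0 →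
        ∃ s c' : ↥(Rfin K (N * ℓ) O), s ∉ 𝔫 ∧ s * r = c' * u) ∧
      (∀ r : ↥(Rfin K (N * ℓ) O), thetaFin K (N * ℓ) O r = 0 →
        ∃ s c' : ↥(Rfin K (N * ℓ) O), s ∉ 𝔫 ∧ s * r = c' * v) ∧
      (∀ x ∈ 𝔫, ∃ s : ↥(Rfin K (N * ℓ) O), s ∉ 𝔫 ∧ s * x ∈ Ideal.span {u, v}) ∧
      u * v ∈ Ideal.span {algebraMap ↥O ↥(Rfin K (N * ℓ) O) ϖ} := by
  classical
  haveI := isDedekindDomain_RbarFin K N O hprime hsmooth
  have D := crossingData_fin K N ℓ O hN ι hℓN hprime hsmooth hA2 S₂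
  have hker₁ := CrossingLaurent.ker_res (RbarFin K N O) (thetaFin K (N * ℓ) O)
    (thetaFin_mem_rbar K N ℓ O hN ι hℓN hprime hsmooth hA2 S₂)
  have hnf := not_isField_RbarFin K N O hprime
  have hϖmem : algebraMap ↥O ↥(Rfin K (N * ℓ) O) ϖ ∈
      RingHom.ker (thetaFin K (N * ℓ) O) ⊓
        RingHom.ker (theta2 K N ℓ O (FibreIdent.betaOut_of_secondVal K N ℓ O S₂)) :=
    span_le_inf_ker K N ℓ O _ hϖ (Ideal.subset_span (Set.mem_singleton _))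
  have hϖ2 : theta2S K N ℓ O S₂ (algebraMap ↥O ↥(Rfin K (N * ℓ) O) ϖ) = 0 := hϖmem.2
  obtain ⟨e, he⟩ := id hc
  have hce : c = ϖ ^ m * ((e⁻¹ : (↥O)ˣ) : ↥O) := by rw [← he, mul_assoc, Units.mul_inv, mul_one]
  have hc2 : theta2S K N ℓ O S₂ (algebraMap ↥O ↥(Rfin K (N * ℓ) O) c) = 0 := by
    rw [hce, map_mul, map_pow, map_mul, map_pow, hϖ2, zero_pow hm, zero_mul]
  have hh2 : theta2S K N ℓ O S₂ h = 0 := by
    have := congrArg (theta2S K N ℓ O S₂) hhg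
    rw [map_mul, hc2] at this
    exact (mul_eq_zero.1 this).resolve_right hg2
  have hord₁ : h ∈ RingHom.ker (thetaFin K (N * ℓ) O) ⊔ 𝔫 ^ m := by
    rw [← hker₁]
    exact Fermat.Agent.S36.R1.CrossingRegularFull.mem_sup_pow_of_ord _ D.surj₁ hnf 𝔫
      (hker₁ ▸ hk1) (hk2 hh2) hordb₁
  exact regular_fin_both K N ℓ O hN ι hℓN hprime hsmooth hA2 S₂ hϖ 𝔫 hk1 hk2 hm hc hhg hh1 hg2
    hord₁

end Fermat.Agent.S36.R1.CrossingRegularBoth
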