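/-
S36, block (R1), leaf R1-U (helper20), part 5: **the formal `q`-series of the modular unit
`Δ(z) / Δ(ℓ z)`**, over an arbitrary commutative ring.

For a commutative ring `R`:
* `dlt R = q ∏ (1 - qⁿ)^24 ∈ R((q))` (the image of the integral series `X * dedekindEtaUnit`),
  `dltInv R` its inverse;
* `hser R ℓ = dlt(q) / dlt(q^ℓ)` and `hserInv R ℓ = dlt(q^ℓ) / dlt(q)`, mutually inverse;
* all four are compatible with `coeffMap` (base change of coefficients) and with `qExpand`;
* over a field: `ofPS a / ofPS (expand ℓ a) = hser` for `a = (X * dedekindEtaUnit).map _`;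
* in characteristic `ℓ`: `dlt(q^ℓ) = dlt(q)^ℓ`, hence `hser κ ℓ * dlt κ ^ (ℓ - 1) = 1`, i.e.
  `hser κ ℓ = Δ̄^(1 - ℓ)`.
-/
import Mathlib
import Fermat.Agent.N4.Kronecker
import Fermat.Agent.S16.BetaLemmaA

set_option autoImplicit false
set_option linter.unusedSectionVars false

namespace Fermat.Agent.S36.R1.DeltaSeries

open ModularCurve

noncomputable section

variable (R : Type*) [CommRing R]

/-- `Δ = q ∏ (1 - qⁿ)^24` as a Laurent series over `R`. -/
def dlt : LaurentSeries R :=
  HahnSeries.ofPowerSeries ℤ R ((PowerSeries.X * dedekindEtaUnit).map (Int.castRingHom R))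

/-- `Δ⁻¹` as a Laurent series over `R`. -/
def dltInv : LaurentSeries R :=
  HahnSeries.single (-1 : ℤ) (1 : R) *
    HahnSeries.ofPowerSeries ℤ R (dedekindEtaUnitInv.map (Int.castRingHom R))

theorem dlt_eq : dlt R = HahnSeries.single (1 : ℤ) (1 : R) *
    HahnSeries.ofPowerSeries ℤ R (dedekindEtaUnit.map (Int.castRingHom R)) := by
  rw [dlt, map_mul (PowerSeries.map (Int.castRingHom R)),
    map_mul (HahnSeries.ofPowerSeries ℤ R), PowerSeries.map_X, HahnSeries.ofPowerSeries_X]

theorem dlt_mul_dltInv : dlt R * dltInv R = 1 := by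
  have h1 : (HahnSeries.single (1 : ℤ) (1 : R)) * HahnSeries.single (-1 : ℤ) (1 : R) = 1 := by
    rw [HahnSeries.single_mul_single]
    simp
  have h2 : HahnSeries.ofPowerSeries ℤ R (dedekindEtaUnit.map (Int.castRingHom R)) *
      HahnSeries.ofPowerSeries ℤ R (dedekindEtaUnitInv.map (Int.castRingHom R)) = 1 := by
    rw [← map_mul, ← map_mul, dedekindEtaUnit_mul_inv, map_one, map_one]
  rw [dlt_eq, dltInv]
  calc _ = (HahnSeries.single (1 : ℤ) (1 : R) * HahnSeries.single (-1 : ℤ) (1 : R)) *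
      (HahnSeries.ofPowerSeries ℤ R (dedekindEtaUnit.map (Int.castRingHom R)) *
        HahnSeries.ofPowerSeries ℤ R (dedekindEtaUnitInv.map (Int.castRingHom R))) := by ring
    _ = 1 := by rw [h1, h2, one_mul]

theorem dltInv_mul_dlt : dltInv R * dlt R = 1 := by rw [mul_comm, dlt_mul_dltInv]

variable {R}

theorem map_map_int {S : Type*} [CommRing S] (f : R →+* S) (x : PowerSeries ℤ) :
    (x.map (Int.castRingHom R)).map f = x.map (Int.castRingHom S) := by
  ext n
  rw [PowerSeries.coeff_map, PowerSeries.coeff_map, PowerSeries.coeff_map]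
  simp

theorem coeffMap_dlt {S : Type*} [CommRing S] (f : R →+* S) : coeffMap f (dlt R) = dlt S := by
  rw [dlt, dlt, coeffMap_ofPowerSeries, map_map_int]

theorem coeffMap_dltInv {S : Type*} [CommRing S] (f : R →+* S) :
    coeffMap f (dltInv R) = dltInv S := by
  rw [dltInv, dltInv, map_mul, coeffMap_single, map_one, coeffMap_ofPowerSeries, map_map_int]

variable (R)

theorem dlt_eq_DeltaK (K : Type*) [Field K] : dlt K = Fermat.Agent.S16.BetaLemma.DeltaK K := rfl

theorem dlt_ne_zero [Nontrivial R] : dlt R ≠ 0 := by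
  intro h
  have := dlt_mul_dltInv R
  rw [h, zero_mul] at this
  exact zero_ne_one this

variable (ℓ : ℕ) [NeZero ℓ]

/-- `Δ(q) / Δ(q^ℓ)`. -/
def hser : LaurentSeries R := dlt R * qExpand R ℓ (dltInv R)

/-- `Δ(q^ℓ) / Δ(q)`. -/
def hserInv : LaurentSeries R := dltInv R * qExpand R ℓ (dlt R)

theorem hser_mul_hserInv : hser R ℓ * hserInv R ℓ = 1 := by
  rw [hser, hserInv]
  calc _ = (dlt R * dltInv R) * qExpand R ℓ (dltInv R * dlt R) := by rw [map_mul]; ring
    _ = 1 := by rw [dlt_mul_dltInv, dltInv_mul_dlt, map_one, one_mul]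

theorem hserInv_mul_hser : hserInv R ℓ * hser R ℓ = 1 := by rw [mul_comm, hser_mul_hserInv]

theorem hser_mul_qExpand : hser R ℓ * qExpand R ℓ (dlt R) = dlt R := by
  rw [hser, mul_assoc, ← map_mul, dltInv_mul_dlt, map_one, mul_one]

theorem hserInv_mul_dlt : hserInv R ℓ * dlt R = qExpand R ℓ (dlt R) := by
  rw [hserInv, mul_comm (dltInv R), mul_assoc, dltInv_mul_dlt, mul_one]

variable {R}

theorem coeffMap_hser {S : Type*} [CommRing S] (f : R →+* S) :
    coeffMap f (hser R ℓ) = hser S ℓ := by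
  rw [hser, hser, map_mul, coeffMap_dlt, coeffMap_qExpand, coeffMap_dltInv]

theorem coeffMap_hserInv {S : Type*} [CommRing S] (f : R →+* S) :
    coeffMap f (hserInv R ℓ) = hserInv S ℓ := by
  rw [hserInv, hserInv, map_mul, coeffMap_dltInv, coeffMap_qExpand, coeffMap_dlt]

variable (R)

theorem hser_ne_zero [Nontrivial R] : hser R ℓ ≠ 0 := by
  intro h
  have := hser_mul_hserInv R ℓ
  rw [h, zero_mul] at this
  exact zero_ne_one this

theorem hserInv_ne_zero [Nontrivial R] : hserInv R ℓ ≠ 0 := by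
  intro h
  have := hserInv_mul_hser R ℓ
  rw [h, zero_mul] at this
  exact zero_ne_one this

/-! ### Fields -/

section Field

variable (K : Type*) [Field K]

/-- The power series `X * dedekindEtaUnit` over `K`. -/
def dltPS : PowerSeries K := (PowerSeries.X * dedekindEtaUnit).map (Int.castRingHom K)

theorem ofPowerSeries_dltPS : HahnSeries.ofPowerSeries ℤ K (dltPS K) = dlt K := rfl

theorem ofPowerSeries_expand_dltPS (d : ℕ) [NeZero d] :
    HahnSeries.ofPowerSeries ℤ K ((dltPS K).expand d (NeZero.ne d)) = qExpand K d (dlt K) := by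
  rw [← Fermat.Agent.N4.Kronecker.qExpand_ofPowerSeries, ofPowerSeries_dltPS]

theorem qExpand_dlt_ne_zero (d : ℕ) [NeZero d] : qExpand K d (dlt K) ≠ 0 := by
  intro h
  exact dlt_ne_zero K ((map_eq_zero_iff _ (qExpand_injective d)).mp h)

/-- `Δ(q) / Δ(q^ℓ)` as a quotient of two power series. -/
theorem ofPowerSeries_div_expand :
    HahnSeries.ofPowerSeries ℤ K (dltPS K) /
      HahnSeries.ofPowerSeries ℤ K ((dltPS K).expand ℓ (NeZero.ne ℓ)) = hser K ℓ := by
  rw [ofPowerSeries_expand_dltPS, ofPowerSeries_dltPS, div_eq_iff (qExpand_dlt_ne_zero K ℓ),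
    hser_mul_qExpand]

theorem hser_inv : (hser K ℓ)⁻¹ = hserInv K ℓ :=
  inv_eq_of_mul_eq_one_right (hser_mul_hserInv K ℓ)

end Field

/-! ### Characteristic `ℓ` -/

section CharL

variable (κ : Type*) [Field κ] (p : ℕ) [Fact p.Prime] [CharP κ p]

theorem neZero_of_fact : NeZero p := ⟨(Fact.out : p.Prime).ne_zero⟩

attribute [local instance] neZero_of_fact

/-- `Δ(q^p) = Δ(q)^p` in characteristic `p`. -/
theorem qExpand_dlt_eq_pow : qExpand κ p (dlt κ) = dlt κ ^ p := by
  rw [Fermat.Agent.N4.Kronecker.pow_char_eq_qExpand p (dlt κ), coeffMap_dlt]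

/-- **`Δ(q) / Δ(q^p) = Δ^(1 - p)` in characteristic `p`.** -/
theorem hser_mul_dlt_pow : hser κ p * dlt κ ^ (p - 1) = 1 := by
  have hp : 1 ≤ p := (Fact.out : p.Prime).one_lt.le
  have h := hser_mul_qExpand κ p
  rw [qExpand_dlt_eq_pow] at h
  have h0 := dlt_ne_zero κ
  have e : dlt κ ^ p = dlt κ ^ (p - 1) * dlt κ := by
    rw [← pow_succ, Nat.sub_add_cancel hp]
  rw [e, ← mul_assoc] at h
  exact mul_right_cancel₀ h0 (h.trans (one_mul _).symm)

theorem hserInv_eq_dlt_pow : hserInv κ p = dlt κ ^ (p - 1) := by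
  have h1 := hser_mul_dlt_pow κ p
  have h2 := hser_mul_hserInv κ p
  exact mul_left_cancel₀ (hser_ne_zero κ p) (h2.trans h1.symm)

end CharL

end

end Fermat.Agent.S36.R1.DeltaSeries
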