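/-
S36, block (R1), leaf R1-U (helper20), part 3: **descent of integrality along coefficientwise base
change of Laurent series.**

`K ⊆ L` fields, `x, j ∈ K((q))`.  If the image of `x` in `L((q))` is a root of a monic polynomial with
coefficients in `L[j]`, then `x` is a root of a monic polynomial (of the same degree) with coefficients
in `K[j]`.  (Apply a `K`-linear retraction `φ : L → K` coefficientwise: it is `K((q))`-linear.)
-/
import Mathlib
import Fermat.Prelude.Def_ModularCurve_LaurentCoeff

set_option autoImplicit false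
set_option linter.unusedSectionVars false
set_option linter.style.haveILetI false

open ModularCurve Polynomial

noncomputable section

namespace Fermat.Agent.S36.R1.IntegralDescent

variable {K L : Type*} [Field K] [Field L] [Algebra K L]

/-- Coefficientwise push-forward along a `K`-linear functional. -/
def push (φ : L →ₗ[K] K) : LaurentSeries L →+ LaurentSeries K where
  toFun z := z.map φ
  map_zero' := by ext n; simp
  map_add' z w := by ext n; simp

@[simp] theorem push_coeff (φ : L →ₗ[K] K) (z : LaurentSeries L) (n : ℤ) :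
    (push φ z).coeff n = φ (z.coeff n) := rfl

theorem support_push_subset (φ : L →ₗ[K] K) (z : LaurentSeries L) :
    (push φ z).support ⊆ z.support := by
  intro n hn
  rw [HahnSeries.mem_support] at hn ⊢
  intro h
  apply hn
  rw [push_coeff, h, map_zero]

theorem support_coeffMap_subset (y : LaurentSeries K) :
    (coeffMap (algebraMap K L) y).support ⊆ y.support := by
  intro n hn
  rw [HahnSeries.mem_support] at hn ⊢
  intro h
  apply hn
  rw [coeffMap_coeff, h, map_zero]

/-- `push φ` is `K((q))`-linear. -/
theorem push_coeffMap_mul (φ : L →ₗ[K] K) (y : LaurentSeries K) (z : LaurentSeries L) :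
    push φ (coeffMap (algebraMap K L) y * z) = y * push φ z := by
  ext n
  rw [push_coeff, HahnSeries.coeff_mul_left' y.isPWO_support (support_coeffMap_subset y),
    HahnSeries.coeff_mul_right' z.isPWO_support (support_push_subset φ z), map_sum]
  refine Finset.sum_congr rfl fun ij _ => ?_
  rw [coeffMap_coeff, push_coeff, ← Algebra.smul_def, map_smul, smul_eq_mul]

theorem push_C (φ : L →ₗ[K] K) (c : L) :
    push φ (HahnSeries.C c) = HahnSeries.C (φ c) := by
  ext n
  rw [push_coeff, HahnSeries.C_apply, HahnSeries.C_apply, HahnSeries.coeff_single,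
    HahnSeries.coeff_single]
  split_ifs <;> simp

theorem push_C_mul_coeffMap (φ : L →ₗ[K] K) (c : L) (y : LaurentSeries K) :
    push φ (HahnSeries.C c * coeffMap (algebraMap K L) y) = HahnSeries.C (φ c) * y := by
  rw [mul_comm, push_coeffMap_mul, push_C, mul_comm]

theorem push_coeffMap (φ : L →ₗ[K] K) (hφ : φ 1 = 1) (y : LaurentSeries K) :
    push φ (coeffMap (algebraMap K L) y) = y := by
  have := push_C_mul_coeffMap φ 1 y
  rwa [hφ, map_one, one_mul, map_one, one_mul] at this

/-- A `K`-linear retraction of `K → L`. -/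
theorem exists_retraction : ∃ φ : L →ₗ[K] K, φ 1 = 1 := by
  have hinj : LinearMap.ker (Algebra.linearMap K L) = ⊥ :=
    LinearMap.ker_eq_bot.mpr (algebraMap K L).injective
  obtain ⟨g, hg⟩ := LinearMap.exists_leftInverse_of_injective (Algebra.linearMap K L) hinj
  refine ⟨g, ?_⟩
  have := congrArg (fun f : K →ₗ[K] K => f 1) hg
  simpa using this

/-! ### The expanded form of a polynomial relation over `L[j]` -/

theorem algebraMap_eq_C {F : Type*} [Field F] (c : F) :
    algebraMap F (LaurentSeries F) c = HahnSeries.C c := by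
  have h1 : algebraMap F (PowerSeries F) c = PowerSeries.C c := by simp
  rw [HahnSeries.algebraMap_apply', h1, HahnSeries.ofPowerSeries_C]

/-- The value of `P(J)`, `P ∈ L[X]`, as a sum over a range. -/
theorem aeval_eq_sum (J : LaurentSeries L) (P : L[X]) {d : ℕ} (hd : P.natDegree < d) :
    Polynomial.aeval J P = ∑ k ∈ Finset.range d, HahnSeries.C (P.coeff k) * J ^ k := by
  rw [Polynomial.aeval_eq_sum_range' hd]
  refine Finset.sum_congr rfl fun k _ => ?_
  rw [Algebra.smul_def, algebraMap_eq_C]

/-- **Descent of integrality.** -/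
theorem exists_monic_of_coeffMap (x j : LaurentSeries K) (Q : L[X][X]) (hQ : Q.Monic)
    (h : eval₂ ((Polynomial.aeval (coeffMap (algebraMap K L) j)).toRingHom :
        L[X] →+* LaurentSeries L) (coeffMap (algebraMap K L) x) Q = 0) :
    ∃ Q' : K[X][X], Q'.Monic ∧ Q'.natDegree = Q.natDegree ∧
      eval₂ ((Polynomial.aeval j).toRingHom : K[X] →+* LaurentSeries K) x Q' = 0 := by
  classical
  obtain ⟨φ, hφ⟩ := exists_retraction (K := K) (L := L)
  set n := Q.natDegree with hn
  set d := (Finset.range (n + 1)).sup (fun i => (Q.coeff i).natDegree) + 1 with hd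
  have hdi : ∀ i ∈ Finset.range (n + 1), (Q.coeff i).natDegree < d := by
    intro i hi
    rw [hd]
    exact Nat.lt_succ_of_le (Finset.le_sup (f := fun i => (Q.coeff i).natDegree) hi)
  set J := coeffMap (algebraMap K L) j with hJ
  set Y := coeffMap (algebraMap K L) x with hY
  -- the coefficient polynomials over `K`
  set p : ℕ → K[X] := fun i => ∑ k ∈ Finset.range d, C (φ ((Q.coeff i).coeff k)) * X ^ k with hp
  set S : K[X][X] := ∑ i ∈ Finset.range n, C (p i) * X ^ i with hS
  have hSdeg : S.degree < n := by
    refine (degree_sum_le _ _).trans_lt ?_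
    refine (Finset.sup_lt_iff (WithBot.bot_lt_coe n)).mpr fun k hk => ?_
    exact (degree_C_mul_X_pow_le k _).trans_lt (WithBot.coe_lt_coe.mpr (Finset.mem_range.mp hk))
  have hnat : (X ^ n + S : K[X][X]).natDegree = n := by
    rw [natDegree_add_eq_left_of_degree_lt (by rwa [degree_X_pow]), natDegree_X_pow]
  refine ⟨X ^ n + S, monic_X_pow_add hSdeg, hnat, ?_⟩
  -- expand the relation over `L`
  have hexp : Y ^ n + ∑ i ∈ Finset.range n, ∑ k ∈ Finset.range d,
      HahnSeries.C ((Q.coeff i).coeff k) * (J ^ k * Y ^ i) = 0 := by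
    rw [eval₂_eq_sum_range, Finset.sum_range_succ, ← hn] at h
    have hlead : Q.coeff n = 1 := hQ.coeff_natDegree
    rw [hlead, map_one, one_mul, add_comm] at h
    rw [← h]
    congr 1
    refine Finset.sum_congr rfl fun i hi => ?_
    have hi' : i ∈ Finset.range (n + 1) :=
      Finset.mem_range.mpr (Nat.lt_succ_of_lt (Finset.mem_range.mp hi))
    show _ = (Polynomial.aeval J (Q.coeff i)) * Y ^ i
    rw [aeval_eq_sum J (Q.coeff i) (hdi i hi'), Finset.sum_mul]
    refine Finset.sum_congr rfl fun k _ => ?_
    rw [mul_assoc]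
  -- push it down to `K`
  have hpush := congrArg (push φ) hexp
  rw [map_add, map_zero, map_sum] at hpush
  have h1 : push φ (Y ^ n) = x ^ n := by
    rw [hY, ← map_pow, push_coeffMap φ hφ]
  have h2 : ∀ i ∈ Finset.range n, push φ (∑ k ∈ Finset.range d,
      HahnSeries.C ((Q.coeff i).coeff k) * (J ^ k * Y ^ i)) =
      (Polynomial.aeval j (p i)) * x ^ i := by
    intro i _
    rw [map_sum, hp, map_sum, Finset.sum_mul]
    refine Finset.sum_congr rfl fun k _ => ?_
    rw [hJ, hY, ← map_pow, ← map_pow, ← map_mul, push_C_mul_coeffMap, map_mul, aeval_C, map_pow,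
      aeval_X, mul_assoc, algebraMap_eq_C]
  rw [h1, Finset.sum_congr rfl h2] at hpush
  rw [eval₂_add, eval₂_pow, eval₂_X, hS, eval₂_finsetSum]
  rw [← hpush]
  congr 1
  refine Finset.sum_congr rfl fun i _ => ?_
  rw [eval₂_mul, eval₂_C, eval₂_pow, eval₂_X]
  rfl

end Fermat.Agent.S36.R1.IntegralDescent
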