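/-
S36, block (R1), leaf R1-U (helper20), part 1: **integrality over `ℂ[j]` of the inverse of a nowhere
vanishing weakly holomorphic modular function.**

For a finite-index `Γ ≤ SL(2,ℤ)` and a holomorphic `Γ`-invariant `f : ℍ → ℂ`, meromorphic at all cusps,
the coset polynomial `∏_q (Y - f ∣ q⁻¹)` has coefficients in `ℂ[j]` (`M2.CosetPoly.exists_cosetPoly`).
If moreover `f` vanishes nowhere on `ℍ`, its constant term is a polynomial in `j` without zeros on `ℍ`;
as `j : ℍ → ℂ` is onto (`M2.JSurj.exists_j_eq`) it is a nonzero constant, so the reversed polynomial,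
normalised, is a monic polynomial over `ℂ[j]` killing `1 / f`.
-/
import Mathlib
import Fermat.Agent.M2.CosetPoly
import Fermat.Agent.M2.JSurj

set_option autoImplicit false
set_option linter.unusedSectionVars false
set_option linter.style.haveILetI false

namespace Fermat.Agent.S36.R1.InvIntegral

open UpperHalfPlane ModularForm MatrixGroups Polynomial
open Fermat.Agent.M2.CosetPoly
open scoped Manifold

local notation "Δ" => ModularForm.discriminant

variable {Γ : Subgroup SL(2, ℤ)} [Γ.FiniteIndex]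

omit [Γ.FiniteIndex] in
theorem cosetFun_ne_zero (f : ℍ → ℂ) (hinv : ∀ g ∈ Γ, f ∣[(0 : ℤ)] g = f)
    (hne : ∀ z, f z ≠ 0) (q : SL(2, ℤ) ⧸ Γ) (z : ℍ) : cosetFun Γ f hinv q z ≠ 0 := by
  induction q using QuotientGroup.induction_on with
  | H γ =>
    rw [cosetFun_mk, slash_zero_apply]
    exact hne _

/-- The coset polynomial of a nowhere vanishing `f` has a nonzero CONSTANT as constant term. -/
theorem exists_cosetPoly_const (f : ℍ → ℂ) (hinv : ∀ g ∈ Γ, f ∣[(0 : ℤ)] g = f) (hol : MDiff f)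
    (hmero : ∀ γ : SL(2, ℤ), MeroAtInfty (f ∣[(0 : ℤ)] γ)) (hne : ∀ z, f z ≠ 0) :
    ∃ Q : ℂ[X][X], Q.Monic ∧ (∃ c : ℂ, c ≠ 0 ∧ Q.coeff 0 = C c) ∧ ∀ z : ℍ,
      (Q.map (evalRingHom (E₄ z ^ 3 / Δ z))).eval (f z) = 0 := by
  letI : Fintype (SL(2, ℤ) ⧸ Γ) := Subgroup.fintypeQuotientOfFiniteIndex
  obtain ⟨Q, hQm, -, hQ⟩ := exists_cosetPoly f hinv hol hmero
  have h0 : ∀ z : ℍ, (Q.coeff 0).eval (E₄ z ^ 3 / Δ z) ≠ 0 := by
    intro z
    have h1 := congrArg (fun P : ℂ[X] => P.eval 0) (hQ z)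
    simp only [eval_prod, eval_sub, eval_X, eval_C, zero_sub] at h1
    have h2 : (Q.map (evalRingHom (E₄ z ^ 3 / Δ z))).eval 0 =
        (Q.coeff 0).eval (E₄ z ^ 3 / Δ z) := by
      rw [← coeff_zero_eq_eval_zero, coeff_map, coe_evalRingHom]
    rw [← h2, h1]
    exact Finset.prod_ne_zero_iff.mpr fun q _ => neg_ne_zero.mpr (cosetFun_ne_zero f hinv hne q z)
  have hdeg : (Q.coeff 0).degree = 0 := by
    by_contra hd
    obtain ⟨r, hr⟩ := IsAlgClosed.exists_root (Q.coeff 0) hd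
    obtain ⟨z, hz⟩ := Fermat.Agent.M2.JSurj.exists_j_eq r
    exact h0 z (by rw [hz]; exact hr)
  have hC : Q.coeff 0 = C ((Q.coeff 0).coeff 0) := eq_C_of_degree_eq_zero hdeg
  have hc0 : (Q.coeff 0).coeff 0 ≠ 0 := by
    intro h
    rw [h, map_zero] at hC
    rw [hC, degree_zero] at hdeg
    exact absurd hdeg (by decide)
  refine ⟨Q, hQm, ⟨_, hc0, hC⟩, fun z => ?_⟩
  rw [hQ z, eval_prod]
  refine Finset.prod_eq_zero (Finset.mem_univ ((1 : SL(2, ℤ)) : SL(2, ℤ) ⧸ Γ)) ?_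
  rw [cosetFun_one]
  simp

/-! ### Generic algebra: the inverse of a root of a monic polynomial with unit constant term -/

section Algebra

variable {R L : Type*} [CommRing R] [IsDomain R] [Field L]

/-- If `y` is a root of a polynomial over `R` whose constant term is a unit, then `y ≠ 0` and
`y⁻¹` is a root of a monic polynomial over `R`. -/
theorem exists_monic_eval₂_inv (φ : R →+* L) (Q : R[X]) {u : R} (hu : IsUnit u)
    (h0 : Q.coeff 0 = u) {y : L} (hy : eval₂ φ y Q = 0) :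
    y ≠ 0 ∧ ∃ Q' : R[X], Q'.Monic ∧ Q'.natDegree = Q.natDegree ∧ eval₂ φ y⁻¹ Q' = 0 := by
  have hφu : φ u ≠ 0 := (hu.map φ).ne_zero
  have hy0 : y ≠ 0 := by
    rintro rfl
    rw [eval₂_at_zero, h0] at hy
    exact hφu hy
  refine ⟨hy0, ?_⟩
  obtain ⟨v, hv⟩ := hu
  have hu0 : u ≠ 0 := by rw [← hv]; exact v.ne_zero
  have hQ0 : Q.coeff 0 ≠ 0 := by rw [h0]; exact hu0
  have htr : Q.trailingCoeff = u := by
    rw [trailingCoeff, natTrailingDegree_eq_zero.mpr (Or.inr hQ0), h0]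
  have hvinv : ((v⁻¹ : Rˣ) : R) * u = 1 := by rw [← hv]; exact v.inv_mul
  have hvne : ((v⁻¹ : Rˣ) : R) ≠ 0 := (v⁻¹).ne_zero
  refine ⟨C ((v⁻¹ : Rˣ) : R) * Q.reverse, ?_, ?_, ?_⟩
  · rw [Monic, leadingCoeff_mul, leadingCoeff_C, reverse_leadingCoeff, htr, hvinv]
  · rw [natDegree_C_mul hvne, reverse_natDegree, natTrailingDegree_eq_zero.mpr (Or.inr hQ0),
      Nat.sub_zero]
  · letI : Invertible y := invertibleOfNonzero hy0
    have h1 := eval₂_reverse_mul_pow φ y Q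
    rw [hy] at h1
    have h3 : eval₂ φ (⅟y) Q.reverse = 0 := by
      rcases mul_eq_zero.mp h1 with h | h
      · exact h
      · exact absurd h (pow_ne_zero _ hy0)
    rw [eval₂_mul, ← invOf_eq_inv, h3, mul_zero]

end Algebra

/-- **The inverse of a nowhere vanishing weakly holomorphic modular function is integral over
`ℂ[j]`.** -/
theorem exists_monic_poly_root_inv (f : ℍ → ℂ) (hinv : ∀ g ∈ Γ, f ∣[(0 : ℤ)] g = f) (hol : MDiff f)
    (hmero : ∀ γ : SL(2, ℤ), MeroAtInfty (f ∣[(0 : ℤ)] γ)) (hne : ∀ z, f z ≠ 0) :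
    ∃ Q : ℂ[X][X], Q.Monic ∧ ∀ z : ℍ,
      (Q.map (evalRingHom (E₄ z ^ 3 / Δ z))).eval ((f z)⁻¹) = 0 := by
  letI : Fintype (SL(2, ℤ) ⧸ Γ) := Subgroup.fintypeQuotientOfFiniteIndex
  obtain ⟨Q, hQm, -, hQ⟩ := exists_cosetPoly f hinv hol hmero
  -- the constant term has no zero on `ℍ`
  have h0 : ∀ z : ℍ, (Q.coeff 0).eval (E₄ z ^ 3 / Δ z) ≠ 0 := by
    intro z
    have h1 := congrArg (fun P : ℂ[X] => P.eval 0) (hQ z)
    simp only [eval_prod, eval_sub, eval_X, eval_C, zero_sub] at h1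
    have h2 : (Q.map (evalRingHom (E₄ z ^ 3 / Δ z))).eval 0 =
        (Q.coeff 0).eval (E₄ z ^ 3 / Δ z) := by
      rw [← coeff_zero_eq_eval_zero, coeff_map, coe_evalRingHom]
    rw [← h2, h1]
    exact Finset.prod_ne_zero_iff.mpr fun q _ => neg_ne_zero.mpr (cosetFun_ne_zero f hinv hne q z)
  -- hence it is a nonzero constant
  have hdeg : (Q.coeff 0).degree = 0 := by
    by_contra hd
    obtain ⟨r, hr⟩ := IsAlgClosed.exists_root (Q.coeff 0) hd
    obtain ⟨z, hz⟩ := Fermat.Agent.M2.JSurj.exists_j_eq r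
    exact h0 z (by rw [hz]; exact hr)
  have hC : Q.coeff 0 = C ((Q.coeff 0).coeff 0) := eq_C_of_degree_eq_zero hdeg
  set c : ℂ := (Q.coeff 0).coeff 0 with hc
  have hc0 : c ≠ 0 := by
    intro h
    rw [h, map_zero] at hC
    rw [hC, degree_zero] at hdeg
    exact absurd hdeg (by decide)
  have hQ0 : Q.coeff 0 ≠ 0 := by rw [hC]; exact C_ne_zero.mpr hc0
  -- the normalised reversed polynomial
  refine ⟨C (C c⁻¹) * Q.reverse, ?_, fun z => ?_⟩
  · have htr : Q.trailingCoeff = Q.coeff 0 := by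
      rw [trailingCoeff, natTrailingDegree_eq_zero.mpr (Or.inr hQ0)]
    rw [Monic, leadingCoeff_mul, leadingCoeff_C, reverse_leadingCoeff, htr, hC, ← C_mul,
      inv_mul_cancel₀ hc0, C_1]
  · letI : Invertible (f z) := invertibleOfNonzero (hne z)
    have h1 := eval₂_reverse_mul_pow (evalRingHom (E₄ z ^ 3 / Δ z)) (f z) Q
    have h2 : eval₂ (evalRingHom (E₄ z ^ 3 / Δ z)) (f z) Q = 0 := by
      rw [← eval_map, hQ z, eval_prod]
      refine Finset.prod_eq_zero (Finset.mem_univ ((1 : SL(2, ℤ)) : SL(2, ℤ) ⧸ Γ)) ?_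
      rw [cosetFun_one]
      simp
    rw [h2] at h1
    have h3 : eval₂ (evalRingHom (E₄ z ^ 3 / Δ z)) (⅟(f z)) Q.reverse = 0 := by
      rcases mul_eq_zero.mp h1 with h | h
      · exact h
      · exact absurd h (pow_ne_zero _ (hne z))
    rw [eval_map, eval₂_mul, ← invOf_eq_inv, h3, mul_zero]

end Fermat.Agent.S36.R1.InvIntegral
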