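/-
S36, block (R1), leaf R1-U (helper20), part 2: **integrality over `ℂ[j(q)]` in `F_ℂ = ℂ(j(q^d) : d ∣ N)`
of (the `q`-expansion of) a weakly holomorphic modular function of level `Γ₀(N)` — and of its inverse
when it vanishes nowhere on `ℍ`.**

`g : WH (Γ₀(N))`.  The coset polynomial (`M2.CosetPoly`) gives a monic `Q ∈ ℂ[X][Y]` with
`Q(j, g) = 0` in `WH (Γ₀(N))`; transport along `WH → WHField → F_ℂ` (`S24.FieldIso.fieldEquiv`, which
sends `P(j) ↦ P(j(q))`).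
-/
import Mathlib
import Fermat.Agent.S36.R1.InvIntegral
import Fermat.Agent.S24.FieldIsoFinal

set_option autoImplicit false
set_option linter.unusedSectionVars false
set_option linter.style.haveILetI false

namespace Fermat.Agent.S36.R1.WHIntegral

open UpperHalfPlane ModularForm MatrixGroups Polynomial CongruenceSubgroup ModularCurve
open Fermat.Agent.M2 Fermat.Agent.M2.CosetPoly Fermat.Agent.S24.FieldIso
open Fermat.Agent.S36.R1.InvIntegral
open scoped Manifold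

local notation "Δ" => ModularForm.discriminant

/-! ### `IsWH` in the language of `CosetPoly` -/

section IsWH

variable {Γ : Subgroup SL(2, ℤ)} {f : ℍ → ℂ}

theorem slash_eq_of_isWH (hf : IsWH Γ f) : ∀ g ∈ Γ, f ∣[(0 : ℤ)] g = f := by
  intro g hg
  funext z
  rw [slash_zero_apply]
  exact hf.2.1 g hg z

theorem meroAtInfty_slash_of_isWH (hf : IsWH Γ f) (γ : SL(2, ℤ)) :
    MeroAtInfty (f ∣[(0 : ℤ)] γ) := by
  obtain ⟨m, hm⟩ := hf.2.2 γ
  refine ⟨m, ?_⟩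
  have e : (fun z : ℍ => (f ∣[(0 : ℤ)] γ) z * Δ z ^ m) = fun z : ℍ => f (γ • z) * Δ z ^ m := by
    funext z
    rw [slash_zero_apply]
  rw [e]
  exact hm

end IsWH

/-! ### Evaluation at a point of `ℍ` -/

section Eval

variable (Γ : Subgroup SL(2, ℤ))

/-- Evaluation at `z` as a ring homomorphism on `WH Γ`. -/
def evWH (z : ℍ) : WH Γ →+* ℂ :=
  (Pi.evalRingHom (fun _ : ℍ => ℂ) z).comp (WH Γ).val.toRingHom

@[simp] theorem evWH_apply (z : ℍ) (g : WH Γ) : evWH Γ z g = (g : ℍ → ℂ) z := rfl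

theorem evWH_comp_algebraMap (z : ℍ) :
    (evWH Γ z).comp (algebraMap ℂ[X] (WH Γ)) = evalRingHom (E₄ z ^ 3 / Δ z) := by
  refine RingHom.ext fun P => ?_
  simp only [RingHom.coe_comp, Function.comp_apply, evWH_apply, algebraMap_polyWH_apply,
    coe_evalRingHom]
  rfl

/-- A pointwise polynomial identity over `ℂ[j]` is an identity in `WH Γ`. -/
theorem eval₂_eq_zero_of_forall (g : WH Γ) (Q : ℂ[X][X])
    (h : ∀ z : ℍ, (Q.map (evalRingHom (E₄ z ^ 3 / Δ z))).eval ((g : ℍ → ℂ) z) = 0) :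
    eval₂ (algebraMap ℂ[X] (WH Γ)) g Q = 0 := by
  apply Subtype.ext
  funext z
  have h1 : ((eval₂ (algebraMap ℂ[X] (WH Γ)) g Q : WH Γ) : ℍ → ℂ) z =
      evWH Γ z (eval₂ (algebraMap ℂ[X] (WH Γ)) g Q) := rfl
  rw [h1, hom_eval₂, evWH_comp_algebraMap, evWH_apply, ← eval_map, h z]
  rfl

end Eval

/-! ### Transport to `F_ℂ` -/

section FC

variable (N : ℕ) [NeZero N]

/-- `P ↦ P(j(q))`, as a ring homomorphism `ℂ[X] → F_ℂ`. -/
noncomputable def polyToFC : ℂ[X] →+* ↥(FC N) := (Polynomial.aeval (xC N)).toRingHom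

theorem polyToFC_apply (P : ℂ[X]) : polyToFC N P = Polynomial.aeval (xC N) P := rfl

/-- The `q`-expansion of `g : WH (Γ₀(N))` as an element of `F_ℂ`. -/
noncomputable def toFCWH (g : WH (Gamma0 N)) : ↥(FC N) :=
  fieldEquiv N (algebraMap (WH (Gamma0 N)) (WHField (Gamma0 N)) g)

theorem coe_toFCWH (g : WH (Gamma0 N)) :
    ((toFCWH N g : ↥(FC N)) : LaurentSeries ℂ) = Fermat.Agent.S24.QExp.qexp N g := by
  rw [toFCWH, coe_fieldEquiv, qexpField_algebraMap]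

theorem fieldEquiv_comp_algebraMap :
    ((fieldEquiv N : WHField (Gamma0 N) →+* ↥(FC N)).comp
        (algebraMap (WH (Gamma0 N)) (WHField (Gamma0 N)))).comp
      (algebraMap ℂ[X] (WH (Gamma0 N))) = polyToFC N := by
  refine RingHom.ext fun P => ?_
  simp only [RingHom.coe_comp, Function.comp_apply]
  rw [← IsScalarTower.algebraMap_apply ℂ[X] (WH (Gamma0 N)) (WHField (Gamma0 N))]
  exact fieldEquiv_algebraMap_poly N P

/-- A polynomial identity over `ℂ[j]` in `WH (Γ₀(N))` gives one over `ℂ[j(q)]` in `F_ℂ`. -/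
theorem eval₂_toFCWH (g : WH (Gamma0 N)) (Q : ℂ[X][X])
    (h : eval₂ (algebraMap ℂ[X] (WH (Gamma0 N))) g Q = 0) :
    eval₂ (polyToFC N) (toFCWH N g) Q = 0 := by
  have h1 := congrArg ((fieldEquiv N : WHField (Gamma0 N) →+* ↥(FC N)).comp
      (algebraMap (WH (Gamma0 N)) (WHField (Gamma0 N)))) h
  rw [hom_eval₂, map_zero, fieldEquiv_comp_algebraMap] at h1
  exact h1

/-- **Every `g ∈ WH (Γ₀(N))` is integral over `ℂ[j(q)]` in `F_ℂ`.** -/
theorem exists_monic_eval₂_toFCWH (g : WH (Gamma0 N)) :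
    ∃ Q : ℂ[X][X], Q.Monic ∧ eval₂ (polyToFC N) (toFCWH N g) Q = 0 := by
  obtain ⟨Q, hQm, -, hQ⟩ := exists_monic_poly_root (Γ := Gamma0 N) (g : ℍ → ℂ)
    (slash_eq_of_isWH g.2) g.2.1 (meroAtInfty_slash_of_isWH g.2)
  exact ⟨Q, hQm, eval₂_toFCWH N g Q (eval₂_eq_zero_of_forall _ g Q hQ)⟩

/-- **If `g ∈ WH (Γ₀(N))` vanishes nowhere on `ℍ`, then `1/g` is integral over `ℂ[j(q)]` in `F_ℂ`.** -/
theorem exists_monic_eval₂_toFCWH_inv (g : WH (Gamma0 N)) (hne : ∀ z : ℍ, (g : ℍ → ℂ) z ≠ 0) :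
    toFCWH N g ≠ 0 ∧ ∃ Q : ℂ[X][X], Q.Monic ∧ eval₂ (polyToFC N) (toFCWH N g)⁻¹ Q = 0 := by
  obtain ⟨Q, -, ⟨c, hc, hQ0⟩, hQ⟩ := exists_cosetPoly_const (Γ := Gamma0 N) (g : ℍ → ℂ)
    (slash_eq_of_isWH g.2) g.2.1 (meroAtInfty_slash_of_isWH g.2) hne
  have h1 := eval₂_toFCWH N g Q (eval₂_eq_zero_of_forall _ g Q hQ)
  have hu : IsUnit (C c : ℂ[X]) := (isUnit_iff_ne_zero.mpr hc).map C
  obtain ⟨hy0, Q', hQ'm, -, hQ'⟩ := exists_monic_eval₂_inv (polyToFC N) Q hu hQ0 h1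
  exact ⟨hy0, Q', hQ'm, hQ'⟩

end FC

end Fermat.Agent.S36.R1.WHIntegral
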