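/-
S36, block (R1), leaf R1-U (helper20), part 4: **a modular function over `K ⊆ ℂ` whose complex
`q`-expansion is that of a weakly holomorphic modular function is integral over `K[j]`; if the
function vanishes nowhere on `ℍ` it is a unit at every place of `FF K N / K` at which `j` is finite.**

`x : FF K N`, `g : WH (Γ₀(N))` with `toFCK ι x = toFCWH g`:
* `isIntegral_of_toFCK_eq`     : `x` is integral over `K[j]`;
* `isIntegral_inv_of_toFCK_eq` : if `g z ≠ 0` for all `z`, then `x ≠ 0` and `x⁻¹` is integral over `K[j]`;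
* `notMem_nonunits_of_toFCK_eq`: then `x` is a unit of every valuation subring of `FF K N` containing
  `K` and `j` (= hypothesis `hhor` of `S36.RegularCrossing.exists_mul_eq_of_crossing`).
-/
import Mathlib
import Fermat.Agent.S36.R1.WHIntegral
import Fermat.Agent.S36.R1.IntegralDescent
import Fermat.Agent.S36.V.FrickeK

set_option autoImplicit false
set_option linter.unusedSectionVars false
set_option linter.style.haveILetI false

namespace Fermat.Agent.S36.R1.UnitAtPlaces

open Polynomial ModularCurve CongruenceSubgroup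
open Fermat.Agent.N4.Setting Fermat.Agent.M2 Fermat.Agent.S24.FieldIso
open Fermat.Agent.S36.V.FrickeK Fermat.Agent.S36.R1.WHIntegral Fermat.Agent.S36.R1.IntegralDescent

/-! ### Valuation subrings are integrally closed -/

section VS

variable {F : Type*} [Field F]

/-- An element integral over a subring contained in a valuation subring lies in it. -/
theorem mem_of_isIntegral_of_le (V : ValuationSubring F) {A : Type*} [CommRing A] [Algebra A F]
    (hA : ∀ a : A, algebraMap A F a ∈ V) {x : F} (hx : IsIntegral A x) : x ∈ V := by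
  let φ : A →+* V := (algebraMap A F).codRestrict V.toSubring hA
  have hx' : IsIntegral V x := hx.map_of_comp_eq φ (RingHom.id F) (by ext; rfl)
  obtain ⟨y, hy⟩ := (IsIntegrallyClosed.isIntegral_iff (R := V) (K := F)).mp hx'
  rw [← hy]
  exact y.2

end VS

variable (K : Type) [Field K] [CharZero K] (ι : K →+* ℂ) (N : ℕ) [NeZero N]

/-! ### From a relation in `K((q))` to integrality over `K[j]` in `FF K N` -/

/-- `P ↦ P(j)`, as a ring homomorphism into the subalgebra `K[j] ⊆ FF K N`. -/
noncomputable def polyToAdjoin : K[X] →+* ↥(Algebra.adjoin K ({jF K N} : Set (FF K N))) :=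
  ((Polynomial.aeval (jF K N)).toRingHom).codRestrict
    (Algebra.adjoin K ({jF K N} : Set (FF K N))).toSubring fun P => by
      show Polynomial.aeval (jF K N) P ∈ Algebra.adjoin K ({jF K N} : Set (FF K N))
      rw [Algebra.adjoin_singleton_eq_range_aeval]
      exact ⟨P, rfl⟩

theorem coe_polyToAdjoin (P : K[X]) :
    ((polyToAdjoin K N P : ↥(Algebra.adjoin K ({jF K N} : Set (FF K N)))) : FF K N) =
      Polynomial.aeval (jF K N) P := rfl

/-- The inclusion `FF K N → K((q))`. -/
noncomputable def inclLS : FF K N →+* LaurentSeries K :=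
  algebraMap (FF K N) (LaurentSeries K)

theorem inclLS_apply (x : FF K N) : inclLS K N x = (x : LaurentSeries K) := rfl

theorem inclLS_comp_aeval :
    (inclLS K N).comp ((Polynomial.aeval (jF K N)).toRingHom : K[X] →+* FF K N) =
      ((Polynomial.aeval (jqModC K)).toRingHom : K[X] →+* LaurentSeries K) := by
  refine RingHom.ext fun P => ?_
  show ((Polynomial.aeval (jF K N) P : FF K N) : LaurentSeries K) = Polynomial.aeval (jqModC K) P
  have h := Polynomial.aeval_algebraMap_apply (LaurentSeries K) (jF K N) P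
  exact h.symm

/-- A monic relation over `K[j(q)]` in `K((q))` gives integrality over `K[j]` in `FF K N`. -/
theorem isIntegral_of_eval₂ (x : FF K N) (Q : K[X][X]) (hQ : Q.Monic)
    (h : eval₂ ((Polynomial.aeval (jqModC K)).toRingHom : K[X] →+* LaurentSeries K)
      (x : LaurentSeries K) Q = 0) :
    IsIntegral (Algebra.adjoin K ({jF K N} : Set (FF K N))) x := by
  refine ⟨Q.map (polyToAdjoin K N), hQ.map _, ?_⟩
  rw [eval₂_map]
  have hinj : Function.Injective (inclLS K N) := (inclLS K N).injective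
  apply hinj
  rw [map_zero, hom_eval₂]
  have hcomp : (inclLS K N).comp ((algebraMap (↥(Algebra.adjoin K ({jF K N} : Set (FF K N))))
      (FF K N)).comp (polyToAdjoin K N)) =
      ((Polynomial.aeval (jqModC K)).toRingHom : K[X] →+* LaurentSeries K) := by
    rw [← inclLS_comp_aeval K N]
    rfl
  rw [hcomp]
  exact h

/-! ### The complex side -/

/-- The inclusion `F_ℂ → ℂ((q))` composed with `P ↦ P(j(q))`. -/
theorem val_comp_polyToFC :
    ((FC N).val.toRingHom : ↥(FC N) →+* LaurentSeries ℂ).comp (polyToFC N) =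
      ((Polynomial.aeval (jqModC ℂ)).toRingHom : ℂ[X] →+* LaurentSeries ℂ) := by
  refine RingHom.ext fun P => ?_
  show ((Polynomial.aeval (xC N) P : ↥(FC N)) : LaurentSeries ℂ) = Polynomial.aeval (jqModC ℂ) P
  have h := Polynomial.aeval_algebraMap_apply (LaurentSeries ℂ) (xC N) P
  exact h.symm

/-- A monic relation over `ℂ[j(q)]` for `toFCK ι x` descends to `K`. -/
theorem isIntegral_of_eval₂_toFCK (x : FF K N) (Q : ℂ[X][X]) (hQ : Q.Monic)
    (h : eval₂ (polyToFC N) (toFCK K ι N x) Q = 0) :
    IsIntegral (Algebra.adjoin K ({jF K N} : Set (FF K N))) x := by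
  letI : Algebra K ℂ := ι.toAlgebra
  have h1 := congrArg ((FC N).val.toRingHom : ↥(FC N) →+* LaurentSeries ℂ) h
  rw [hom_eval₂, map_zero, val_comp_polyToFC] at h1
  have h2 : ((FC N).val.toRingHom : ↥(FC N) →+* LaurentSeries ℂ) (toFCK K ι N x) =
      coeffMap (algebraMap K ℂ) (x : LaurentSeries K) := coe_toFCK K ι N x
  have h3 : jqModC ℂ = coeffMap (algebraMap K ℂ) (jqModC K) := (coeffMap_jqModC _).symm
  rw [h2, h3] at h1
  obtain ⟨Q', hQ'm, -, hQ'⟩ := exists_monic_of_coeffMap (x : LaurentSeries K) (jqModC K) Q hQ h1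
  exact isIntegral_of_eval₂ K N x Q' hQ'm hQ'

/-- **Integrality over `K[j]` from weak holomorphy.** -/
theorem isIntegral_of_toFCK_eq (x : FF K N) (g : WH (Gamma0 N))
    (hx : toFCK K ι N x = toFCWH N g) :
    IsIntegral (Algebra.adjoin K ({jF K N} : Set (FF K N))) x := by
  obtain ⟨Q, hQm, hQ⟩ := exists_monic_eval₂_toFCWH N g
  rw [← hx] at hQ
  exact isIntegral_of_eval₂_toFCK K ι N x Q hQm hQ

/-- **Integrality of the inverse over `K[j]` for nowhere vanishing functions.** -/
theorem isIntegral_inv_of_toFCK_eq (x : FF K N) (g : WH (Gamma0 N))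
    (hx : toFCK K ι N x = toFCWH N g) (hne : ∀ z : UpperHalfPlane, (g : UpperHalfPlane → ℂ) z ≠ 0) :
    x ≠ 0 ∧ IsIntegral (Algebra.adjoin K ({jF K N} : Set (FF K N))) x⁻¹ := by
  obtain ⟨h0, Q, hQm, hQ⟩ := exists_monic_eval₂_toFCWH_inv N g hne
  rw [← hx] at h0 hQ
  have hx0 : x ≠ 0 := fun h => h0 (by rw [h, map_zero])
  refine ⟨hx0, ?_⟩
  rw [← map_inv₀] at hQ
  exact isIntegral_of_eval₂_toFCK K ι N x⁻¹ Q hQm hQ

/-- **A nowhere vanishing weakly holomorphic modular function is a unit at every place at which `j`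
is finite.** -/
theorem notMem_nonunits_of_toFCK_eq (x : FF K N) (g : WH (Gamma0 N))
    (hx : toFCK K ι N x = toFCWH N g) (hne : ∀ z : UpperHalfPlane, (g : UpperHalfPlane → ℂ) z ≠ 0)
    (V : ValuationSubring (FF K N)) (hK : ∀ c : K, algebraMap K (FF K N) c ∈ V)
    (hj : jF K N ∈ V) : x ∈ V ∧ x⁻¹ ∈ V ∧ x ∉ V.nonunits := by
  have hA : ∀ a : ↥(Algebra.adjoin K ({jF K N} : Set (FF K N))),
      algebraMap (↥(Algebra.adjoin K ({jF K N} : Set (FF K N)))) (FF K N) a ∈ V := by
    rintro ⟨a, ha⟩
    show a ∈ V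
    induction ha using Algebra.adjoin_induction with
    | mem y hy => rw [Set.mem_singleton_iff.mp hy]; exact hj
    | algebraMap c => exact hK c
    | add y z _ _ hy hz => exact V.add_mem _ _ hy hz
    | mul y z _ _ hy hz => exact V.mul_mem _ _ hy hz
  have h1 := mem_of_isIntegral_of_le V hA (isIntegral_of_toFCK_eq K ι N x g hx)
  obtain ⟨hx0, h2'⟩ := isIntegral_inv_of_toFCK_eq K ι N x g hx hne
  have h2 := mem_of_isIntegral_of_le V hA h2'
  refine ⟨h1, h2, fun hnu => ?_⟩
  have hv : V.valuation x < 1 := (V.mem_nonunits_iff).mp hnu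
  have hv' : V.valuation x⁻¹ ≤ 1 := (V.valuation_le_one_iff _).mpr h2
  rw [map_inv₀] at hv'
  have hvx : V.valuation x ≠ 0 := (V.valuation.ne_zero_iff).mpr hx0
  have : 1 ≤ V.valuation x := by
    rwa [inv_le_one₀ (zero_lt_iff.mpr hvx)] at hv'
  exact absurd hv (not_lt.mpr this)

end Fermat.Agent.S36.R1.UnitAtPlaces
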