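/-
S36, block (R1), leaf R1-U (helper20), part 6: **the modular unit `h = Δ(z) / Δ(ℓ z)` of level
`N ℓ`** as an element of `FF ℚ (N ℓ)` and of `FF K (N ℓ)`.

* `hQ N ℓ : FF ℚ (N ℓ)` (via `Bridge.ratioFF`), `coe_hQ : (hQ : ℚ((q))) = hser ℚ ℓ`;
* `wFF_hQ : wFF (N ℓ) hQ = wQ`, `coe_wQ : (wQ : ℚ((q))) = C (ℓ^12) * qExpand N (hserInv ℚ ℓ)`
  (Fricke: `h ∘ w_{Nℓ} = ℓ^12 Δ(Nℓ z) / Δ(N z)`);
* `hK N ℓ K : FF K (N ℓ)` (base change), `coe_hK`, `coe_wK_hK`;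
* `isIntegral_hK`, `isIntegral_hK_inv` : `h` and `h⁻¹` are integral over `K[j]` (nowhere vanishing
  weakly holomorphic modular function).
-/
import Mathlib
import Fermat.Agent.S36.R1.DeltaSeries
import Fermat.Agent.S36.R1.UnitAtPlaces
import Fermat.Agent.S16.Bridge.ScaleForm
import Fermat.Agent.N4.BaseDescent

set_option autoImplicit false
set_option linter.unusedSectionVars false
set_option linter.style.haveILetI false

namespace Fermat.Agent.S36.R1.DeltaUnit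

open UpperHalfPlane ModularForm CongruenceSubgroup ModularCurve MatrixGroups
open Fermat.Agent.S16.Bridge Fermat.Agent.N4.Setting Fermat.Agent.M2 Fermat.Agent.S24.QExp
open Fermat.Agent.S24.FieldIso Fermat.Agent.S36.R1.DeltaSeries Fermat.Agent.S36.V.FrickeK
open Fermat.Agent.N4.BaseDescent Fermat.Agent.S36.R1.WHIntegral

local notation "Δ" => ModularForm.discriminant
local notation "ofQ" => HahnSeries.ofPowerSeries ℤ ℚ

noncomputable section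

/-! ### Rational `q`-expansions of `Δ(d z)` -/

theorem map_dltPS : (dltPS ℚ).map (algebraMap ℚ ℂ) =
    PowerSeries.X * PowerSeries.map (Int.castRingHom ℂ) dedekindEtaUnit := by
  rw [dltPS, map_map_int, map_mul, PowerSeries.map_X]

theorem hasRatQ_discriminant : HasRatQ (Δ : ℍ → ℂ) (dltPS ℚ) := by
  rw [HasRatQ, map_dltPS]
  exact qExpansion_discriminant

theorem isFormLike_top : IsFormLike ⊤ 12 (Δ : ℍ → ℂ) := IsFormLike.discriminant (Γ := ⊤)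

theorem hasRatQ_discriminant_comp (d : ℕ) [NeZero d] :
    HasRatQ ((Δ : ℍ → ℂ) ∘ JN.scaleH d) ((dltPS ℚ).expand d (NeZero.ne d)) := by
  rw [HasRatQ, isFormLike_top.qExpansion_comp_scaleH d, hasRatQ_discriminant, PowerSeries.map_expand]

theorem discriminant_comp_ne_zero (d : ℕ) [NeZero d] : ((Δ : ℍ → ℂ) ∘ JN.scaleH d) ≠ 0 := by
  intro h
  have := congrFun h UpperHalfPlane.I
  exact discriminant_ne_zero _ this

theorem isHol_comp (d : ℕ) [NeZero d] : IsHol ((Δ : ℍ → ℂ) ∘ JN.scaleH d) :=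
  IsHol.discriminant.comp_scaleH d

variable (N ℓ : ℕ) [NeZero N] [NeZero ℓ]

/-! ### The unit over `ℚ` -/

theorem isFormLike_A : IsFormLike (Gamma0 (N * ℓ)) ((12 : ℕ) : ℤ) (Δ : ℍ → ℂ) :=
  (IsFormLike.discriminant (Γ := Gamma0 (N * ℓ))).congr_weight (by norm_num)

theorem isFormLike_B :
    IsFormLike (Gamma0 (N * ℓ)) ((12 : ℕ) : ℤ) ((Δ : ℍ → ℂ) ∘ JN.scaleH ℓ) :=
  (isFormLike_discriminant_comp_scaleH (dvd_mul_left ℓ N)).congr_weight (by norm_num)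

/-- `Δ(z) / Δ(ℓ z) ∈ FF ℚ (N ℓ)`. -/
def hQ : FF ℚ (N * ℓ) :=
  ratioFF (isFormLike_A N ℓ) (isFormLike_B N ℓ) (discriminant_comp_ne_zero ℓ)
    hasRatQ_discriminant (hasRatQ_discriminant_comp ℓ)

theorem coe_hQ : ((hQ N ℓ : FF ℚ (N * ℓ)) : LaurentSeries ℚ) = hser ℚ ℓ := by
  rw [hQ, coe_ratioFF]
  exact ofPowerSeries_div_expand ℓ ℚ

/-! ### The Fricke transform over `ℚ` -/

/-- `ℓ^12 Δ(N ℓ z)`. -/
def funA' : ℍ → ℂ := ((ℓ : ℂ) ^ 12) • ((Δ : ℍ → ℂ) ∘ JN.scaleH (N * ℓ))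

theorem isFormLike_A' : IsFormLike (Gamma0 (N * ℓ)) ((12 : ℕ) : ℤ) (funA' N ℓ) :=
  ((isFormLike_discriminant_comp_scaleH (dvd_refl (N * ℓ))).const_smul _).congr_weight
    (by norm_num)

theorem isFormLike_B' :
    IsFormLike (Gamma0 (N * ℓ)) ((12 : ℕ) : ℤ) ((Δ : ℍ → ℂ) ∘ JN.scaleH N) :=
  (isFormLike_discriminant_comp_scaleH (dvd_mul_right N ℓ)).congr_weight (by norm_num)

theorem funA'_eq : funA' N ℓ =
    (fun _ : ℍ => ((ℓ : ℂ) ^ 12)) * ((Δ : ℍ → ℂ) ∘ JN.scaleH (N * ℓ)) := by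
  funext z
  simp [funA', smul_eq_mul]

/-- the rational `q`-expansion of `ℓ^12 Δ(N ℓ z)`. -/
def serA' : PowerSeries ℚ :=
  PowerSeries.C ((ℓ : ℚ) ^ 12) * (dltPS ℚ).expand (N * ℓ) (NeZero.ne (N * ℓ))

theorem hasRatQ_A' : HasRatQ (funA' N ℓ) (serA' N ℓ) := by
  rw [HasRatQ, funA'_eq, (IsHol.const _).qExpansion_mul (isHol_comp (N * ℓ)),
    IsHol.qExpansion_const, hasRatQ_discriminant_comp (N * ℓ), serA', map_mul, PowerSeries.map_C]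
  congr 2
  simp

/-- `h ∘ w = ℓ^12 Δ(N ℓ z) / Δ(N z) ∈ FF ℚ (N ℓ)`. -/
def wQ : FF ℚ (N * ℓ) :=
  ratioFF (isFormLike_A' N ℓ) (isFormLike_B' N ℓ) (discriminant_comp_ne_zero N)
    (hasRatQ_A' N ℓ) (hasRatQ_discriminant_comp N)

theorem scaleH_wH_mul (z : ℍ) : JN.scaleH ℓ (wH (N * ℓ) z) = wH N z := by
  apply UpperHalfPlane.ext
  rw [JN.coe_scaleH, coe_wH, coe_wH]
  have hN : (N : ℂ) ≠ 0 := Nat.cast_ne_zero.mpr (NeZero.ne N)
  have hℓ : (ℓ : ℂ) ≠ 0 := Nat.cast_ne_zero.mpr (NeZero.ne ℓ)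
  have hz : (z : ℂ) ≠ 0 := z.ne_zero
  push_cast
  field_simp

theorem wFF_hQ : wFF (N * ℓ) (hQ N ℓ) = wQ N ℓ := by
  rw [hQ, wQ]
  refine wFF_ratioFF _ _ _ _ _ _ _ _ _ _ (fun z => ?_)
  have h1 := isFormLike_top.apply_wH (N * ℓ) z
  have h2 := isFormLike_top.apply_wH N z
  simp only [funA', Pi.smul_apply, Function.comp_apply, smul_eq_mul, scaleH_wH_mul]
  rw [h1, h2]
  push_cast
  have e : ∀ x : ℂ, x ^ (12 : ℤ) = x ^ (12 : ℕ) := fun x => zpow_natCast x 12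
  rw [e, e]
  ring

theorem coe_wQ : ((wQ N ℓ : FF ℚ (N * ℓ)) : LaurentSeries ℚ) =
    HahnSeries.C ((ℓ : ℚ) ^ 12) * qExpand ℚ N (hserInv ℚ ℓ) := by
  rw [wQ, coe_ratioFF, serA', map_mul, HahnSeries.ofPowerSeries_C, ofPowerSeries_expand_dltPS,
    ofPowerSeries_expand_dltPS, hserInv, map_mul, qExpand_qExpand, mul_div_assoc]
  congr 1
  rw [div_eq_iff (qExpand_dlt_ne_zero ℚ N), mul_comm (qExpand ℚ N (dltInv ℚ)), mul_assoc,
    ← map_mul, dltInv_mul_dlt, map_one, mul_one]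

/-! ### Base change to `K` -/

section BaseChange

variable (K : Type) [Field K] [CharZero K]

/-- `Δ(z) / Δ(ℓ z) ∈ FF K (N ℓ)`. -/
def hK : FF K (N * ℓ) := ffMap (algebraMap ℚ K) (N * ℓ) (hQ N ℓ)

theorem coe_hK : ((hK N ℓ K : FF K (N * ℓ)) : LaurentSeries K) = hser K ℓ := by
  rw [hK, coe_ffMap, coe_hQ, coeffMap_hser]

theorem hK_ne_zero : hK N ℓ K ≠ 0 := by
  intro h
  have := coe_hK N ℓ K
  rw [h] at this
  exact hser_ne_zero K ℓ this.symm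

theorem coe_hK_inv : (((hK N ℓ K)⁻¹ : FF K (N * ℓ)) : LaurentSeries K) = hserInv K ℓ := by
  have h : (((hK N ℓ K)⁻¹ : FF K (N * ℓ)) : LaurentSeries K) =
      ((hK N ℓ K : FF K (N * ℓ)) : LaurentSeries K)⁻¹ := rfl
  rw [h, coe_hK, hser_inv]

variable (ι : K →+* ℂ) (M : ℕ) [NeZero M]

theorem toFCK_ffMap (x : FF ℚ M) : toFCK K ι M (ffMap (algebraMap ℚ K) M x) = toFC M x := by
  apply Subtype.ext
  rw [coe_toFCK, coe_ffMap, coe_toFC, coeffMap_coeffMap, coeffEmb]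
  exact coeffMap_congr (RingHom.ext_rat _ _) _

/-- The Fricke involutions over `ℚ` and over `K` are compatible. -/
theorem wK_ffMap (x : FF ℚ M) :
    wK K ι M (ffMap (algebraMap ℚ K) M x) = ffMap (algebraMap ℚ K) M (wFF M x) := by
  apply toFCK_injective K ι M
  rw [toFCK_wK, toFCK_ffMap, toFCK_ffMap, toFC_wFF]

theorem coe_wK_hK : ((wK K ι (N * ℓ) (hK N ℓ K) : FF K (N * ℓ)) : LaurentSeries K) =
    HahnSeries.C ((ℓ : K) ^ 12) * qExpand K N (hserInv K ℓ) := by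
  rw [hK, wK_ffMap, wFF_hQ, coe_ffMap, coe_wQ, map_mul, coeffMap_qExpand, coeffMap_hserInv]
  congr 1
  rw [HahnSeries.C_apply, HahnSeries.C_apply, coeffMap_single]
  congr 1
  simp

/-! ### Integrality over `K[j]` -/

/-- `Δ(ℓ z) / Δ(z) ∈ WH (Γ₀(N ℓ))`. -/
def gWH : WH (Gamma0 (N * ℓ)) :=
  whDiv (N * ℓ) (m := 1) ((isFormLike_B N ℓ).congr_weight (by norm_num))

theorem gWH_apply (z : ℍ) : (gWH N ℓ : ℍ → ℂ) z = Δ (JN.scaleH ℓ z) / Δ z ^ 1 := rfl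

theorem gWH_ne_zero (z : ℍ) : (gWH N ℓ : ℍ → ℂ) z ≠ 0 := by
  rw [gWH_apply]
  exact div_ne_zero (discriminant_ne_zero _) (pow_ne_zero 1 (discriminant_ne_zero _))

theorem ofPS_qExpansion_discriminant :
    HahnSeries.ofPowerSeries ℤ ℂ (qExpansion 1 (Δ : ℍ → ℂ)) = dlt ℂ := by
  rw [hasRatQ_discriminant, dltPS, map_map_int]
  rfl

theorem toFCK_hK_inv : toFCK K ι (N * ℓ) (hK N ℓ K)⁻¹ = toFCWH (N * ℓ) (gWH N ℓ) := by
  apply Subtype.ext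
  rw [coe_toFCK, coe_hK_inv, coeffMap_hserInv, coe_toFCWH, gWH, qexp_whDiv', qD,
    Fermat.Agent.S24.QExp.ofPS_qExpansion_comp_scaleH ℓ IsHol.discriminant,
    ofPS_qExpansion_discriminant, pow_one, hserInv, eq_div_iff (dlt_ne_zero ℂ),
    mul_comm (dltInv ℂ), mul_assoc, dltInv_mul_dlt, mul_one]

include ι in
/-- `h⁻¹` is integral over `K[j]`. -/
theorem isIntegral_hK_inv :
    IsIntegral (Algebra.adjoin K ({jF K (N * ℓ)} : Set (FF K (N * ℓ)))) (hK N ℓ K)⁻¹ :=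
  Fermat.Agent.S36.R1.UnitAtPlaces.isIntegral_of_toFCK_eq K ι (N * ℓ) _ (gWH N ℓ)
    (toFCK_hK_inv N ℓ K ι)

include ι in
/-- `h` is integral over `K[j]`. -/
theorem isIntegral_hK :
    IsIntegral (Algebra.adjoin K ({jF K (N * ℓ)} : Set (FF K (N * ℓ)))) (hK N ℓ K) := by
  have h := (Fermat.Agent.S36.R1.UnitAtPlaces.isIntegral_inv_of_toFCK_eq K ι (N * ℓ) _ (gWH N ℓ)
    (toFCK_hK_inv N ℓ K ι) (gWH_ne_zero N ℓ)).2
  rwa [inv_inv] at h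

end BaseChange

end

end Fermat.Agent.S36.R1.DeltaUnit
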