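/-
S36, block (R1), leaf R1-U (helper20), part 7: **the two vertical valuations of the modular unit
`h = Δ(z) / Δ(ℓ z)` and of `g = ℓ^12 / h`** at level `N ℓ`, `ℓ ∤ N` the residue characteristic.

* `wK_mem_gaussVS_iff` : the Fricke involution `wK ι N` preserves the Gauss valuation ring of
  `FF K N` (given `(∗)`: `𝔪_O Rfin` prime) — the `K`-version of `Bridge.wFF_mem_gaussVS_iff`;
* `secondVal_eq_comap` : for ANY `S₂ : FibreTwo.SecondVal K N ℓ O`, `S₂.V = w⁻¹(V₁)`, `V₁` the Gauss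
  valuation ring of level `N ℓ` and `w = wK ι (N ℓ)`;
* `hK_mem_gauss`, `theta_hK : θ₁ h = hser κ ℓ (= Δ̄^(1-ℓ))`, `gK_mem_gauss`;
* `hK_mem_secondVal`, `gK_mem_secondVal`, `gK_notMem_nonunits_secondVal`.
-/
import Mathlib
import Fermat.Agent.S36.R1.DeltaUnit
import Fermat.Agent.S16.GaussUnique
import Fermat.Agent.P3G.FibreTwo
import Fermat.Agent.P3G.FibreSat

set_option autoImplicit false
set_option linter.unusedSectionVars false
set_option linter.style.haveILetI false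

namespace Fermat.Agent.S36.R1.DeltaUnitGauss

open ModularCurve Fermat.Agent.S28.Gauss Fermat.Agent.N4.Setting Fermat.Agent.N4.FibreEmbedding
open Fermat.Agent.N4.Chart
open Fermat.Agent.N4F.E.DegreeLevelRaise Fermat.Agent.N4F.E.GaussDVR
open Fermat.Agent.S36.V.FrickeK Fermat.Agent.S36.R1.DeltaSeries Fermat.Agent.S36.R1.DeltaUnit
open Fermat.Agent.P3G

noncomputable section

variable (K : Type) [Field K] [CharZero K] (O : Subring K) [IsDiscreteValuationRing ↥O]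
  [IsFractionRing ↥O K]

set_option quotPrecheck false in
local notation "κ" => IsLocalRing.ResidueField ↥O

/-! ### Generalities -/

section General

variable (M : ℕ) [NeZero M]

theorem mem_gauss_of_coe_eq_emb {x : FF K M} (y : LaurentSeries ↥O)
    (h : ((x : FF K M) : LaurentSeries K) = emb ↥O K y) : x ∈ gaussSubalgebra K M O := by
  rw [mem_gaussSubalgebra_iff, h]
  exact emb_mem_gaussRing _

theorem theta_of_coe_eq_emb {x : FF K M} (y : LaurentSeries ↥O)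
    (h : ((x : FF K M) : LaurentSeries K) = emb ↥O K y) :
    theta K M O ⟨x, mem_gauss_of_coe_eq_emb K O M y h⟩ = red ↥O y :=
  theta_of_emb K M O _ y h

theorem emb_hser (ℓ : ℕ) [NeZero ℓ] : emb ↥O K (hser ↥O ℓ) = hser K ℓ :=
  coeffMap_hser ℓ (algebraMap ↥O K)

theorem emb_hserInv (ℓ : ℕ) [NeZero ℓ] : emb ↥O K (hserInv ↥O ℓ) = hserInv K ℓ :=
  coeffMap_hserInv ℓ (algebraMap ↥O K)

theorem red_hser (ℓ : ℕ) [NeZero ℓ] : red ↥O (hser ↥O ℓ) = hser κ ℓ :=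
  coeffMap_hser ℓ (IsLocalRing.residue ↥O)

theorem red_hserInv (ℓ : ℕ) [NeZero ℓ] : red ↥O (hserInv ↥O ℓ) = hserInv κ ℓ :=
  coeffMap_hserInv ℓ (IsLocalRing.residue ↥O)

theorem emb_C_natCast_pow (ℓ n : ℕ) :
    emb ↥O K (HahnSeries.C (((ℓ : ℕ) : ↥O) ^ n)) = HahnSeries.C ((ℓ : K) ^ n) := by
  unfold emb
  rw [HahnSeries.C_apply, HahnSeries.C_apply, coeffMap_single, map_pow, map_natCast]

/-- nonunits of a comap along a field homomorphism -/
theorem mem_nonunits_comap_iff {F : Type*} [Field F] (V : ValuationSubring F) (f : F →+* F)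
    {x : F} : x ∈ (V.comap f).nonunits ↔ f x ∈ V.nonunits := by
  by_cases hx : x = 0
  · subst hx
    rw [map_zero]
    exact ⟨fun _ => LocVS.zero_mem_nonunits _, fun _ => LocVS.zero_mem_nonunits _⟩
  · have hfx : f x ≠ 0 := (map_ne_zero f).mpr hx
    rw [LocVS.mem_nonunits_iff_inv_notMem _ hx, LocVS.mem_nonunits_iff_inv_notMem _ hfx,
      ValuationSubring.mem_comap, map_inv₀]

end General

/-! ### The Fricke involution preserves the Gauss valuation -/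

section Fricke

variable (ι : K →+* ℂ) (N : ℕ) [NeZero N]

/-- The Fricke involution as a ring endomorphism. -/
def wKhom : FF K N →+* FF K N := (wK K ι N).toAlgHom.toRingHom

theorem wKhom_apply (x : FF K N) : wKhom K ι N x = wK K ι N x := rfl

theorem wKhom_base (a : ↥O) :
    wKhom K ι N (algebraMap ↥O (FF K N) a) = algebraMap ↥O (FF K N) a := by
  have h : algebraMap ↥O (FF K N) a = algebraMap K (FF K N) (a : K) := rfl
  rw [wKhom_apply, h, AlgEquiv.commutes]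

theorem coe_wK_jF_emb :
    ((wK K ι N (jF K N) : FF K N) : LaurentSeries K) = emb ↥O K (qExpand ↥O N (jqModC ↥O)) := by
  rw [wK_jF, coe_jdF, emb_jd K O N]

theorem wK_jF_mem : wKhom K ι N (jF K N) ∈ gaussSubalgebra K N O :=
  mem_gauss_of_coe_eq_emb K O N _ (coe_wK_jF_emb K O ι N)

theorem theta_wK_jF :
    theta K N O ⟨wKhom K ι N (jF K N), wK_jF_mem K O ι N⟩ = qExpand κ N (jqModC κ) := by
  rw [theta_of_emb K N O _ _ (coe_wK_jF_emb K O ι N), red_qExpand, red_jqModC]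

theorem transcendental_theta_wK_jF :
    Transcendental κ (theta K N O ⟨wKhom K ι N (jF K N), wK_jF_mem K O ι N⟩) := by
  rw [theta_wK_jF, transcendental_iff_injective]
  exact Fermat.Agent.N4.ModPolyDescent.aeval_qExpand_jqModC_injective N

/-- **The Fricke involution preserves the Gauss valuation ring** (given `(∗)`). -/
theorem wK_mem_gaussVS_iff (hprime : (fibreIdeal K N O (Rfin K N O)).IsPrime) (x : FF K N) :
    wK K ι N x ∈ gaussVS K N O ↔ x ∈ gaussVS K N O :=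
  Fermat.Agent.S16.GaussUnique.map_mem_gaussVS_iff hprime (wKhom K ι N)
    (wKhom_base K O ι N) (wK_jF_mem K O ι N) (transcendental_theta_wK_jF K O ι N) x

end Fricke

/-! ### Level `N ℓ` -/

section Level

variable (ι : K →+* ℂ) (N : ℕ) [NeZero N] (ℓ : ℕ) [Fact ℓ.Prime]
  [CharP (IsLocalRing.ResidueField ↥O) ℓ]

theorem natCast_residue_eq_zero : IsLocalRing.residue ↥O ((ℓ : ℕ) : ↥O) = 0 := by
  rw [map_natCast]
  exact CharP.cast_eq_zero κ ℓ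

/-! #### Gauss valuation -/

theorem coe_hK_emb : ((hK N ℓ K : FF K (N * ℓ)) : LaurentSeries K) = emb ↥O K (hser ↥O ℓ) := by
  rw [coe_hK, emb_hser]

theorem hK_mem_gauss : hK N ℓ K ∈ gaussSubalgebra K (N * ℓ) O :=
  mem_gauss_of_coe_eq_emb K O (N * ℓ) _ (coe_hK_emb K O N ℓ)

/-- **`θ₁ h = Δ̄(q) / Δ̄(q^ℓ)`.** -/
theorem theta_hK : theta K (N * ℓ) O ⟨hK N ℓ K, hK_mem_gauss K O N ℓ⟩ = hser κ ℓ := by
  rw [theta_of_emb K (N * ℓ) O _ _ (coe_hK_emb K O N ℓ), red_hser]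

/-- **`θ₁ h = Δ̄^(1 - ℓ)`.** -/
theorem theta_hK_mul_pow :
    theta K (N * ℓ) O ⟨hK N ℓ K, hK_mem_gauss K O N ℓ⟩ *
      Fermat.Agent.S16.BetaLemma.DeltaK κ ^ (ℓ - 1) = 1 := by
  rw [theta_hK, ← dlt_eq_DeltaK]
  exact hser_mul_dlt_pow κ ℓ

/-- `g = ℓ^12 / h`. -/
def gK : FF K (N * ℓ) := algebraMap K (FF K (N * ℓ)) ((ℓ : K) ^ 12) * (hK N ℓ K)⁻¹

theorem hK_mul_gK : hK N ℓ K * gK K N ℓ = algebraMap K (FF K (N * ℓ)) ((ℓ : K) ^ 12) := by
  unfold gK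
  rw [mul_left_comm, mul_inv_cancel₀ (hK_ne_zero N ℓ K), mul_one]

theorem coe_algebraMap_K (c : K) :
    ((algebraMap K (FF K (N * ℓ)) c : FF K (N * ℓ)) : LaurentSeries K) = HahnSeries.C c := by
  show algebraMap K (LaurentSeries K) c = HahnSeries.C c
  rw [algebraMap_laurentSeries_eq_single, HahnSeries.C_apply]

theorem coe_gK : ((gK K N ℓ : FF K (N * ℓ)) : LaurentSeries K) =
    HahnSeries.C ((ℓ : K) ^ 12) * hserInv K ℓ := by
  have h : ((gK K N ℓ : FF K (N * ℓ)) : LaurentSeries K) =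
      ((algebraMap K (FF K (N * ℓ)) ((ℓ : K) ^ 12) : FF K (N * ℓ)) : LaurentSeries K) *
        (((hK N ℓ K)⁻¹ : FF K (N * ℓ)) : LaurentSeries K) := rfl
  rw [h, coe_algebraMap_K, coe_hK_inv]

theorem coe_gK_emb : ((gK K N ℓ : FF K (N * ℓ)) : LaurentSeries K) =
    emb ↥O K (HahnSeries.C (((ℓ : ℕ) : ↥O) ^ 12) * hserInv ↥O ℓ) := by
  rw [coe_gK, map_mul, emb_C_natCast_pow, emb_hserInv]

theorem gK_mem_gauss : gK K N ℓ ∈ gaussSubalgebra K (N * ℓ) O :=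
  mem_gauss_of_coe_eq_emb K O (N * ℓ) _ (coe_gK_emb K O N ℓ)

/-! #### The Fricke transforms -/

theorem coe_wK_hK_emb :
    ((wK K ι (N * ℓ) (hK N ℓ K) : FF K (N * ℓ)) : LaurentSeries K) =
      emb ↥O K (HahnSeries.C (((ℓ : ℕ) : ↥O) ^ 12) * qExpand ↥O N (hserInv ↥O ℓ)) := by
  rw [coe_wK_hK, map_mul, emb_C_natCast_pow, emb_qExpand, emb_hserInv]

theorem wK_hK_mem_gauss : wK K ι (N * ℓ) (hK N ℓ K) ∈ gaussSubalgebra K (N * ℓ) O :=
  mem_gauss_of_coe_eq_emb K O (N * ℓ) _ (coe_wK_hK_emb K O ι N ℓ)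

theorem theta_wK_hK :
    theta K (N * ℓ) O ⟨wK K ι (N * ℓ) (hK N ℓ K), wK_hK_mem_gauss K O ι N ℓ⟩ = 0 := by
  rw [theta_of_emb K (N * ℓ) O _ _ (coe_wK_hK_emb K O ι N ℓ), map_mul]
  have h : red ↥O (HahnSeries.C (((ℓ : ℕ) : ↥O) ^ 12)) = 0 := by
    unfold red
    rw [HahnSeries.C_apply, coeffMap_single, map_pow, natCast_residue_eq_zero K O ℓ,
      zero_pow (by norm_num), HahnSeries.single_eq_zero]
  rw [h, zero_mul]

theorem natCast_ne_zero_K : ((ℓ : K) ^ 12) ≠ 0 :=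
  pow_ne_zero 12 (Nat.cast_ne_zero.mpr (Fact.out : ℓ.Prime).ne_zero)

theorem coe_wK_gK : ((wK K ι (N * ℓ) (gK K N ℓ) : FF K (N * ℓ)) : LaurentSeries K) =
    qExpand K N (hser K ℓ) := by
  have h1 : wK K ι (N * ℓ) (gK K N ℓ) =
      algebraMap K (FF K (N * ℓ)) ((ℓ : K) ^ 12) * (wK K ι (N * ℓ) (hK N ℓ K))⁻¹ := by
    rw [gK, map_mul, AlgEquiv.commutes, map_inv₀]
  have h2 : ((algebraMap K (FF K (N * ℓ)) ((ℓ : K) ^ 12) * (wK K ι (N * ℓ) (hK N ℓ K))⁻¹ :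
      FF K (N * ℓ)) : LaurentSeries K) =
      ((algebraMap K (FF K (N * ℓ)) ((ℓ : K) ^ 12) : FF K (N * ℓ)) : LaurentSeries K) *
        ((wK K ι (N * ℓ) (hK N ℓ K) : FF K (N * ℓ)) : LaurentSeries K)⁻¹ := rfl
  rw [h1, h2, coe_algebraMap_K, coe_wK_hK]
  have hC : (HahnSeries.C ((ℓ : K) ^ 12) : LaurentSeries K) ≠ 0 := by
    rw [HahnSeries.C_apply]
    exact HahnSeries.single_ne_zero (natCast_ne_zero_K K ℓ)
  have hq : qExpand K N (hserInv K ℓ) ≠ 0 := fun h =>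
    hserInv_ne_zero K ℓ ((map_eq_zero_iff _ (qExpand_injective N)).mp h)
  rw [mul_inv, ← mul_assoc, mul_inv_cancel₀ hC, one_mul, inv_eq_iff_eq_inv,
    ← map_inv₀, hser_inv]

theorem coe_wK_gK_emb : ((wK K ι (N * ℓ) (gK K N ℓ) : FF K (N * ℓ)) : LaurentSeries K) =
    emb ↥O K (qExpand ↥O N (hser ↥O ℓ)) := by
  rw [coe_wK_gK, emb_qExpand, emb_hser]

theorem wK_gK_mem_gauss : wK K ι (N * ℓ) (gK K N ℓ) ∈ gaussSubalgebra K (N * ℓ) O :=
  mem_gauss_of_coe_eq_emb K O (N * ℓ) _ (coe_wK_gK_emb K O ι N ℓ)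

theorem theta_wK_gK :
    theta K (N * ℓ) O ⟨wK K ι (N * ℓ) (gK K N ℓ), wK_gK_mem_gauss K O ι N ℓ⟩ =
      qExpand κ N (hser κ ℓ) := by
  rw [theta_of_emb K (N * ℓ) O _ _ (coe_wK_gK_emb K O ι N ℓ), red_qExpand, red_hser]

theorem theta_wK_gK_ne_zero :
    theta K (N * ℓ) O ⟨wK K ι (N * ℓ) (gK K N ℓ), wK_gK_mem_gauss K O ι N ℓ⟩ ≠ 0 := by
  rw [theta_wK_gK]
  exact fun h => hser_ne_zero κ ℓ ((map_eq_zero_iff _ (qExpand_injective N)).mp h)

/-! #### The second valuation is the Fricke transform of the Gauss valuation -/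

variable (hℓN : ¬ ℓ ∣ N) (hprime : (fibreIdeal K N O (Rfin K N O)).IsPrime)
  (S₂ : FibreTwo.SecondVal K N ℓ O)

/-- `w⁻¹(V₁)`. -/
def wV : ValuationSubring (FF K (N * ℓ)) := (gaussVS K (N * ℓ) O).comap (wKhom K ι (N * ℓ))

theorem mem_wV_iff {x : FF K (N * ℓ)} :
    x ∈ wV K O ι N ℓ ↔ wK K ι (N * ℓ) x ∈ gaussVS K (N * ℓ) O := Iff.rfl

theorem mem_nonunits_wV_iff {x : FF K (N * ℓ)} :
    x ∈ (wV K O ι N ℓ).nonunits ↔ wK K ι (N * ℓ) x ∈ (gaussVS K (N * ℓ) O).nonunits :=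
  mem_nonunits_comap_iff _ _

theorem wK_hK_mem_nonunits :
    wK K ι (N * ℓ) (hK N ℓ K) ∈ (gaussVS K (N * ℓ) O).nonunits :=
  (FibreTwo.mem_nonunits_gaussVS_iff K (N * ℓ) O (wK_hK_mem_gauss K O ι N ℓ)).mpr
    (theta_wK_hK K O ι N ℓ)

include hprime in
theorem wV_ne_gauss : wV K O ι N ℓ ≠ gaussVS K (N * ℓ) O := by
  intro h
  -- `h⁻¹ ∈ V₁` but `w(h⁻¹) ∉ V₁`
  have h1 : (hK N ℓ K)⁻¹ ∈ gaussVS K (N * ℓ) O := by
    rw [mem_gaussVS_iff]
    refine mem_gauss_of_coe_eq_emb K O (N * ℓ) (hserInv ↥O ℓ) ?_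
    rw [coe_hK_inv, emb_hserInv]
  rw [← h, mem_wV_iff, map_inv₀] at h1
  have h2 := wK_hK_mem_nonunits K O ι N ℓ
  have h0 : wK K ι (N * ℓ) (hK N ℓ K) ≠ 0 :=
    (map_ne_zero _).mpr (hK_ne_zero N ℓ K)
  exact (LocVS.mem_nonunits_iff_inv_notMem _ h0).mp h2 h1

include hprime in
/-- **`S₂.V = w⁻¹(V₁)`** for every second valuation datum. -/
theorem secondVal_eq_wV : S₂.V = wV K O ι N ℓ := by
  have hβ : ∀ x ∈ gaussSubalgebra K N O, betaF K N ℓ x ∈ wV K O ι N ℓ := by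
    intro x hx
    rw [mem_wV_iff, wK_betaF]
    exact alphaF_mem K O N ℓ ((wK_mem_gaussVS_iff K O ι N hprime x).mpr hx)
  have hϖ : ∀ ϖ : ↥O, Irreducible ϖ →
      algebraMap K (FF K (N * ℓ)) (ϖ : K) ∈ (wV K O ι N ℓ).nonunits := by
    intro ϖ hϖ
    rw [mem_nonunits_wV_iff, AlgEquiv.commutes]
    exact FibreSat.unif_mem_nonunits_V₁ K N ℓ O hϖ
  rcases S₂.only_two (wV K O ι N ℓ) hβ hϖ with h | h
  · exact absurd h (wV_ne_gauss K O ι N ℓ hprime)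
  · exact h.symm

include ι hprime in
theorem hK_mem_secondVal : hK N ℓ K ∈ S₂.V := by
  rw [secondVal_eq_wV K O ι N ℓ hprime S₂, mem_wV_iff]
  exact wK_hK_mem_gauss K O ι N ℓ

include ι hprime in
theorem gK_mem_secondVal : gK K N ℓ ∈ S₂.V := by
  rw [secondVal_eq_wV K O ι N ℓ hprime S₂, mem_wV_iff]
  exact wK_gK_mem_gauss K O ι N ℓ

include ι hprime in
theorem gK_notMem_nonunits_secondVal : gK K N ℓ ∉ S₂.V.nonunits := by
  rw [secondVal_eq_wV K O ι N ℓ hprime S₂, mem_nonunits_wV_iff,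
    FibreTwo.mem_nonunits_gaussVS_iff K (N * ℓ) O (wK_gK_mem_gauss K O ι N ℓ)]
  exact theta_wK_gK_ne_zero K O ι N ℓ

end Level

end

end Fermat.Agent.S36.R1.DeltaUnitGauss
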