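/-
S36, block (R1), leaf R1-U (helper20), part 8 (final): **the vertical unit pair `(h, g)` of the
finite chart `Rfin K (N ℓ) O`**, `h = Δ(z) / Δ(ℓ z)`, `g = ℓ^12 Δ(ℓ z) / Δ(z)`, in exactly the shape
consumed by `S36.R1.CrossingRegular.regular_fin` / `regular_fin_of_ord` (helper5):

* `mem_Rfin_of_isIntegral` : an element of `FF K (N ℓ)` which is integral over `K[j]` and lies in
  both vertical valuation rings `V₁ = gaussVS`, `V₂ = S₂.V` lies in `Rfin K (N ℓ) O`;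
* `exists_unit_pair` : `∃ h g : Rfin K (N ℓ) O`, `h * g = ℓ^12`, `θ₁ h * Δ̄^(ℓ-1) = 1`
  (so `θ₁ h = Δ̄^(1-ℓ) ≠ 0`), `θ₂ g ≠ 0`.
-/
import Mathlib
import Fermat.Agent.S36.R1.DeltaUnitGauss
import Fermat.Agent.P3G.FibreSatBridge
import Fermat.Agent.P3G.TwoComponentsFinal
import Fermat.Agent.N4.TwoBase

set_option autoImplicit false
set_option linter.unusedSectionVars false
set_option linter.style.haveILetI false

namespace Fermat.Agent.S36.R1.DeltaUnitPair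

open ModularCurve Fermat.Agent.S28.Gauss Fermat.Agent.N4.Setting Fermat.Agent.N4.FibreEmbedding
open Fermat.Agent.N4.Chart
open Fermat.Agent.N4F.E.DegreeLevelRaise Fermat.Agent.N4F.E.GaussDVR
open Fermat.Agent.N4F.E Fermat.Agent.N4F.E.AlphaSide
open Fermat.Agent.S36.R1.DeltaSeries Fermat.Agent.S36.R1.DeltaUnit
open Fermat.Agent.S36.R1.DeltaUnitGauss
open Fermat.Agent.P3G Fermat.Agent.P3G.RbarFin Fermat.Agent.P3G.TwoComponentsFinal
open Fermat.Agent.P3G.FibreSat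

noncomputable section

variable (K : Type) [Field K] [CharZero K] (N : ℕ) [NeZero N] (ℓ : ℕ) [Fact ℓ.Prime]
  (O : Subring K) [IsDiscreteValuationRing ↥O] [IsFractionRing ↥O K]
  [CharP (IsLocalRing.ResidueField ↥O) ℓ]

set_option quotPrecheck false in
local notation "κ" => IsLocalRing.ResidueField ↥O

attribute [local instance] AlphaSide.algFL AlphaSide.algGL AlphaSide.isScalarTower_GFL

set_option synthInstance.maxHeartbeats 400000

/-! ### Clearing denominators -/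

section Denominators

variable (M : ℕ) [NeZero M]

/-- An element integral over `K[j]` has a multiple by a power of the uniformiser in the finite
chart. -/
theorem exists_pow_mul_mem_Rfin {ϖ : ↥O} (hϖ : Irreducible ϖ) {x : FF K M}
    (hx : IsIntegral (Algebra.adjoin K ({jF K M} : Set (FF K M))) x) :
    ∃ n : ℕ, algebraMap ↥O (FF K M) (ϖ ^ n) * x ∈ Rfin K M O := by
  set B : Subalgebra ↥O (FF K M) := Algebra.adjoin ↥O ({jF K M} : Set (FF K M)) with hB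
  set A₀ : Subalgebra K (FF K M) := Algebra.adjoin K ({jF K M} : Set (FF K M)) with hA
  have hle : ∀ b ∈ B, b ∈ A₀ := fun b hb => Fermat.Agent.N4.TwoBase.adjoin_le_adjoin _ hb
  letI := Fermat.Agent.N4.TwoBase.algBA B A₀ hle
  haveI := Fermat.Agent.N4.TwoBase.isScalarTower_BA B A₀ hle
  haveI : IsLocalization (Submonoid.powers (algebraMap ↥O ↥B ϖ)) ↥A₀ :=
    Fermat.Agent.N4.TwoBase.isLocalization_away_BA hϖ ({jF K M} : Set (FF K M)) B A₀ rfl rfl hle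
  obtain ⟨⟨m, n, hn⟩, hm⟩ := IsIntegral.exists_multiple_integral_of_isLocalization
    (Submonoid.powers (algebraMap ↥O ↥B ϖ)) x hx
  refine ⟨n, ?_⟩
  rw [mem_chartAlg_iff]
  have e : (⟨m, n, hn⟩ : Submonoid.powers (algebraMap ↥O ↥B ϖ)) • x =
      algebraMap ↥O (FF K M) (ϖ ^ n) * x := by
    rw [Submonoid.smul_def, Algebra.smul_def]
    congr 1
    show algebraMap ↥B (FF K M) m = _
    have hn' : algebraMap ↥O ↥B ϖ ^ n = m := hn
    rw [← hn', map_pow, map_pow]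
    rfl
  rw [← e]
  exact hm

end Denominators

/-! ### Saturation -/

section Sat

variable (ι : K →+* ℂ) (hℓN : ¬ ℓ ∣ N)
  (hprime : (fibreIdeal K N O (Rfin K N O)).IsPrime)
  (S₂ : FibreTwo.SecondVal K N ℓ O)

include ι hℓN hprime in
/-- `ϖ^n y ∈ Rfin`, `y ∈ V₁ ∩ V₂` ⇒ `y ∈ Rfin`. -/
theorem mem_Rfin_of_pow_mul_mem {ϖ : ↥O} (hϖ : Irreducible ϖ) (n : ℕ) :
    ∀ y : FF K (N * ℓ), y ∈ gaussVS K (N * ℓ) O → y ∈ S₂.V →
      algebraMap ↥O (FF K (N * ℓ)) (ϖ ^ n) * y ∈ Rfin K (N * ℓ) O → y ∈ Rfin K (N * ℓ) O := by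
  have hB := FibreIdent.betaOut_of_secondVal K N ℓ O S₂
  have hϖ1 : algebraMap ↥O (FF K (N * ℓ)) ϖ ∈ gaussVS K (N * ℓ) O :=
    (gaussSubalgebra K (N * ℓ) O).algebraMap_mem ϖ
  have hϖ2 : algebraMap ↥O (FF K (N * ℓ)) ϖ ∈ S₂.V :=
    ((FibreSatBridge.mem_Cα_iff' K N ℓ O ι hℓN hprime hB S₂).mp
      ((Cα K N ℓ O).algebraMap_mem (algebraMap ↥O ↥(gaussSubalgebra K N O) ϖ))).2
  induction n with
  | zero =>
    intro y _ _ h
    rwa [pow_zero, map_one, one_mul] at h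
  | succ n ih =>
    intro y h1 h2 h
    have e : algebraMap ↥O (FF K (N * ℓ)) (ϖ ^ (n + 1)) * y =
        algebraMap ↥O (FF K (N * ℓ)) (ϖ ^ n) * (algebraMap ↥O (FF K (N * ℓ)) ϖ * y) := by
      rw [pow_succ, map_mul, mul_assoc]
    rw [e] at h
    have h3 := ih _ ((gaussVS K (N * ℓ) O).mul_mem _ _ hϖ1 h1) (S₂.V.mul_mem _ _ hϖ2 h2) h
    exact sat_fin K N ℓ O hprime hϖ
      ((FibreSatBridge.mem_Cα_iff' K N ℓ O ι hℓN hprime hB S₂).mpr ⟨h1, h2⟩) h3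

include ι hℓN hprime in
/-- **An element integral over `K[j]` lying in both vertical valuation rings lies in the finite
chart.** -/
theorem mem_Rfin_of_isIntegral {x : FF K (N * ℓ)}
    (hx : IsIntegral (Algebra.adjoin K ({jF K (N * ℓ)} : Set (FF K (N * ℓ)))) x)
    (h1 : x ∈ gaussVS K (N * ℓ) O) (h2 : x ∈ S₂.V) : x ∈ Rfin K (N * ℓ) O := by
  obtain ⟨ϖ, hϖ⟩ := IsDiscreteValuationRing.exists_irreducible ↥O
  obtain ⟨n, hn⟩ := exists_pow_mul_mem_Rfin K O (N * ℓ) hϖ hx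
  exact mem_Rfin_of_pow_mul_mem K N ℓ O ι hℓN hprime S₂ hϖ n x h1 h2 hn

end Sat

/-! ### The vertical unit pair -/

section Pair

variable [PerfectRing (IsLocalRing.ResidueField ↥O) ℓ] (ι : K →+* ℂ) (hℓN : ¬ ℓ ∣ N)
  (hprime : (fibreIdeal K N O (Rfin K N O)).IsPrime)
  (S₂ : FibreTwo.SecondVal K N ℓ O)

include ι hℓN hprime S₂ in
theorem hK_mem_Rfin : hK N ℓ K ∈ Rfin K (N * ℓ) O :=
  mem_Rfin_of_isIntegral K N ℓ O ι hℓN hprime S₂ (isIntegral_hK N ℓ K ι)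
    (hK_mem_gauss K O N ℓ) (hK_mem_secondVal K O ι N ℓ hprime S₂)

include ι in
theorem isIntegral_gK :
    IsIntegral (Algebra.adjoin K ({jF K (N * ℓ)} : Set (FF K (N * ℓ)))) (gK K N ℓ) := by
  unfold gK
  refine IsIntegral.mul ?_ (isIntegral_hK_inv N ℓ K ι)
  exact (show IsIntegral (Algebra.adjoin K ({jF K (N * ℓ)} : Set (FF K (N * ℓ))))
    (algebraMap (Algebra.adjoin K ({jF K (N * ℓ)} : Set (FF K (N * ℓ)))) (FF K (N * ℓ))
      ⟨_, Subalgebra.algebraMap_mem _ ((ℓ : K) ^ 12)⟩) from isIntegral_algebraMap)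

include ι hℓN hprime S₂ in
theorem gK_mem_Rfin : gK K N ℓ ∈ Rfin K (N * ℓ) O :=
  mem_Rfin_of_isIntegral K N ℓ O ι hℓN hprime S₂ (isIntegral_gK K N ℓ ι)
    (gK_mem_gauss K O N ℓ) (gK_mem_secondVal K O ι N ℓ hprime S₂)

/-- `h = Δ(z) / Δ(ℓ z)` in the finite chart. -/
def hFin : ↥(Rfin K (N * ℓ) O) := ⟨hK N ℓ K, hK_mem_Rfin K N ℓ O ι hℓN hprime S₂⟩

/-- `g = ℓ^12 Δ(ℓ z) / Δ(z)` in the finite chart. -/
def gFin : ↥(Rfin K (N * ℓ) O) := ⟨gK K N ℓ, gK_mem_Rfin K N ℓ O ι hℓN hprime S₂⟩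

theorem hFin_mul_gFin :
    hFin K N ℓ O ι hℓN hprime S₂ * gFin K N ℓ O ι hℓN hprime S₂ =
      algebraMap ↥O ↥(Rfin K (N * ℓ) O) (((ℓ : ℕ) : ↥O) ^ 12) := by
  apply Subtype.ext
  show hK N ℓ K * gK K N ℓ = algebraMap ↥O (FF K (N * ℓ)) (((ℓ : ℕ) : ↥O) ^ 12)
  rw [hK_mul_gK, ← FibreSatBridge.algebraMap_O_eq K N ℓ O, Subring.coe_pow, Subring.coe_natCast]

/-- **`θ₁ h = Δ̄^(1-ℓ)`.** -/
theorem thetaFin_hFin_mul :
    thetaFin K (N * ℓ) O (hFin K N ℓ O ι hℓN hprime S₂) *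
      Fermat.Agent.S16.BetaLemma.DeltaK κ ^ (ℓ - 1) = 1 := by
  rw [thetaFin_apply]
  exact theta_hK_mul_pow K O N ℓ

theorem thetaFin_hFin :
    thetaFin K (N * ℓ) O (hFin K N ℓ O ι hℓN hprime S₂) = hser κ ℓ := by
  rw [thetaFin_apply]
  exact theta_hK K O N ℓ

theorem thetaFin_hFin_ne_zero :
    thetaFin K (N * ℓ) O (hFin K N ℓ O ι hℓN hprime S₂) ≠ 0 := by
  intro h
  have := thetaFin_hFin_mul K N ℓ O ι hℓN hprime S₂
  rw [h, zero_mul] at this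
  exact zero_ne_one this

/-- **`θ₂ g ≠ 0`.** -/
theorem theta2S_gFin_ne_zero :
    theta2S K N ℓ O S₂ (gFin K N ℓ O ι hℓN hprime S₂) ≠ 0 := by
  rw [theta2S_apply, Ne, S₂.ev_eq_zero_iff]
  exact gK_notMem_nonunits_secondVal K O ι N ℓ hprime S₂

include ι hℓN hprime in
/-- **The vertical unit pair of the finite chart of level `N ℓ`** (consumer form for
`CrossingRegular.regular_fin_of_ord`): `h = Δ(z)/Δ(ℓz)`, `g = ℓ^12 Δ(ℓz)/Δ(z)`. -/
theorem exists_unit_pair :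
    ∃ h g : ↥(Rfin K (N * ℓ) O),
      h * g = algebraMap ↥O ↥(Rfin K (N * ℓ) O) (((ℓ : ℕ) : ↥O) ^ 12) ∧
      thetaFin K (N * ℓ) O h * Fermat.Agent.S16.BetaLemma.DeltaK κ ^ (ℓ - 1) = 1 ∧
      thetaFin K (N * ℓ) O h ≠ 0 ∧
      theta2S K N ℓ O S₂ g ≠ 0 :=
  ⟨hFin K N ℓ O ι hℓN hprime S₂, gFin K N ℓ O ι hℓN hprime S₂,
    hFin_mul_gFin K N ℓ O ι hℓN hprime S₂, thetaFin_hFin_mul K N ℓ O ι hℓN hprime S₂,
    thetaFin_hFin_ne_zero K N ℓ O ι hℓN hprime S₂, theta2S_gFin_ne_zero K N ℓ O ι hℓN hprime S₂⟩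

end Pair

end

end Fermat.Agent.S36.R1.DeltaUnitPair
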