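import Mathlib
import Fermat.Agent.S36.R1.CrossingRegularBoth
import Fermat.Agent.S36.R1.AuxGlue
import Fermat.Agent.S36.R1.DeltaUnitPair

/-!
# S36, block (R1): regularity at the crossing points of level `N ℓ` — UNCONDITIONAL form

Setting of `S36/R1/CrossingRegularBoth.lean` (`S`-language of `P3G/TwoComponentsFinal`), `O`
unramified (`ℓ ∼ ϖ`), auxiliary level: `4 ∣ N` if `ℓ` is odd, `9 ∣ N` if `ℓ = 2`.

* `regular_fin` : at every crossing point `𝔫` of `Rfin K (N ℓ) O` (`ker θ₁ ≤ 𝔫`, `ker θ₂ ≤ 𝔫`) both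
  vertical branches are principal, `ker θ₂ · R_𝔫 = u R_𝔫`, `ker θ₁ · R_𝔫 = v R_𝔫`,
  `𝔫 R_𝔫 = (u, v)`, `u v ∈ (ϖ)`.  Inputs plugged: the modular unit pair of
  `R1/DeltaUnitPair.exists_unit_pair` (helper20), the order condition of
  `R1/AuxGlue.mem_pow_twelve` (helper4; Hauptmoduln of helper10/helper4, orders of helper25,
  `P_ℓ(j)`-structure of helper9), `CrossingRegularBoth.regular_fin_both_of_ord`.
* `regular_fin_val` : the same in the language of the two vertical valuation rings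
  `V₁ = gaussVS K (N ℓ) O`, `V₂ = S₂.V`.
-/

set_option autoImplicit false
set_option linter.unusedSectionVars false
set_option linter.style.haveILetI false

open ModularCurve Fermat.Agent.S28.Gauss Fermat.Agent.N4.Setting Fermat.Agent.N4.FibreEmbedding
open Fermat.Agent.N4.Chart
open Fermat.Agent.N4F.E.DegreeLevelRaise Fermat.Agent.N4F.E.GaussDVR AlgebraicCurve Polynomial
open Fermat.Agent.N4F.E IsLocalRing Fermat.Agent.P3G.RbarFin Fermat.Agent.P3G.TwoComponents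
open Fermat.Agent.P3G.TwoComponentsFinal Fermat.Agent.P3G
open Fermat.Agent.S36.R1.CrossingRegular

noncomputable section

namespace Fermat.Agent.S36.R1.Unconditional

variable (K : Type) [Field K] [CharZero K] (N : ℕ) [NeZero N] (ℓ : ℕ) [Fact ℓ.Prime]
  (O : Subring K) [IsDiscreteValuationRing ↥O] [IsFractionRing ↥O K]
  [CharP (IsLocalRing.ResidueField ↥O) ℓ] [PerfectRing (IsLocalRing.ResidueField ↥O) ℓ]

set_option quotPrecheck false in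
local notation "κ" => IsLocalRing.ResidueField ↥O

attribute [local instance] AlphaSide.algFL AlphaSide.algGL AlphaSide.isScalarTower_GFL

set_option synthInstance.maxHeartbeats 400000

variable (hN : IsUnit ((N : ℕ) : ↥O)) (ι : K →+* ℂ) (hℓN : ¬ ℓ ∣ N)
  (hprime : (fibreIdeal K N O (Rfin K N O)).IsPrime)
  (hsmooth : IsDedekindDomain (↥(Rfin K N O) ⧸ fibreIdeal K N O (Rfin K N O)))
  (hA2 : ∀ x : ↥(gaussSubalgebra K N O),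
    theta K N O x ∈ modularFunctionFieldFullC (IsLocalRing.ResidueField ↥O) N)
  (S₂ : FibreTwo.SecondVal K N ℓ O)
  {ϖ : ↥O} (hϖ : Irreducible ϖ)

include hN ι hℓN hprime hsmooth hA2 hϖ in
/-- **(R1), unconditional.**  `O` unramified (`ℓ ∼ ϖ`), `4 ∣ N` (`ℓ` odd) resp. `9 ∣ N` (`ℓ = 2`).
At every crossing point `𝔫` of the finite chart of level `N ℓ` both vertical branches are
principal (generated by the crossing coordinates `u`, `v`), `𝔫 R_𝔫 = (u, v)`, `u v ∈ (ϖ)`. -/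
theorem regular_fin (hunr : Associated (((ℓ : ℕ) : ↥O)) ϖ)
    (hodd : ℓ ≠ 2 → 2 * 2 ∣ N) (heven : ℓ = 2 → 9 ∣ N)
    (𝔫 : Ideal ↥(Rfin K (N * ℓ) O)) [h𝔫 : 𝔫.IsMaximal]
    (hk1 : RingHom.ker (thetaFin K (N * ℓ) O) ≤ 𝔫)
    (hk2 : RingHom.ker (theta2S K N ℓ O S₂) ≤ 𝔫) :
    ∃ u v : ↥(Rfin K (N * ℓ) O), u ∈ 𝔫 ∧ v ∈ 𝔫 ∧
      theta2S K N ℓ O S₂ u = 0 ∧ thetaFin K (N * ℓ) O v = 0 ∧
      thetaFin K (N * ℓ) O u ≠ 0 ∧ theta2S K N ℓ O S₂ v ≠ 0 ∧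
      (∀ r : ↥(Rfin K (N * ℓ) O), theta2S K N ℓ O S₂ r = 0 →
        ∃ s c' : ↥(Rfin K (N * ℓ) O), s ∉ 𝔫 ∧ s * r = c' * u) ∧
      (∀ r : ↥(Rfin K (N * ℓ) O), thetaFin K (N * ℓ) O r = 0 →
        ∃ s c' : ↥(Rfin K (N * ℓ) O), s ∉ 𝔫 ∧ s * r = c' * v) ∧
      (∀ x ∈ 𝔫, ∃ s : ↥(Rfin K (N * ℓ) O), s ∉ 𝔫 ∧ s * x ∈ Ideal.span {u, v}) ∧
      u * v ∈ Ideal.span {algebraMap ↥O ↥(Rfin K (N * ℓ) O) ϖ} := by
  classical
  haveI := isDedekindDomain_RbarFin K N O hprime hsmooth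
  obtain ⟨h, g, hhg, hP, hh1, hg2⟩ :=
    Fermat.Agent.S36.R1.DeltaUnitPair.exists_unit_pair K N ℓ O ι hℓN hprime S₂
  refine Fermat.Agent.S36.R1.CrossingRegularBoth.regular_fin_both_of_ord K N ℓ O hN ι hℓN hprime
    hsmooth hA2 S₂ hϖ 𝔫 hk1 hk2 (m := 12) (by norm_num) (hunr.pow_pow) hhg hh1 hg2 ?_
  intro v hPv
  have hP' : ((CrossingLaurent.res (RbarFin K N O) (thetaFin K (N * ℓ) O)
      (thetaFin_mem_rbar K N ℓ O hN ι hℓN hprime hsmooth hA2 S₂) h : ↥(RbarFin K N O)) :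
        LaurentSeries κ) * Fermat.Agent.S16.BetaLemma.DeltaK κ ^ (ℓ - 1) = 1 := hP
  exact Fermat.Agent.S36.R1.AuxGlue.mem_pow_twelve K N O ℓ hodd heven
    (CrossingLaurent.res (RbarFin K N O) (thetaFin K (N * ℓ) O)
      (thetaFin_mem_rbar K N ℓ O hN ι hℓN hprime hsmooth hA2 S₂) h) hP' v hPv

include hN ι hℓN hprime hsmooth hA2 hϖ in
/-- **(R1), unconditional, in the language of the two vertical valuation rings**
`V₁ = gaussVS K (N ℓ) O`, `V₂ = S₂.V` of `FF K (N ℓ)`: at a closed point `𝔫` of the finite chart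
containing both centres there are `u, v ∈ 𝔫` with `u ∈ 𝔪(V₂) ∖ 𝔪(V₁)`, `v ∈ 𝔪(V₁) ∖ 𝔪(V₂)`,
`(𝔪(V₂) ∩ R) R_𝔫 = u R_𝔫`, `(𝔪(V₁) ∩ R) R_𝔫 = v R_𝔫`, `𝔫 R_𝔫 = (u, v)`, `u v = G ϖ`. -/
theorem regular_fin_val (hunr : Associated (((ℓ : ℕ) : ↥O)) ϖ)
    (hodd : ℓ ≠ 2 → 2 * 2 ∣ N) (heven : ℓ = 2 → 9 ∣ N)
    (𝔫 : Ideal ↥(Rfin K (N * ℓ) O)) [h𝔫 : 𝔫.IsMaximal]
    (h1le : ∀ r : ↥(Rfin K (N * ℓ) O),
      (r : FF K (N * ℓ)) ∈ (gaussVS K (N * ℓ) O).nonunits → r ∈ 𝔫)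
    (h2le : ∀ r : ↥(Rfin K (N * ℓ) O), (r : FF K (N * ℓ)) ∈ S₂.V.nonunits → r ∈ 𝔫) :
    ∃ u v : ↥(Rfin K (N * ℓ) O), u ∈ 𝔫 ∧ v ∈ 𝔫 ∧
      (u : FF K (N * ℓ)) ∈ S₂.V.nonunits ∧
      (v : FF K (N * ℓ)) ∈ (gaussVS K (N * ℓ) O).nonunits ∧
      (u : FF K (N * ℓ)) ∉ (gaussVS K (N * ℓ) O).nonunits ∧
      (v : FF K (N * ℓ)) ∉ S₂.V.nonunits ∧
      (∀ r : ↥(Rfin K (N * ℓ) O), (r : FF K (N * ℓ)) ∈ S₂.V.nonunits →
        ∃ s c' : ↥(Rfin K (N * ℓ) O), s ∉ 𝔫 ∧ s * r = c' * u) ∧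
      (∀ r : ↥(Rfin K (N * ℓ) O), (r : FF K (N * ℓ)) ∈ (gaussVS K (N * ℓ) O).nonunits →
        ∃ s c' : ↥(Rfin K (N * ℓ) O), s ∉ 𝔫 ∧ s * r = c' * v) ∧
      (∀ x ∈ 𝔫, ∃ s a b : ↥(Rfin K (N * ℓ) O), s ∉ 𝔫 ∧ s * x = a * u + b * v) ∧
      ∃ G : ↥(Rfin K (N * ℓ) O), u * v = G * algebraMap ↥O ↥(Rfin K (N * ℓ) O) ϖ := by
  have hk1 : RingHom.ker (thetaFin K (N * ℓ) O) ≤ 𝔫 := fun r hr =>
    h1le r ((mem_nonunits_gaussVS_iff_thetaFin K N ℓ O r).2 hr)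
  have hk2 : RingHom.ker (theta2S K N ℓ O S₂) ≤ 𝔫 := fun r hr =>
    h2le r ((mem_nonunits_secondVal_iff_theta2S K N ℓ O S₂ r).2 hr)
  obtain ⟨u, v, hun, hvn, hu2, hv1, hu1, hv2, hp1, hp2, hpair, huv⟩ :=
    regular_fin K N ℓ O hN ι hℓN hprime hsmooth hA2 S₂ hϖ hunr hodd heven 𝔫 hk1 hk2
  refine ⟨u, v, hun, hvn, (mem_nonunits_secondVal_iff_theta2S K N ℓ O S₂ u).2 hu2,
    (mem_nonunits_gaussVS_iff_thetaFin K N ℓ O v).2 hv1,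
    fun hmem => hu1 ((mem_nonunits_gaussVS_iff_thetaFin K N ℓ O u).1 hmem),
    fun hmem => hv2 ((mem_nonunits_secondVal_iff_theta2S K N ℓ O S₂ v).1 hmem),
    fun r hr => hp1 r ((mem_nonunits_secondVal_iff_theta2S K N ℓ O S₂ r).1 hr),
    fun r hr => hp2 r ((mem_nonunits_gaussVS_iff_thetaFin K N ℓ O r).1 hr), ?_, ?_⟩
  · intro x hx
    obtain ⟨s, hs, hsx⟩ := hpair x hx
    obtain ⟨a, b, hab⟩ := Ideal.mem_span_pair.1 hsx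
    exact ⟨s, a, b, hs, hab.symm⟩
  · obtain ⟨G, hG⟩ := Ideal.mem_span_singleton'.1 huv
    exact ⟨G, hG.symm⟩

end Fermat.Agent.S36.R1.Unconditional
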