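/-
S36, block (R1)/(AUX) (helper25): **the [AUX] → [R1] adapter**.

Level `(K, O)` (Setting language), `κ` the residue field of `O`, `R̄ = RbarFin K N O ⊆ κ((Q))` the
coordinate ring of the affine special fibre of level `N` (a Dedekind domain), `j̄ = jqModC κ ∈ R̄`.

From the Hauptmoduln of level `4` (helper10, `Haupt/FourRfin`) and of level `9` (helper4,
`Haupt/NineRfin`) in the chart `Rfin K N O`, at EVERY closed point `v` of `Spec R̄`:

* `4 ∣ N`, `2 ∈ Oˣ` : `3 ∣ ord_v j̄` and `2 ∣ ord_v (j̄ - 1728)`; if moreover `3 = 0` in `κ`: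
  `6 ∣ ord_v j̄`;
* `9 ∣ N`, `3⁻¹ ∈ O`, `2 = 0` in `κ` : `12 ∣ ord_v j̄`.

These are the hypotheses `hq5`, `hq3`, `hq2` of helper9's `OrdFinal.mem_pow_twelve_of_deltaK`; the
packaged corollary `mem_pow_twelve` is the order condition `hordb` of helper5's
`CrossingRegular.regular_fin_of_ord` for `P = θ₁ (Δ(z) / Δ(q z))`, under the side condition
`(q ≠ 2 ∧ 4 ∣ N) ∨ (q = 2 ∧ 9 ∣ N)` of the blueprint.
-/
import Mathlib
import Fermat.Agent.S36.R1.OrdFinal
import Fermat.Agent.S36.AuxLvl.OrdDedekind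
import Fermat.Agent.S36.Haupt.FourRfin
import Fermat.Agent.S36.Haupt.NineRfin
import Fermat.Agent.P3G.TwoComponentsB

set_option autoImplicit false
set_option linter.unusedSectionVars false
set_option linter.style.haveILetI false

open ModularCurve IsDedekindDomain WithZero
open Fermat.Agent.N4.Setting Fermat.Agent.P3G.RbarFin Fermat.Agent.P3G.TwoComponentsB

noncomputable section

namespace Fermat.Agent.S36.R1.AuxAdapter

variable (K : Type) [Field K] [CharZero K] (N : ℕ) [NeZero N]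
  (O : Subring K) [IsDiscreteValuationRing ↥O] [IsFractionRing ↥O K]

set_option quotPrecheck false in
local notation "κ" => IsLocalRing.ResidueField ↥O

/-- The reduction `Rfin K N O → R̄`. -/
def red : ↥(Rfin K N O) →+* ↥(RbarFin K N O) := (thetaFin K N O).rangeRestrict

theorem coe_red (x : ↥(Rfin K N O)) : ((red K N O x : ↥(RbarFin K N O)) : LaurentSeries κ) =
    thetaFin K N O x := rfl

theorem jqModC_mem : jqModC κ ∈ RbarFin K N O := ⟨jFin K N O, thetaFin_jFin K O N⟩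

/-- `j̄` as an element of `R̄`. -/
def jbar : ↥(RbarFin K N O) := ⟨jqModC κ, jqModC_mem K N O⟩

theorem red_jFin : red K N O (jFin K N O) = jbar K N O :=
  Subtype.ext (thetaFin_jFin K O N)

theorem C_mem (c : κ) : HahnSeries.C c ∈ RbarFin K N O := by
  obtain ⟨a, rfl⟩ := IsLocalRing.residue_surjective c
  exact ⟨algebraMap ↥O ↥(Rfin K N O) a, thetaFin_algebraMap K O N a⟩

theorem ofNat_eq_zero (n : ℕ) [n.AtLeastTwo] (h : (OfNat.ofNat n : κ) = 0) :
    (OfNat.ofNat n : ↥(RbarFin K N O)) = 0 := by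
  apply Subtype.ext
  show (OfNat.ofNat n : LaurentSeries κ) = 0
  rw [Fermat.Agent.S36.R1.OrdFinal.ofNat_eq_C, h, map_zero]

variable [IsDedekindDomain ↥(RbarFin K N O)] (v : HeightOneSpectrum ↥(RbarFin K N O))

theorem intValuation_red_unit {u : ↥(Rfin K N O)} (hu : IsUnit u) :
    v.intValuation (red K N O u) = 1 := by
  obtain ⟨w, hw⟩ := (hu.map (red K N O))
  rw [← hw]
  exact Fermat.Agent.S36.AuxLvl.OrdDedekind.intValuation_unit v w

/-- **Level 4**: `3 ∣ ord_v j̄`. -/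
theorem exists_pow_three (h4 : 4 ∣ N) (h2 : IsUnit (2 : ↥O)) :
    ∃ γ : ℤᵐ⁰, v.intValuation (jbar K N O) = γ ^ 3 := by
  obtain ⟨c, d, u, hu, hj, -, -⟩ := Fermat.Agent.S36.Haupt.FourRfin.exists_cube_square K N O h4 h2
  refine ⟨v.intValuation (red K N O c), ?_⟩
  rw [← red_jFin, hj, map_mul, map_pow, map_mul, map_pow, intValuation_red_unit K N O v hu, mul_one]

/-- **Level 4**: `2 ∣ ord_v (j̄ - 1728)`. -/
theorem exists_sub_pow_two (h4 : 4 ∣ N) (h2 : IsUnit (2 : ↥O)) :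
    ∃ γ : ℤᵐ⁰, v.intValuation (jbar K N O - 1728) = γ ^ 2 := by
  obtain ⟨c, d, u, hu, -, hj, -⟩ := Fermat.Agent.S36.Haupt.FourRfin.exists_cube_square K N O h4 h2
  refine ⟨v.intValuation (red K N O d), ?_⟩
  have h1 : jbar K N O - 1728 = red K N O (jFin K N O - 1728) := by
    rw [map_sub, red_jFin, map_ofNat]
  rw [h1, hj, map_mul, map_pow, map_mul, map_pow, intValuation_red_unit K N O v hu, mul_one]

/-- **Level 4, residue characteristic 3**: `6 ∣ ord_v j̄`. -/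
theorem exists_pow_six (h4 : 4 ∣ N) (h2 : IsUnit (2 : ↥O)) (h3 : (3 : κ) = 0) :
    ∃ γ : ℤᵐ⁰, v.intValuation (jbar K N O) = γ ^ 6 := by
  obtain ⟨c, d, u, hu, hj, -, e, r, hc⟩ :=
    Fermat.Agent.S36.Haupt.FourRfin.exists_cube_square K N O h4 h2
  refine ⟨v.intValuation (red K N O e), ?_⟩
  have h30 : (3 : ↥(RbarFin K N O)) = 0 := ofNat_eq_zero K N O 3 h3
  have hce : red K N O c = red K N O e ^ 2 := by
    rw [hc, RingHom.map_add, RingHom.map_pow, RingHom.map_mul, map_ofNat, h30, zero_mul, add_zero]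
  rw [← red_jFin, hj, map_mul, map_pow, map_mul, map_pow, intValuation_red_unit K N O v hu, mul_one,
    hce, map_pow, ← pow_mul]

/-- **Level 9, residue characteristic 2**: `12 ∣ ord_v j̄`. -/
theorem exists_pow_twelve (h9 : 9 ∣ N) (h3 : (3 : K)⁻¹ ∈ O) (h2 : (2 : κ) = 0) :
    ∃ γ : ℤᵐ⁰, v.intValuation (jbar K N O) = γ ^ 12 := by
  obtain ⟨c, u, e, r, hu, hj, hc⟩ := Fermat.Agent.S36.Haupt.NineRfin.exists_twelfth K N O h9 h3
  refine ⟨v.intValuation (red K N O e), ?_⟩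
  have h20 : (2 : ↥(RbarFin K N O)) = 0 := ofNat_eq_zero K N O 2 h2
  have hce : red K N O c = red K N O e ^ 12 := by
    rw [hc, RingHom.map_add, RingHom.map_pow, RingHom.map_mul, map_ofNat, h20, zero_mul, add_zero]
  rw [← red_jFin, hj, map_mul, map_mul, intValuation_red_unit K N O v hu, mul_one, hce, map_pow]

/-! ### The packaged order condition -/

omit [IsDedekindDomain ↥(RbarFin K N O)] in
theorem natCast_ne_zero_of_not_dvd (q : ℕ) [CharP κ q] {n : ℕ} (h : ¬ q ∣ n) :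
    ((n : ℕ) : κ) ≠ 0 := fun h0 => h ((CharP.cast_eq_zero_iff κ q n).1 h0)

omit [IsDedekindDomain ↥(RbarFin K N O)] in
theorem isUnit_natCast_of_not_dvd (q : ℕ) [CharP κ q] {n : ℕ} (h : ¬ q ∣ n) :
    IsUnit ((n : ℕ) : ↥O) := by
  have h1 : IsLocalRing.residue ↥O ((n : ℕ) : ↥O) ≠ 0 := by
    rw [map_natCast]
    exact natCast_ne_zero_of_not_dvd K O q h
  by_contra hu
  exact h1 ((IsLocalRing.residue_eq_zero_iff _).2 ((IsLocalRing.mem_maximalIdeal _).2 hu))

omit [IsDedekindDomain ↥(RbarFin K N O)] in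
/-- `2 ∈ Oˣ` in odd residue characteristic. -/
theorem isUnit_two (q : ℕ) [hq : Fact q.Prime] [CharP κ q] (hq2 : q ≠ 2) : IsUnit (2 : ↥O) := by
  have h : ¬ q ∣ 2 := fun hd => hq2 ((Nat.prime_dvd_prime_iff_eq hq.out Nat.prime_two).1 hd)
  have := isUnit_natCast_of_not_dvd K O q h
  simpa using this

omit [IsDedekindDomain ↥(RbarFin K N O)] in
/-- `3⁻¹ ∈ O` in residue characteristic `2`. -/
theorem inv_three_mem [CharP κ 2] : (3 : K)⁻¹ ∈ O := by
  have h : ¬ 2 ∣ 3 := by norm_num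
  obtain ⟨u, hu⟩ := isUnit_natCast_of_not_dvd K O 2 h
  have h4 : (((u : (↥O)ˣ) : ↥O) : K) = 3 := by
    rw [hu, Subring.coe_natCast, Nat.cast_ofNat]
  have h1 : (((u⁻¹ : (↥O)ˣ) : ↥O) : K) * 3 = 1 := by
    rw [← h4, ← Subring.coe_mul, Units.inv_mul, Subring.coe_one]
  rw [← eq_inv_of_mul_eq_one_left h1]
  exact ((u⁻¹ : (↥O)ˣ) : ↥O).2

/-- **The order condition `hordb` of `CrossingRegular.regular_fin_of_ord`** for the reduction `P` of
the modular unit `Δ(z) / Δ(q z)` (`P · Δ̄^(q-1) = 1`): at every closed point `v` of the special fibre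
of level `N`, `P ∈ 𝔪_v → P ∈ 𝔪_v ^ 12`, provided `4 ∣ N` (`q` odd) resp. `9 ∣ N` (`q = 2`). -/
theorem mem_pow_twelve (q : ℕ) [hq : Fact q.Prime] [CharP κ q]
    (haux : (q ≠ 2 ∧ 4 ∣ N) ∨ (q = 2 ∧ 9 ∣ N))
    (P : ↥(RbarFin K N O))
    (hP : (P : LaurentSeries κ) * Fermat.Agent.S16.BetaLemma.DeltaK κ ^ (q - 1) = 1)
    (hPv : P ∈ v.asIdeal) : P ∈ v.asIdeal ^ 12 := by
  refine Fermat.Agent.S36.R1.OrdFinal.mem_pow_twelve_of_deltaK (RbarFin K N O) q
    (jqModC_mem K N O) (C_mem K N O) P hP v ?_ ?_ ?_ hPv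
  · intro h5
    rcases haux with ⟨hq2, h4⟩ | ⟨h2, -⟩
    · exact ⟨exists_pow_three K N O v h4 (isUnit_two K O q hq2),
        exists_sub_pow_two K N O v h4 (isUnit_two K O q hq2)⟩
    · omega
  · intro h3
    rcases haux with ⟨hq2, h4⟩ | ⟨h2, -⟩
    · subst h3
      have h30 : (3 : κ) = 0 := by
        have := CharP.cast_eq_zero κ 3
        simpa using this
      exact exists_pow_six K N O v h4 (isUnit_two K O 3 hq2) h30
    · omega
  · intro h2
    rcases haux with ⟨hq2, -⟩ | ⟨-, h9⟩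
    · exact absurd h2 hq2
    · subst h2
      have h20 : (2 : κ) = 0 := by
        have := CharP.cast_eq_zero κ 2
        simpa using this
      exact exists_pow_twelve K N O v h9 (inv_three_mem K O) h20

end Fermat.Agent.S36.R1.AuxAdapter
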