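import Mathlib
import Fermat.Agent.S36.R1.Unconditional
import Fermat.Agent.S36.R2.TripleBranches

/-!
# S36, blocks (R1) → (R2): the two `BranchData` terms at a crossing point of level `N ℓ`

`exists_branchData` : in the setting of `S36/R1/Unconditional.lean`, at every closed point `𝔫` of
the finite chart `R = Rfin K (N ℓ) O` containing the centres of both vertical valuation rings
`V₁ = gaussVS K (N ℓ) O`, `V₂ = S₂.V` there are `u v : R` with

* `R2.TripleBranches.BranchData 𝔫 S₂.V u v` (branch `V₂`: generator `u`, transversal `v`),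
* `R2.TripleBranches.BranchData 𝔫 (gaussVS K (N ℓ) O) v u` (branch `V₁`: generator `v`,
  transversal `u`),
* `u v = G ϖ`.
-/

set_option autoImplicit false
set_option linter.unusedSectionVars false
set_option linter.style.haveILetI false

open ModularCurve Fermat.Agent.S28.Gauss Fermat.Agent.N4.Setting Fermat.Agent.N4.FibreEmbedding
open Fermat.Agent.N4.Chart
open Fermat.Agent.N4F.E.DegreeLevelRaise Fermat.Agent.N4F.E.GaussDVR AlgebraicCurve Polynomial
open Fermat.Agent.N4F.E IsLocalRing Fermat.Agent.P3G.RbarFin Fermat.Agent.P3G.TwoComponents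
open Fermat.Agent.P3G.TwoComponentsFinal Fermat.Agent.P3G
open Fermat.Agent.S36.R1.CrossingRegular Fermat.Agent.S36.R2.TripleBranches
open Fermat.Agent.P3G.Assembly.PowCover Fermat.Agent.P3G.Cover.Lift

noncomputable section

namespace Fermat.Agent.S36.R1.BranchPlug

variable (K : Type) [Field K] [CharZero K] (N : ℕ) [NeZero N] (ℓ : ℕ) [Fact ℓ.Prime]
  (O : Subring K) [IsDiscreteValuationRing ↥O] [IsFractionRing ↥O K]
  [CharP (IsLocalRing.ResidueField ↥O) ℓ] [PerfectRing (IsLocalRing.ResidueField ↥O) ℓ]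

set_option quotPrecheck false in
local notation "κ" => IsLocalRing.ResidueField ↥O

attribute [local instance] AlphaSide.algFL AlphaSide.algGL AlphaSide.isScalarTower_GFL

set_option synthInstance.maxHeartbeats 400000

variable (hN : IsUnit ((N : ℕ) : ↥O)) (ι : K →+* ℂ) (hℓN : ¬ ℓ ∣ N)
  (hprime : (fibreIdeal K N O (Rfin K N O)).IsPrime)
  (hsmooth : IsDedekindDomain (↥(Rfin K N O) ⧸ fibreIdeal K N O (Rfin K N O)))
  (hA2 : ∀ x : ↥(gaussSubalgebra K N O),
    theta K N O x ∈ modularFunctionFieldFullC (IsLocalRing.ResidueField ↥O) N)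
  (S₂ : FibreTwo.SecondVal K N ℓ O)
  {ϖ : ↥O} (hϖ : Irreducible ϖ)

include ι hℓN hprime hϖ in
/-- the finite chart of level `N ℓ` lies in both vertical valuation rings. -/
theorem mem_both (r : ↥(Rfin K (N * ℓ) O)) :
    (r : FF K (N * ℓ)) ∈ gaussVS K (N * ℓ) O ∧ (r : FF K (N * ℓ)) ∈ S₂.V := by
  have hB := FibreIdent.betaOut_of_secondVal K N ℓ O S₂
  have hT := FibreSatBridge.twoVal K N ℓ O ι hℓN hprime hB S₂ hϖ
  have hWs := FibreSatBridge.semiP K N ℓ O ι hℓN hprime hB S₂ hϖ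
  exact ⟨hT.mem₁ (hWs.le r), hT.mem₂ (hWs.le r)⟩

include hN ι hℓN hprime hsmooth hA2 hϖ in
/-- **(R1) → (R2): both `BranchData` terms at a crossing point.** -/
theorem exists_branchData (hunr : Associated (((ℓ : ℕ) : ↥O)) ϖ)
    (hodd : ℓ ≠ 2 → 2 * 2 ∣ N) (heven : ℓ = 2 → 9 ∣ N)
    (𝔫 : Ideal ↥(Rfin K (N * ℓ) O)) [h𝔫 : 𝔫.IsMaximal]
    (h1le : ∀ r : ↥(Rfin K (N * ℓ) O),
      (r : FF K (N * ℓ)) ∈ (gaussVS K (N * ℓ) O).nonunits → r ∈ 𝔫)
    (h2le : ∀ r : ↥(Rfin K (N * ℓ) O), (r : FF K (N * ℓ)) ∈ S₂.V.nonunits → r ∈ 𝔫) :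
    ∃ u v : ↥(Rfin K (N * ℓ) O),
      BranchData (F1 := FF K (N * ℓ)) 𝔫 S₂.V u v ∧
      BranchData (F1 := FF K (N * ℓ)) 𝔫 (gaussVS K (N * ℓ) O) v u ∧
      ∃ G : ↥(Rfin K (N * ℓ) O), u * v = G * algebraMap ↥O ↥(Rfin K (N * ℓ) O) ϖ := by
  obtain ⟨u, v, hun, hvn, hu2, hv1, hu1, hv2, hp2, hp1, hmax, hG⟩ :=
    Fermat.Agent.S36.R1.Unconditional.regular_fin_val K N ℓ O hN ι hℓN hprime hsmooth hA2 S₂ hϖ
      hunr hodd heven 𝔫 h1le h2le
  have hu0 : u ≠ 0 := by
    rintro rfl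
    exact hu1 (by simpa using (gaussVS K (N * ℓ) O).zero_mem_nonunits)
  have hv0 : v ≠ 0 := by
    rintro rfl
    exact hv2 (by simpa using S₂.V.zero_mem_nonunits)
  refine ⟨u, v, ?_, ?_, hG⟩
  · exact
      { hU := fun r => (mem_both K N ℓ O ι hℓN hprime S₂ hϖ r).2
        centre_le := h2le
        w_mem := hu2
        w_ne := hu0
        gen := hp2
        w'_mem := hvn
        w'_not := hv2
        gen_max := hmax }
  · exact
      { hU := fun r => (mem_both K N ℓ O ι hℓN hprime S₂ hϖ r).1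
        centre_le := h1le
        w_mem := hv1
        w_ne := hv0
        gen := hp1
        w'_mem := hun
        w'_not := hu1
        gen_max := fun r hr => by
          obtain ⟨s, a, b, hs, hab⟩ := hmax r hr
          exact ⟨s, b, a, hs, by rw [hab, add_comm]⟩ }

end Fermat.Agent.S36.R1.BranchPlug
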