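import Mathlib
import Fermat.Agent.S36.R1.CrossingRegularBoth
import Fermat.Agent.S36.R1.OrdFinal
import Fermat.Agent.S36.AuxLvl.OrdDedekind

/-!
# S36, block (R1): regularity at the crossing points of level `N ℓ` — final form

Setting of `S36/R1/CrossingRegularBoth.lean` (`S`-language of `P3G/TwoComponentsFinal`).  Inputs:

* (R1-U) a vertical unit pair `(h, g)` of `Rfin K (N ℓ) O` with `h * g = c ∼ ϖ ^ 12`,
  `θ₁ h · Δ̄ ^ (ℓ - 1) = 1` (`h = Δ(z)/Δ(ℓ z)`), `θ₂ g ≠ 0`;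
* (AUX) the divisibilities of the orders of `j̄`, `j̄ - 1728` on `R̄ = RbarFin K N O`
  (`AuxOrd`), e.g. from a Hauptmodul of level `4` (`ℓ ≠ 2`, `auxOrd_of_rel4`) or level `9`
  (`ℓ = 2`, `auxOrd_of_rel9`) in `Rfin K N O`.

Output (`regular_fin_final`): at every crossing point `𝔫` of `Rfin K (N ℓ) O` both branches are
principal, `𝔫 R_𝔫 = (u, v)`, `u v ∈ (ϖ)`.
-/

set_option autoImplicit false
set_option linter.unusedSectionVars false
set_option linter.style.haveILetI false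

open ModularCurve Fermat.Agent.S28.Gauss Fermat.Agent.N4.Setting Fermat.Agent.N4.FibreEmbedding
open Fermat.Agent.N4.Chart
open Fermat.Agent.N4F.E.DegreeLevelRaise Fermat.Agent.N4F.E.GaussDVR AlgebraicCurve Polynomial
open Fermat.Agent.N4F.E IsLocalRing Fermat.Agent.P3G.RbarFin Fermat.Agent.P3G.TwoComponents
open Fermat.Agent.P3G.TwoComponentsFinal Fermat.Agent.P3G
open Fermat.Agent.S36.R1.CrossingRegular Fermat.Agent.S16.BetaLemma
open IsDedekindDomain WithZero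

noncomputable section

namespace Fermat.Agent.S36.R1.Final

section Level

variable (K : Type) [Field K] [CharZero K] (M : ℕ) [NeZero M]
  (O : Subring K) [IsDiscreteValuationRing ↥O] [IsFractionRing ↥O K]

set_option quotPrecheck false in
local notation "κ" => IsLocalRing.ResidueField ↥O

/-- `j̄ ∈ R̄`. -/
theorem jqModC_mem : jqModC κ ∈ RbarFin K M O :=
  ⟨jFin K M O, TwoComponentsB.thetaFin_jFin K O M⟩

/-- the constants lie in `R̄`. -/
theorem C_mem (c : κ) : HahnSeries.C c ∈ RbarFin K M O := by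
  obtain ⟨a, rfl⟩ := IsLocalRing.residue_surjective c
  exact ⟨algebraMap ↥O ↥(Rfin K M O) a, TwoComponentsB.thetaFin_algebraMap K O M a⟩

/-- **(AUX), consumer form**: the divisibilities of the orders of `j̄` and `j̄ - 1728` at the
closed points of the affine special fibre of level `M`, in the three cases `ℓ ≥ 5`, `ℓ = 3`,
`ℓ = 2`. -/
def AuxOrd (ℓ : ℕ) [IsDedekindDomain ↥(RbarFin K M O)] : Prop :=
  ∀ v : HeightOneSpectrum ↥(RbarFin K M O),
    (5 ≤ ℓ → (∃ γ : ℤᵐ⁰, v.intValuation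
        (⟨jqModC κ, jqModC_mem K M O⟩ : ↥(RbarFin K M O)) = γ ^ 3) ∧
      ∃ γ : ℤᵐ⁰, v.intValuation
        ((⟨jqModC κ, jqModC_mem K M O⟩ : ↥(RbarFin K M O)) - 1728) = γ ^ 2) ∧
    (ℓ = 3 → ∃ γ : ℤᵐ⁰, v.intValuation
        (⟨jqModC κ, jqModC_mem K M O⟩ : ↥(RbarFin K M O)) = γ ^ 6) ∧
    (ℓ = 2 → ∃ γ : ℤᵐ⁰, v.intValuation
        (⟨jqModC κ, jqModC_mem K M O⟩ : ↥(RbarFin K M O)) = γ ^ 12)


/-! ### (AUX) from a Hauptmodul of level `4` (`ℓ ≠ 2`) resp. `9` (`ℓ = 2`) -/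

section Adapters

variable {ℓ : ℕ} [Fact ℓ.Prime] [CharP (IsLocalRing.ResidueField ↥O) ℓ]
  [IsDedekindDomain ↥(RbarFin K M O)]

theorem natCast_eq_C (n : ℕ) [n.AtLeastTwo] :
    ((OfNat.ofNat n : ↥(RbarFin K M O)) : LaurentSeries κ) = HahnSeries.C (OfNat.ofNat n : κ) :=
  OrdFinal.ofNat_eq_C n

/-- **(AUX) from the level-`4` Hauptmodul, reduced form**: `t̄ ∈ R̄` with
`j̄ t̄⁴ (t̄ + 16) = (t̄² + 256 t̄ + 4096)³`, `ℓ ≠ 2`. -/
theorem auxOrd_of_rel4 (hℓ2 : ℓ ≠ 2) (t : LaurentSeries κ) (ht : t ∈ RbarFin K M O)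
    (hrel : jqModC κ * t ^ 4 * (t + 16) = (t ^ 2 + 256 * t + 4096) ^ 3) :
    AuxOrd K M O ℓ := by
  classical
  set j : ↥(RbarFin K M O) := ⟨jqModC κ, jqModC_mem K M O⟩ with hj
  set t' : ↥(RbarFin K M O) := ⟨t, ht⟩ with ht'
  have hrelA : j * t' ^ 4 * (t' + 16) = (t' ^ 2 + 256 * t' + 4096) ^ 3 := by
    apply Subtype.ext
    simp only [Subring.coe_mul, Subring.coe_pow, Subring.coe_add]
    exact hrel
  have hrelF : Fermat.Agent.S36.AuxLvl.OrdAbs.Rel4 (algebraMap ↥(RbarFin K M O) (FractionRing ↥(RbarFin K M O)) j)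
      (algebraMap ↥(RbarFin K M O) (FractionRing ↥(RbarFin K M O)) t') := by
    have := congrArg (algebraMap ↥(RbarFin K M O) (FractionRing ↥(RbarFin K M O))) hrelA
    simpa [Fermat.Agent.S36.AuxLvl.OrdAbs.Rel4, map_mul, map_pow, map_add, map_ofNat] using this
  have hℓ : (ℓ : κ) = 0 := CharP.cast_eq_zero κ ℓ
  intro v
  refine ⟨fun h5 => ?_, fun h3 => ?_, fun h2 => absurd h2 hℓ2⟩
  · -- `2` is a unit
    have h2ne : (2 : κ) ≠ 0 := by
      intro h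
      have : (ℓ : ℕ) ∣ 2 := by
        rw [← CharP.cast_eq_zero_iff κ ℓ]
        exact_mod_cast h
      have := Nat.le_of_dvd (by norm_num) this
      omega
    have h2u : IsUnit (2 : ↥(RbarFin K M O)) := by
      refine IsUnit.of_mul_eq_one (⟨HahnSeries.C ((2 : κ)⁻¹), C_mem K M O _⟩ : ↥(RbarFin K M O)) ?_
      apply Subtype.ext
      rw [Subring.coe_mul, natCast_eq_C K M O 2, Subring.coe_one, ← map_mul,
        mul_inv_cancel₀ h2ne, map_one]
    exact ⟨Fermat.Agent.S36.AuxLvl.OrdDedekind.exists_intValuation_eq_pow_three v h2u j _ hrelF,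
      Fermat.Agent.S36.AuxLvl.OrdDedekind.exists_intValuation_sub_eq_pow_two v h2u j _ hrelF⟩
  · have h3A : (3 : ↥(RbarFin K M O)) = 0 := by
      apply Subtype.ext
      rw [natCast_eq_C K M O 3, Subring.coe_zero]
      have : (3 : κ) = 0 := by
        have := hℓ
        rw [h3] at this
        exact_mod_cast this
      rw [this, map_zero]
    exact Fermat.Agent.S36.AuxLvl.OrdDedekind.exists_intValuation_eq_pow_six v h3A j _ hrelF

/-- **(AUX) from the level-`9` Hauptmodul, reduced form**, `ℓ = 2`. -/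
theorem auxOrd_of_rel9 (hℓ2 : ℓ = 2) (s : LaurentSeries κ) (hs : s ∈ RbarFin K M O)
    (hrel : jqModC κ * s ^ 9 * (s ^ 2 + 9 * s + 27) =
      ((s + 9) * (s ^ 3 + 243 * s ^ 2 + 2187 * s + 6561)) ^ 3) :
    AuxOrd K M O ℓ := by
  classical
  set j : ↥(RbarFin K M O) := ⟨jqModC κ, jqModC_mem K M O⟩ with hj
  set s' : ↥(RbarFin K M O) := ⟨s, hs⟩ with hs'
  have hrelA : j * s' ^ 9 * (s' ^ 2 + 9 * s' + 27) =
      ((s' + 9) * (s' ^ 3 + 243 * s' ^ 2 + 2187 * s' + 6561)) ^ 3 := by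
    apply Subtype.ext
    simp only [Subring.coe_mul, Subring.coe_pow, Subring.coe_add]
    exact hrel
  have hrelF : Fermat.Agent.S36.AuxLvl.OrdDedekind.Rel9 (algebraMap ↥(RbarFin K M O) (FractionRing ↥(RbarFin K M O)) j)
      (algebraMap ↥(RbarFin K M O) (FractionRing ↥(RbarFin K M O)) s') := by
    have := congrArg (algebraMap ↥(RbarFin K M O) (FractionRing ↥(RbarFin K M O))) hrelA
    simpa [Fermat.Agent.S36.AuxLvl.OrdDedekind.Rel9, map_mul, map_pow, map_add, map_ofNat]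
      using this
  have hℓ : (ℓ : κ) = 0 := CharP.cast_eq_zero κ ℓ
  intro v
  refine ⟨fun h5 => by omega, fun h3 => by omega, fun _ => ?_⟩
  have h2A : (2 : ↥(RbarFin K M O)) = 0 := by
    apply Subtype.ext
    rw [natCast_eq_C K M O 2, Subring.coe_zero]
    have : (2 : κ) = 0 := by
      have := hℓ
      rw [hℓ2] at this
      exact_mod_cast this
    rw [this, map_zero]
  exact Fermat.Agent.S36.AuxLvl.OrdDedekind.exists_intValuation_eq_pow_twelve v h2A j _ hrelF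

/-- **(AUX) from the level-`4` Hauptmodul in the chart** `Rfin K M O` (`4 ∣ M`), `ℓ ≠ 2`. -/
theorem auxOrd_of_rel4_rfin (hℓ2 : ℓ ≠ 2) (t : ↥(Rfin K M O))
    (hrel : jFin K M O * t ^ 4 * (t + 16) = (t ^ 2 + 256 * t + 4096) ^ 3) :
    AuxOrd K M O ℓ := by
  refine auxOrd_of_rel4 K M O hℓ2 (thetaFin K M O t) (thetaFin_mem K M O t) ?_
  have := congrArg (thetaFin K M O) hrel
  simpa [map_mul, map_pow, map_add, map_ofNat, TwoComponentsB.thetaFin_jFin] using this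

/-- **(AUX) from the level-`9` Hauptmodul in the chart** `Rfin K M O` (`9 ∣ M`), `ℓ = 2`. -/
theorem auxOrd_of_rel9_rfin (hℓ2 : ℓ = 2) (s : ↥(Rfin K M O))
    (hrel : jFin K M O * s ^ 9 * (s ^ 2 + 9 * s + 27) =
      ((s + 9) * (s ^ 3 + 243 * s ^ 2 + 2187 * s + 6561)) ^ 3) :
    AuxOrd K M O ℓ := by
  refine auxOrd_of_rel9 K M O hℓ2 (thetaFin K M O s) (thetaFin_mem K M O s) ?_
  have := congrArg (thetaFin K M O) hrel
  simpa [map_mul, map_pow, map_add, map_ofNat, TwoComponentsB.thetaFin_jFin] using this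

end Adapters

end Level

/-! ### The final statement at a crossing point -/

section Crossing

variable (K : Type) [Field K] [CharZero K] (N : ℕ) [NeZero N] (ℓ : ℕ) [Fact ℓ.Prime]
  (O : Subring K) [IsDiscreteValuationRing ↥O] [IsFractionRing ↥O K]
  [CharP (IsLocalRing.ResidueField ↥O) ℓ] [PerfectRing (IsLocalRing.ResidueField ↥O) ℓ]

set_option quotPrecheck false in
local notation "κ" => IsLocalRing.ResidueField ↥O

attribute [local instance] AlphaSide.algFL AlphaSide.algGL AlphaSide.isScalarTower_GFL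

set_option synthInstance.maxHeartbeats 400000

variable (hN : IsUnit ((N : ℕ) : ↥O)) (ι : K →+* ℂ) (hℓN : ¬ ℓ ∣ N)
  (hprime : (fibreIdeal K N O (Rfin K N O)).IsPrime)
  (hsmooth : IsDedekindDomain (↥(Rfin K N O) ⧸ fibreIdeal K N O (Rfin K N O)))
  (hA2 : ∀ x : ↥(gaussSubalgebra K N O),
    theta K N O x ∈ modularFunctionFieldFullC (IsLocalRing.ResidueField ↥O) N)
  (S₂ : FibreTwo.SecondVal K N ℓ O)
  {ϖ : ↥O} (hϖ : Irreducible ϖ)


include hN ι hℓN hprime hsmooth hA2 hϖ in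
/-- **(R1), final form.**  At every crossing point `𝔫` of the finite chart of level `N ℓ`
(`ker θ₁ ≤ 𝔫`, `ker θ₂ ≤ 𝔫`): from the modular unit pair `(h, g)`, `h g = c ∼ ϖ ^ 12`,
`θ₁ h · Δ̄ ^ (ℓ - 1) = 1`, `θ₂ g ≠ 0`, and the divisibilities (AUX) at level `N`, both vertical
branches through `𝔫` are principal (generated by the crossing coordinates `u`, `v`),
`𝔫 R_𝔫 = (u, v)` and `u v ∈ (ϖ)`. -/
theorem regular_fin_final (𝔫 : Ideal ↥(Rfin K (N * ℓ) O)) [h𝔫 : 𝔫.IsMaximal]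
    (hk1 : RingHom.ker (thetaFin K (N * ℓ) O) ≤ 𝔫)
    (hk2 : RingHom.ker (theta2S K N ℓ O S₂) ≤ 𝔫)
    {h g : ↥(Rfin K (N * ℓ) O)} {c : ↥O} (hc : Associated c (ϖ ^ 12))
    (hhg : h * g = algebraMap ↥O ↥(Rfin K (N * ℓ) O) c)
    (hP : thetaFin K (N * ℓ) O h * DeltaK κ ^ (ℓ - 1) = 1)
    (hg2 : theta2S K N ℓ O S₂ g ≠ 0)
    (haux : haveI := isDedekindDomain_RbarFin K N O hprime hsmooth; AuxOrd K N O ℓ) :
    ∃ u v : ↥(Rfin K (N * ℓ) O), u ∈ 𝔫 ∧ v ∈ 𝔫 ∧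
      theta2S K N ℓ O S₂ u = 0 ∧ thetaFin K (N * ℓ) O v = 0 ∧
      thetaFin K (N * ℓ) O u ≠ 0 ∧ theta2S K N ℓ O S₂ v ≠ 0 ∧
      (∀ r : ↥(Rfin K (N * ℓ) O), theta2S K N ℓ O S₂ r = 0 →
        ∃ s c' : ↥(Rfin K (N * ℓ) O), s ∉ 𝔫 ∧ s * r = c' * u) ∧
      (∀ r : ↥(Rfin K (N * ℓ) O), thetaFin K (N * ℓ) O r = 0 →
        ∃ s c' : ↥(Rfin K (N * ℓ) O), s ∉ 𝔫 ∧ s * r = c' * v) ∧
      (∀ x ∈ 𝔫, ∃ s : ↥(Rfin K (N * ℓ) O), s ∉ 𝔫 ∧ s * x ∈ Ideal.span {u, v}) ∧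
      u * v ∈ Ideal.span {algebraMap ↥O ↥(Rfin K (N * ℓ) O) ϖ} := by
  classical
  haveI := isDedekindDomain_RbarFin K N O hprime hsmooth
  have hh1 : thetaFin K (N * ℓ) O h ≠ 0 := by
    intro h0
    rw [h0, zero_mul] at hP
    exact zero_ne_one hP
  refine Fermat.Agent.S36.R1.CrossingRegularBoth.regular_fin_both_of_ord K N ℓ O hN ι hℓN hprime
    hsmooth hA2 S₂ hϖ 𝔫 hk1 hk2 (m := 12) (by norm_num) hc hhg hh1 hg2 ?_
  intro v hPv
  obtain ⟨h5, h3, h2⟩ := haux v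
  have hP' : ((CrossingLaurent.res (RbarFin K N O) (thetaFin K (N * ℓ) O)
      (thetaFin_mem_rbar K N ℓ O hN ι hℓN hprime hsmooth hA2 S₂) h : ↥(RbarFin K N O)) :
        LaurentSeries κ) * DeltaK κ ^ (ℓ - 1) = 1 := hP
  exact OrdFinal.mem_pow_twelve_of_deltaK (RbarFin K N O) ℓ (jqModC_mem K N O) (C_mem K N O)
    (CrossingLaurent.res (RbarFin K N O) (thetaFin K (N * ℓ) O)
      (thetaFin_mem_rbar K N ℓ O hN ι hℓN hprime hsmooth hA2 S₂) h) hP' v h5 h3 h2 hPv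

end Crossing

end Fermat.Agent.S36.R1.Final
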